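import Mathlib.AlgebraicGeometry.EllipticCurve.Affine.Point
import Mathlib.AlgebraicGeometry.EllipticCurve.VariableChange
import Mathlib.Tactic.LinearCombination
import Mathlib.Tactic.FieldSimp

/-!
# The isomorphism on points induced by a change of variables
-/

set_option autoImplicit false

namespace FLTAgent.Reduction

open WeierstrassCurve

variable {L : Type*} [Field L] (C : VariableChange L) (W : WeierstrassCurve L)

/-- New `X`-coordinate. -/
def vcX (x : L) : L := (C.u⁻¹ : Lˣ) ^ 2 * (x - C.r)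

/-- New `Y`-coordinate. -/
def vcY (x y : L) : L := (C.u⁻¹ : Lˣ) ^ 3 * (y - C.s * (x - C.r) - C.t)

lemma equation_vc (x y : L) :
    (C • W).toAffine.Equation (vcX C x) (vcY C x y) ↔ W.toAffine.Equation x y := by
  rw [Affine.equation_iff, Affine.equation_iff]
  simp only [variableChange_a₁, variableChange_a₂, variableChange_a₃, variableChange_a₄,
    variableChange_a₆, vcX, vcY]
  have hw : ((C.u⁻¹ : Lˣ) : L) ≠ 0 := Units.ne_zero _
  generalize ((C.u⁻¹ : Lˣ) : L) = w at hw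
  constructor
  · intro h
    refine mul_left_cancel₀ (pow_ne_zero 6 hw) ?_
    linear_combination h
  · intro h
    linear_combination w ^ 6 * h

lemma nonsingular_vc (x y : L) :
    (C • W).toAffine.Nonsingular (vcX C x) (vcY C x y) ↔ W.toAffine.Nonsingular x y := by
  rw [Affine.nonsingular_iff', Affine.nonsingular_iff', equation_vc C W x y]
  refine and_congr_right fun _ => ?_
  have hw : ((C.u⁻¹ : Lˣ) : L) ≠ 0 := Units.ne_zero _
  have e₁ : (C • W).a₁ * vcY C x y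
      - (3 * vcX C x ^ 2 + 2 * (C • W).a₂ * vcX C x + (C • W).a₄)
      = ((C.u⁻¹ : Lˣ) : L) ^ 4 * ((W.a₁ * y - (3 * x ^ 2 + 2 * W.a₂ * x + W.a₄))
        + C.s * (2 * y + W.a₁ * x + W.a₃)) := by
    simp only [variableChange_a₁, variableChange_a₂, variableChange_a₄, vcX, vcY]; ring
  have e₂ : 2 * vcY C x y + (C • W).a₁ * vcX C x + (C • W).a₃
      = ((C.u⁻¹ : Lˣ) : L) ^ 3 * (2 * y + W.a₁ * x + W.a₃) := by
    simp only [variableChange_a₁, variableChange_a₃, vcX, vcY]; ring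
  rw [e₁, e₂, mul_ne_zero_iff, mul_ne_zero_iff, and_iff_right (pow_ne_zero _ hw),
    and_iff_right (pow_ne_zero _ hw)]
  rcases eq_or_ne (2 * y + W.a₁ * x + W.a₃) 0 with h | h
  · simp [h]
  · simp [h]

/-- Image of a point. -/
def vcFun : W.toAffine.Point → (C • W).toAffine.Point
  | .zero => .zero
  | .some x y h => .some _ _ ((nonsingular_vc C W x y).2 h)

/-- Old `X`-coordinate. -/
def vcXinv (x : L) : L := (C.u : L) ^ 2 * x + C.r

/-- Old `Y`-coordinate. -/
def vcYinv (x y : L) : L := (C.u : L) ^ 3 * y + (C.u : L) ^ 2 * C.s * x + C.t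

lemma vcX_vcXinv (x : L) : vcX C (vcXinv C x) = x := by
  simp only [vcX, vcXinv, Units.val_inv_eq_inv_val]
  field_simp
  ring

lemma vcY_vcYinv (x y : L) : vcY C (vcXinv C x) (vcYinv C x y) = y := by
  simp only [vcY, vcXinv, vcYinv, Units.val_inv_eq_inv_val]
  field_simp
  ring

lemma vcXinv_vcX (x : L) : vcXinv C (vcX C x) = x := by
  simp only [vcX, vcXinv, Units.val_inv_eq_inv_val]
  field_simp
  ring

lemma vcYinv_vcY (x y : L) : vcYinv C (vcX C x) (vcY C x y) = y := by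
  simp only [vcY, vcX, vcYinv, Units.val_inv_eq_inv_val]
  field_simp
  ring

/-- Preimage of a point. -/
def vcInvFun : (C • W).toAffine.Point → W.toAffine.Point
  | .zero => .zero
  | .some x y h => .some (vcXinv C x) (vcYinv C x y)
      ((nonsingular_vc C W _ _).1 (by rw [vcX_vcXinv, vcY_vcYinv]; exact h))

variable [DecidableEq L]

lemma negY_vc (x y : L) :
    (C • W).toAffine.negY (vcX C x) (vcY C x y) = vcY C x (W.toAffine.negY x y) := by
  simp only [Affine.negY, variableChange_a₁, variableChange_a₃, vcX, vcY]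
  ring

omit [DecidableEq L] in
lemma vcX_inj {x₁ x₂ : L} : vcX C x₁ = vcX C x₂ ↔ x₁ = x₂ := by
  refine ⟨fun h => ?_, fun h => h ▸ rfl⟩
  rw [← vcXinv_vcX C x₁, h, vcXinv_vcX]

omit [DecidableEq L] in
lemma vcY_inj {x y₁ y₂ : L} : vcY C x y₁ = vcY C x y₂ ↔ y₁ = y₂ := by
  refine ⟨fun h => ?_, fun h => h ▸ rfl⟩
  rw [← vcYinv_vcY C x y₁, h, vcYinv_vcY]

lemma slope_vc {x₁ x₂ y₁ y₂ : L} (h₁ : W.toAffine.Equation x₁ y₁)
    (h₂ : W.toAffine.Equation x₂ y₂) (hxy : ¬(x₁ = x₂ ∧ y₁ = W.toAffine.negY x₂ y₂)) :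
    (C • W).toAffine.slope (vcX C x₁) (vcX C x₂) (vcY C x₁ y₁) (vcY C x₂ y₂)
      = ((C.u⁻¹ : Lˣ) : L) * (W.toAffine.slope x₁ x₂ y₁ y₂ - C.s) := by
  have hw : ((C.u⁻¹ : Lˣ) : L) ≠ 0 := Units.ne_zero _
  by_cases hx : x₁ = x₂
  · have hy : y₁ ≠ W.toAffine.negY x₂ y₂ := fun h => hxy ⟨hx, h⟩
    have hy' := Affine.Y_eq_of_Y_ne h₁ h₂ hx hy
    subst hx hy'
    have hne : vcY C x₁ y₁ ≠ (C • W).toAffine.negY (vcX C x₁) (vcY C x₁ y₁) := by
      rw [negY_vc]; exact fun h => hy ((vcY_inj C).1 h)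
    rw [Affine.slope_of_Y_ne rfl hne, Affine.slope_of_Y_ne rfl hy,
      div_eq_iff (sub_ne_zero.2 hne)]
    have hd : y₁ - W.toAffine.negY x₁ y₁ ≠ 0 := sub_ne_zero.2 hy
    have hl := div_mul_cancel₀ (3 * x₁ ^ 2 + 2 * W.a₂ * x₁ + W.a₄ - W.a₁ * y₁) hd
    generalize (3 * x₁ ^ 2 + 2 * W.a₂ * x₁ + W.a₄ - W.a₁ * y₁)
      / (y₁ - W.toAffine.negY x₁ y₁) = l at hl ⊢
    simp only [Affine.negY, variableChange_a₁, variableChange_a₂, variableChange_a₃,
      variableChange_a₄, vcX, vcY] at hl ⊢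
    linear_combination (-((C.u⁻¹ : Lˣ) : L) ^ 4) * hl
  · have hx' : vcX C x₁ ≠ vcX C x₂ := fun h => hx ((vcX_inj C).1 h)
    rw [Affine.slope_of_X_ne hx, Affine.slope_of_X_ne hx', div_eq_iff (sub_ne_zero.2 hx')]
    have hl := div_mul_cancel₀ (y₁ - y₂) (sub_ne_zero.2 hx)
    generalize (y₁ - y₂) / (x₁ - x₂) = l at hl ⊢
    simp only [vcX, vcY]
    linear_combination (-((C.u⁻¹ : Lˣ) : L) ^ 3) * hl

lemma vcFun_add (P Q : W.toAffine.Point) :
    vcFun C W (P + Q) = vcFun C W P + vcFun C W Q := by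
  rcases P with _ | ⟨x₁, y₁, h₁⟩
  · rfl
  rcases Q with _ | ⟨x₂, y₂, h₂⟩
  · rfl
  by_cases hxy : x₁ = x₂ ∧ y₁ = W.toAffine.negY x₂ y₂
  · rw [Affine.Point.add_of_Y_eq hxy.1 hxy.2]
    simp only [vcFun]
    rw [Affine.Point.add_of_Y_eq (by rw [hxy.1]) (by rw [negY_vc, hxy.1, hxy.2])]
    rfl
  · have hxy' : ¬(vcX C x₁ = vcX C x₂ ∧
        vcY C x₁ y₁ = (C • W).toAffine.negY (vcX C x₂) (vcY C x₂ y₂)) := by
      rintro ⟨hx, hy⟩
      obtain rfl := (vcX_inj C).1 hx
      rw [negY_vc] at hy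
      exact hxy ⟨rfl, (vcY_inj C).1 hy⟩
    rw [Affine.Point.add_some hxy]
    simp only [vcFun]
    rw [Affine.Point.add_some hxy']
    simp only [Affine.Point.some.injEq]
    rw [slope_vc C W h₁.1 h₂.1 hxy]
    generalize W.toAffine.slope x₁ x₂ y₁ y₂ = l
    simp only [Affine.addX, Affine.addY, Affine.negAddY, Affine.negY, variableChange_a₁,
      variableChange_a₂, variableChange_a₃, vcX, vcY]
    constructor <;> ring

/-- The isomorphism of point groups induced by a change of variables. -/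
def vcEquiv : W.toAffine.Point ≃+ (C • W).toAffine.Point where
  toFun := vcFun C W
  invFun := vcInvFun C W
  left_inv := by
    rintro (_ | ⟨x, y, h⟩)
    · rfl
    · simp only [vcFun, vcInvFun, Affine.Point.some.injEq]
      exact ⟨vcXinv_vcX C x, vcYinv_vcY C x y⟩
  right_inv := by
    rintro (_ | ⟨x, y, h⟩)
    · rfl
    · simp only [vcFun, vcInvFun, Affine.Point.some.injEq]
      exact ⟨vcX_vcXinv C x, vcY_vcYinv C x y⟩
  map_add' := vcFun_add C W

@[simp] lemma vcEquiv_zero : vcEquiv C W 0 = 0 := rfl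

lemma vcEquiv_some {x y : L} (h : W.toAffine.Nonsingular x y) :
    vcEquiv C W (.some _ _ h) = .some _ _ ((nonsingular_vc C W x y).2 h) := rfl

lemma vcEquiv_symm_some {x y : L} (h : (C • W).toAffine.Nonsingular x y) :
    (vcEquiv C W).symm (.some _ _ h) = .some (vcXinv C x) (vcYinv C x y)
      ((nonsingular_vc C W _ _).1 (by rw [vcX_vcXinv, vcY_vcYinv]; exact h)) := rfl

end FLTAgent.Reduction
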