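import Fermat.Agent.Reduction.Hom
import Fermat.Agent.Reduction.VariableChange

/-!
# `E₁` has no torsion of order prime to the residue characteristic

Scaling a point of `E₁` turns it into a nonzero point of the cuspidal curve `y² = x³`, whose group
is the additive group of the residue field.
-/

set_option autoImplicit false

namespace FLTAgent.Reduction

open WeierstrassCurve IsLocalRing

/-- The curve `y² = x³`. -/
def cuspCurve (k : Type*) [CommRing k] : WeierstrassCurve k := ⟨0, 0, 0, 0, 0⟩

section Cusp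

variable {k : Type*} [Field k] [DecidableEq k]

omit [DecidableEq k] in
lemma cusp_nonsingular {t : k} (ht : t ≠ 0) :
    (cuspCurve k).toAffine.Nonsingular (t ^ 2)⁻¹ (t ^ 3)⁻¹ := by
  rw [Affine.nonsingular_iff', Affine.equation_iff]
  simp only [cuspCurve, zero_mul, add_zero, mul_zero, zero_sub, sub_zero]
  refine ⟨by field_simp, ?_⟩
  by_cases h3 : (3 : k) = 0
  · right
    refine mul_ne_zero (fun h2 => ?_) (inv_ne_zero (pow_ne_zero 3 ht))
    apply one_ne_zero (α := k)
    linear_combination h3 - h2
  · left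
    exact neg_ne_zero.2 (mul_ne_zero h3 (pow_ne_zero 2 (inv_ne_zero (pow_ne_zero 2 ht))))

/-- `t ↦ (1/t², 1/t³)`. -/
def cuspPoint (t : k) : (cuspCurve k).toAffine.Point :=
  if ht : t = 0 then 0 else .some _ _ (cusp_nonsingular ht)

lemma nsmul_cusp_one (m : ℕ) : m • cuspPoint (1 : k) = cuspPoint (m : k) := by
  induction m with
  | zero => rw [zero_nsmul, Nat.cast_zero, cuspPoint, dif_pos rfl]
  | succ m ih =>
    rw [succ_nsmul, ih]
    by_cases hm : (m : k) = 0
    · rw [Nat.cast_succ, hm, zero_add]
      rw [cuspPoint, dif_pos rfl, zero_add]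
    · have h1 : (1 : k) ≠ 0 := one_ne_zero
      rw [cuspPoint, dif_neg hm, cuspPoint, dif_neg h1]
      by_cases hs : ((m + 1 : ℕ) : k) = 0
      · rw [cuspPoint, dif_pos hs]
        have hm1 : (m : k) = -1 := by
          rw [Nat.cast_succ] at hs; linear_combination hs
        refine Affine.Point.add_of_Y_eq ?_ ?_
        · rw [hm1]; ring
        · simp only [Affine.negY, cuspCurve, hm1]; norm_num
      · rw [cuspPoint, dif_neg hs]
        rw [Nat.cast_succ] at hs
        have hxy : ¬(((m : k) ^ 2)⁻¹ = ((1 : k) ^ 2)⁻¹ ∧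
            ((m : k) ^ 3)⁻¹ = (cuspCurve k).toAffine.negY ((1 : k) ^ 2)⁻¹ ((1 : k) ^ 3)⁻¹) := by
          rintro ⟨hx, hy⟩
          simp only [Affine.negY, cuspCurve, zero_mul, sub_zero, one_pow, inv_one] at hx hy
          have hx' : (m : k) ^ 2 = 1 := inv_eq_one.1 hx
          have hy' : (m : k) ^ 3 = -1 := by
            rw [inv_eq_iff_eq_inv, inv_neg, inv_one] at hy; exact hy
          apply hs
          linear_combination hy' - (m : k) * hx'
        rw [Affine.Point.add_some hxy]
        simp only [Affine.Point.some.injEq]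
        have hl : (cuspCurve k).toAffine.slope ((m : k) ^ 2)⁻¹ ((1 : k) ^ 2)⁻¹ ((m : k) ^ 3)⁻¹
            ((1 : k) ^ 3)⁻¹ = ((m : k) ^ 2 + m + 1) / ((m : k) * (m + 1)) := by
          by_cases hx : ((m : k) ^ 2)⁻¹ = ((1 : k) ^ 2)⁻¹
          · have hy : ((m : k) ^ 3)⁻¹ ≠
                (cuspCurve k).toAffine.negY ((1 : k) ^ 2)⁻¹ ((1 : k) ^ 3)⁻¹ := fun h => hxy ⟨hx, h⟩
            have hm1 : (m : k) = 1 := by
              rw [one_pow, inv_one, inv_eq_one, sq_eq_one_iff] at hx
              exact hx.resolve_right fun h => hs (by rw [h]; ring)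
            rw [Affine.slope_of_Y_ne hx hy]
            simp only [Affine.negY, cuspCurve, hm1, one_pow, inv_one, mul_one, mul_zero, sub_zero,
              add_zero]
            norm_num
          · rw [Affine.slope_of_X_ne hx, div_eq_div_iff (sub_ne_zero.2 hx) (mul_ne_zero hm hs)]
            field_simp
            ring
        rw [hl, Nat.cast_succ]
        simp only [Affine.addX, Affine.addY, Affine.negAddY, Affine.negY, cuspCurve]
        constructor <;> field_simp <;> ring

end Cusp

variable {L : Type*} [Field L] [DecidableEq L] {A : ValuationSubring L} {W : WeierstrassCurve L}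

/-- `E₁` has no torsion of order invertible in the residue field. -/
theorem eq_zero_of_mem_oneSubgroup (hW : IntegralAt A W) {P : W.toAffine.Point}
    (hP : P ∈ oneSubgroup hW) {n : ℕ} (hn : (n : ResidueField A) ≠ 0) (h : n • P = 0) : P = 0 := by
  classical
  rcases P with _ | ⟨x, y, hxy⟩
  · rfl
  exfalso
  have hx : x ∉ A := hP
  obtain ⟨hsq, hXY⟩ := v_y_of_x_not_mem hW hxy.1 hx
  have hX : 1 < A.valuation x := one_lt_v_iff.2 hx
  have hX0 : A.valuation x ≠ 0 := ne_of_gt (lt_trans zero_lt_one hX)
  have hY0 : A.valuation y ≠ 0 := ne_of_gt (lt_trans (lt_trans zero_lt_one hX) hXY)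
  have hx0 : x ≠ 0 := by rintro rfl; exact hX0 (map_zero _)
  have hy0 : y ≠ 0 := by rintro rfl; exact hY0 (map_zero _)
  set C : VariableChange L := ⟨Units.mk0 (y / x) (div_ne_zero hy0 hx0), 0, 0, 0⟩ with hC
  have hw : A.valuation ((C.u⁻¹ : Lˣ) : L) < 1 := by
    rw [Units.val_inv_eq_inv_val, hC, Units.val_mk0, inv_div, map_div₀]
    exact (div_lt_one₀ (lt_trans (lt_trans zero_lt_one hX) hXY)).2 hXY
  have hwA : ((C.u⁻¹ : Lˣ) : L) ∈ A := mem_of_v_le_one hw.le
  have hr : C.r = 0 := rfl
  have hs : C.s = 0 := rfl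
  have ht : C.t = 0 := rfl
  have hW' : IntegralAt A (C • W) := by
    constructor <;>
      simp only [variableChange_a₁, variableChange_a₂, variableChange_a₃, variableChange_a₄,
        variableChange_a₆, hr, hs, ht, mul_zero, add_zero, zero_mul, sub_zero, zero_pow two_ne_zero,
        zero_pow (three_ne_zero)]
    · exact mul_mem hwA hW.a₁
    · exact mul_mem (pow_mem hwA 2) hW.a₂
    · exact mul_mem (pow_mem hwA 3) hW.a₃
    · exact mul_mem (pow_mem hwA 4) hW.a₄
    · exact mul_mem (pow_mem hwA 6) hW.a₆
  have hred : redCurve hW' = cuspCurve (ResidueField A) := by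
    ext <;> simp only [redCurve, cuspCurve, map_a₁, map_a₂, map_a₃, map_a₄, map_a₆,
        residue_eq_zero_iff_v_lt_one, intCurve] <;>
      simp only [variableChange_a₁, variableChange_a₂, variableChange_a₃, variableChange_a₄,
        variableChange_a₆, hr, hs, ht, mul_zero, add_zero, zero_mul, sub_zero, zero_pow two_ne_zero,
        zero_pow (three_ne_zero)]
    · exact v_mul_lt_one_left hw hW.a₁
    · exact v_mul_lt_one_left (v_pow_lt_one hw two_ne_zero) hW.a₂
    · exact v_mul_lt_one_left (v_pow_lt_one hw three_ne_zero) hW.a₃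
    · exact v_mul_lt_one_left (v_pow_lt_one hw (by norm_num)) hW.a₄
    · exact v_mul_lt_one_left (v_pow_lt_one hw (by norm_num)) hW.a₆
  set c := x ^ 3 / y ^ 2 with hc
  have hcx : vcX C x = c := by
    simp only [vcX, hr, sub_zero, Units.val_inv_eq_inv_val, hC, Units.val_mk0, hc]; field_simp
  have hcy : vcY C x y = c := by
    simp only [vcY, hr, hs, ht, zero_mul, sub_zero, Units.val_inv_eq_inv_val, hC, Units.val_mk0,
      hc]
    field_simp
  have hP' := (nonsingular_vc C W x y).2 hxy
  rw [hcx, hcy] at hP'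
  have hcv : A.valuation c = 1 := by
    rw [hc, map_div₀, map_pow, map_pow, hsq, div_self (pow_ne_zero _ hX0)]
  set cA : A := ⟨c, mem_of_v_le_one hcv.le⟩ with hcA
  have hc1 : residue A cA = 1 := by
    have he := equation_red hW' (x := cA) (y := cA) hP'.1
    rw [hred, Affine.equation_iff] at he
    simp only [cuspCurve, zero_mul, add_zero] at he
    have hne : residue A cA ≠ 0 := residue_ne_zero_iff_v_eq_one.2 hcv
    refine mul_left_cancel₀ (pow_ne_zero 2 hne) ?_
    linear_combination -he
  have hns : (redCurve hW').toAffine.Nonsingular (residue A cA) (residue A cA) := by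
    rw [hred, hc1]
    simpa using cusp_nonsingular (k := ResidueField A) one_ne_zero
  set P' : zeroSubgroup hW' := ⟨.some _ _ hP', Or.inr ⟨cA.2, cA.2, hns⟩⟩ with hP'def
  have h1 : vcEquiv C W (.some _ _ hxy) = (P' : (C • W).toAffine.Point) := by
    rw [vcEquiv_some]
    simp only [hP'def, Affine.Point.some.injEq]
    exact ⟨hcx, hcy⟩
  have h2 : n • P' = 0 := by
    apply Subtype.ext
    rw [AddSubgroup.coe_nsmul, ← h1, ← map_nsmul, h, map_zero]
    rfl
  have h3 := congrArg (redHom hW') h2
  rw [map_nsmul, map_zero, redHom_apply, redPt_coe hW' hP' hns] at h3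
  have key : ∀ (E : WeierstrassCurve (ResidueField A)) (hE : E = cuspCurve (ResidueField A))
      (h : E.toAffine.Nonsingular (residue A cA) (residue A cA)),
      n • Affine.Point.some _ _ h = 0 → False := by
    rintro E rfl h' h0
    have h4 : Affine.Point.some _ _ h' = cuspPoint (1 : ResidueField A) := by
      rw [cuspPoint, dif_neg one_ne_zero]
      simp [hc1]
    rw [h4, nsmul_cusp_one, cuspPoint, dif_neg hn] at h0
    exact Affine.Point.some_ne_zero _ h0
  exact key _ hred hns h3

end FLTAgent.Reduction
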