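import Fermat.Agent.Reduction.IntModel
import Fermat.Agent.Reduction.Torsion

/-!
# Good primes: inertia fixes torsion of order prime to the residue characteristic
-/

set_option autoImplicit false

namespace FLTAgent.Reduction

open WeierstrassCurve WeierstrassCurve.Affine.Point IsLocalRing

variable {A : ValuationSubring Qbar} {q : ℕ} {W : WeierstrassCurve ℤ} {σ : Qbar ≃ₐ[ℚ] Qbar}

/-- Inertia fixes torsion of `E₀` of order prime to `q`. -/
theorem smul_eq_of_mem_zeroSubgroup (hA : A.LiesOverPrime q) (hq : q.Prime) {n : ℕ}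
    (hqn : ¬ q ∣ n) (hσ : σ ∈ A.inertiaSubgroupIn ℚ) {P : (WQbar W).toAffine.Point}
    (hP : P ∈ zeroSubgroup (integralAt W A)) (hn : n • P = 0) : σ • P = P := by
  have h1 := smul_sub_mem_oneSubgroup hσ hP
  have h2 : n • (σ • P - P) = 0 := by
    rw [nsmul_sub, hn, sub_zero]
    have h3 : n • (σ • P) = σ • (n • P) :=
      ((DistribSMul.toAddMonoidHom (WQbar W).toAffine.Point σ).map_nsmul n P).symm
    rw [h3, hn, smul_zero']
  have h4 := eq_zero_of_mem_oneSubgroup _ h1
    (mt (residue_natCast_eq_zero_iff hA hq n).1 hqn) h2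
  exact sub_eq_zero.1 h4

lemma nsmul_coe_torsionBy {n : ℕ}
    (x : Submodule.torsionBy ℤ (WQbar W).toAffine.Point n) :
    n • (x : (WQbar W).toAffine.Point) = 0 := by
  have h := (Submodule.mem_torsionBy_iff _ _).1 x.2
  rwa [natCast_zsmul] at h

/-- At a prime of good reduction not dividing `n`, inertia fixes the `n`-torsion. -/
theorem galoisRepUnramifiedAt_of_good (W : WeierstrassCurve ℤ) {q : ℕ} (hq : q.Prime)
    (hgood : W.IsGoodPrimeFor q) {n : ℕ} (hqn : ¬ q ∣ n) :
    GaloisRepUnramifiedAt (K := Qbar) ℚ (W.map (Int.castRingHom ℚ)) n q := by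
  intro A hA σ hσ x
  apply Subtype.ext
  refine smul_eq_of_mem_zeroSubgroup hA hq hqn hσ ?_ (nsmul_coe_torsionBy x)
  rw [zeroSubgroup_eq_top_of_good hA hq hgood]
  trivial

/-- Reduction is injective on torsion of `E₀` of order prime to `q`. -/
theorem redPt_injective_of_torsion (hA : A.LiesOverPrime q) (hq : q.Prime) {n : ℕ}
    (hqn : ¬ q ∣ n) {P Q : (WQbar W).toAffine.Point}
    (hP : P ∈ zeroSubgroup (integralAt W A)) (hQ : Q ∈ zeroSubgroup (integralAt W A))
    (hPn : n • P = 0) (hQn : n • Q = 0)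
    (h : redPt (integralAt W A) P = redPt (integralAt W A) Q) : P = Q :=
  sub_eq_zero.1 (eq_zero_of_mem_oneSubgroup _ (sub_mem_oneSubgroup _ hP hQ h)
    (mt (residue_natCast_eq_zero_iff hA hq n).1 hqn) (by rw [nsmul_sub, hPn, hQn, sub_zero]))

/-- The residue of the coordinates of `σ • P`, for `σ` in the decomposition group. -/
theorem redPt_smul_coe (hσ : σ ∈ A.decompositionSubgroup ℚ) {x y : A}
    (h : (WQbar W).toAffine.Nonsingular (x : Qbar) (y : Qbar)) :
    σ • (Affine.Point.some _ _ h : (WQbar W).toAffine.Point) =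
        .some (((⟨σ, hσ⟩ : A.decompositionSubgroup ℚ) • x : A) : Qbar)
          (((⟨σ, hσ⟩ : A.decompositionSubgroup ℚ) • y : A) : Qbar) (nonsingular_smul h) ∧
      residue A ((⟨σ, hσ⟩ : A.decompositionSubgroup ℚ) • x)
        = (⟨σ, hσ⟩ : A.decompositionSubgroup ℚ) • residue A x ∧
      residue A ((⟨σ, hσ⟩ : A.decompositionSubgroup ℚ) • y)
        = (⟨σ, hσ⟩ : A.decompositionSubgroup ℚ) • residue A y :=
  ⟨smul_some h, ResidueField.residue_smul _ _ _, ResidueField.residue_smul _ _ _⟩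

end FLTAgent.Reduction
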