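import Fermat.Agent.Reduction.Chord

/-!
# The subgroups `E₀`, `E₁` and the reduction homomorphism
-/

set_option autoImplicit false

namespace FLTAgent.Reduction

open WeierstrassCurve IsLocalRing

variable {L : Type*} [Field L] {A : ValuationSubring L} {W : WeierstrassCurve L}
  (hW : IntegralAt A W)

/-- The point reduces to a nonsingular point. -/
def InZero : W.toAffine.Point → Prop
  | .zero => True
  | .some x y _ => x ∉ A ∨ ∃ (hx : x ∈ A) (hy : y ∈ A),
      (redCurve hW).toAffine.Nonsingular (residue A ⟨x, hx⟩) (residue A ⟨y, hy⟩)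

/-- The point reduces to the point at infinity. -/
def InOne (A : ValuationSubring L) : W.toAffine.Point → Prop
  | .zero => True
  | .some x _ _ => x ∉ A

open scoped Classical in
/-- The reduction of a point (`0` outside `E₀`). -/
noncomputable def redPt : W.toAffine.Point → (redCurve hW).toAffine.Point
  | .zero => 0
  | .some x y _ =>
    if h : ∃ (hx : x ∈ A) (hy : y ∈ A),
        (redCurve hW).toAffine.Nonsingular (residue A ⟨x, hx⟩) (residue A ⟨y, hy⟩) then
      .some _ _ h.choose_spec.choose_spec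
    else 0

lemma inZero_zero : InZero hW (0 : W.toAffine.Point) := trivial

lemma inOne_zero : InOne A (0 : W.toAffine.Point) := trivial

lemma inZero_of_inOne {P : W.toAffine.Point} (h : InOne A P) : InZero hW P := by
  cases P
  · trivial
  · exact Or.inl h

@[simp] lemma redPt_zero : redPt hW (0 : W.toAffine.Point) = 0 := rfl

lemma redPt_of_inOne {P : W.toAffine.Point} (h : InOne A P) : redPt hW P = 0 := by
  cases P with
  | zero => rfl
  | some x y hxy => exact dif_neg fun ⟨hx, _⟩ => h hx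

lemma redPt_coe {x y : A} (hxy : W.toAffine.Nonsingular (x : L) (y : L))
    (h : (redCurve hW).toAffine.Nonsingular (residue A x) (residue A y)) :
    redPt hW (.some _ _ hxy) = .some _ _ h := by
  have h' : ∃ (hx : (x : L) ∈ A) (hy : (y : L) ∈ A),
      (redCurve hW).toAffine.Nonsingular (residue A ⟨(x : L), hx⟩) (residue A ⟨(y : L), hy⟩) :=
    ⟨x.2, y.2, h⟩
  simp only [redPt, dif_pos h']

variable {hW} in
lemma InZero.cases {P : W.toAffine.Point} (h : InZero hW P) : InOne A P ∨
    ∃ (x y : A) (hxy : W.toAffine.Nonsingular (x : L) (y : L)),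
      P = .some _ _ hxy ∧ (redCurve hW).toAffine.Nonsingular (residue A x) (residue A y) := by
  cases P with
  | zero => exact Or.inl trivial
  | some x y hxy =>
    rcases h with h | ⟨hx, hy, h⟩
    · exact Or.inl h
    · exact Or.inr ⟨⟨x, hx⟩, ⟨y, hy⟩, hxy, rfl, h⟩

lemma inOne_neg {P : W.toAffine.Point} (h : InOne A P) : InOne A (-P) := by
  cases P
  · trivial
  · exact h

lemma inZero_neg {P : W.toAffine.Point} (h : InZero hW P) : InZero hW (-P) := by
  rcases h.cases with h1 | ⟨x, y, hxy, rfl, hns⟩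
  · exact inZero_of_inOne hW (inOne_neg h1)
  · refine Or.inr ⟨x.2, (y_mem_of_x_mem hW ((Affine.equation_neg _ _).2 hxy.1) x.2), ?_⟩
    have h2 := (Affine.nonsingular_neg (residue A x) (residue A y)).2 hns
    rwa [redCurve, Affine.map_negY] at h2

variable [DecidableEq L]

include hW in
/-- A point of `E₁` plus an integral point. -/
lemma exists_add_of_inOne {x₁ y₁ : L} (h₁ : W.toAffine.Nonsingular x₁ y₁) (hx₁ : x₁ ∉ A)
    {x₂ y₂ : A} (h₂ : W.toAffine.Nonsingular (x₂ : L) (y₂ : L)) :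
    ∃ (x₃ y₃ : A) (h₃ : W.toAffine.Nonsingular (x₃ : L) (y₃ : L)),
      Affine.Point.some _ _ h₁ + Affine.Point.some _ _ h₂ = .some _ _ h₃ ∧
        residue A x₃ = residue A x₂ := by
  have hne : x₁ ≠ (x₂ : L) := fun h => hx₁ (h ▸ x₂.2)
  have hv := addX_of_not_mem hW h₁.1 hx₁ h₂.1 x₂.2
  have h₃ := Affine.nonsingular_add h₁ h₂ fun h => hne h.1
  have hadd := Affine.Point.add_of_X_ne (h₁ := h₁) (h₂ := h₂) hne
  have hx₃ : W.toAffine.addX x₁ (x₂ : L) (W.toAffine.slope x₁ (x₂ : L) y₁ y₂) ∈ A := by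
    have h := add_mem (mem_of_v_le_one hv.le) x₂.2
    rwa [sub_add_cancel] at h
  exact ⟨⟨_, hx₃⟩, ⟨_, y_mem_of_x_mem hW h₃.1 hx₃⟩, h₃, hadd, residue_eq_iff_v_sub_lt_one.2 hv⟩

/-- Two integral points with non opposite reductions. -/
lemma exists_add_of_residue [DecidableEq (ResidueField A)] {x₁ y₁ x₂ y₂ : A}
    (h₁ : W.toAffine.Nonsingular (x₁ : L) (y₁ : L)) (h₂ : W.toAffine.Nonsingular (x₂ : L) (y₂ : L))
    (hr : ¬(residue A x₁ = residue A x₂ ∧
      residue A y₁ = (redCurve hW).toAffine.negY (residue A x₂) (residue A y₂))) :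
    ∃ (x₃ y₃ : A) (h₃ : W.toAffine.Nonsingular (x₃ : L) (y₃ : L)),
      Affine.Point.some _ _ h₁ + Affine.Point.some _ _ h₂ = .some _ _ h₃ ∧
      residue A x₃ = (redCurve hW).toAffine.addX (residue A x₁) (residue A x₂)
        ((redCurve hW).toAffine.slope (residue A x₁) (residue A x₂) (residue A y₁) (residue A y₂)) ∧
      residue A y₃ = (redCurve hW).toAffine.addY (residue A x₁) (residue A x₂) (residue A y₁)
        ((redCurve hW).toAffine.slope (residue A x₁) (residue A x₂) (residue A y₁) (residue A y₂)) := by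
  obtain ⟨ℓ, hℓ, hℓ'⟩ := slope_mem_and_residue hW h₁.1 h₂.1 hr
  have hxy := ne_opposite_of_residue hW hr
  have h₃ := Affine.nonsingular_add h₁ h₂ hxy
  have hadd := Affine.Point.add_some (h₁ := h₁) (h₂ := h₂) hxy
  refine ⟨(intCurve hW).toAffine.addX x₁ x₂ ℓ, (intCurve hW).toAffine.addY x₁ x₂ y₁ ℓ, ?_, ?_,
    ?_, ?_⟩
  · rw [hℓ] at h₃
    exact h₃
  · rw [hadd]
    simp only [hℓ]
    rfl
  · rw [← hℓ', redCurve]
    exact (Affine.map_addX (W' := (intCurve hW).toAffine) (residue A) x₁ x₂ ℓ).symm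
  · rw [← hℓ', redCurve]
    exact (Affine.map_addY (W' := (intCurve hW).toAffine) (residue A) x₁ y₁ x₂ ℓ).symm

include hW in
lemma inOne_add {P Q : W.toAffine.Point} (hP : InOne A P) (hQ : InOne A Q) : InOne A (P + Q) := by
  cases P with
  | zero => exact (zero_add Q).symm ▸ hQ
  | some x₁ y₁ h₁ =>
    cases Q with
    | zero => exact hP
    | some x₂ y₂ h₂ =>
      cases hR : Affine.Point.some _ _ h₁ + Affine.Point.some _ _ h₂ with
      | zero => trivial
      | some x₃ y₃ h₃ =>
        by_contra hx₃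
        simp only [InOne, not_not] at hx₃
        obtain ⟨x, y, h, he, -⟩ := exists_add_of_inOne hW ((Affine.nonsingular_neg x₂ y₂).2 h₂) hQ
          (x₂ := ⟨x₃, hx₃⟩) (y₂ := ⟨y₃, y_mem_of_x_mem hW h₃.1 hx₃⟩) h₃
        have h' : Affine.Point.some x₁ y₁ h₁ = .some _ _ h := by
          rw [← he, ← Affine.Point.neg_some h₂, ← hR]; abel
        obtain ⟨rfl, -⟩ := Affine.Point.some.inj h'
        exact hP x.2

private lemma redPt_add_one_int [DecidableEq (ResidueField A)] {x₁ y₁ : L}
    (h₁ : W.toAffine.Nonsingular x₁ y₁) (hx₁ : x₁ ∉ A) {x₂ y₂ : A}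
    (h₂ : W.toAffine.Nonsingular (x₂ : L) (y₂ : L))
    (hns : (redCurve hW).toAffine.Nonsingular (residue A x₂) (residue A y₂)) :
    InZero hW (Affine.Point.some _ _ h₁ + Affine.Point.some _ _ h₂) ∧
      redPt hW (Affine.Point.some _ _ h₁ + Affine.Point.some _ _ h₂)
        = redPt hW (.some _ _ h₁) + redPt hW (.some _ _ h₂) := by
  obtain ⟨x₃, y₃, h₃, he, hx⟩ := exists_add_of_inOne hW h₁ hx₁ h₂
  have hy : residue A y₃ = residue A y₂ ∨
      residue A y₃ = (redCurve hW).toAffine.negY (residue A x₂) (residue A y₂) :=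
    Affine.Y_eq_of_X_eq (equation_red hW h₃.1) (equation_red hW h₂.1) hx
  have hy' : residue A y₃ = residue A y₂ := by
    by_contra hne
    have hyo := hy.resolve_left hne
    -- otherwise subtracting gives an integral point, contradicting `hx₁`
    have hmem : W.toAffine.negY (x₂ : L) y₂ ∈ A :=
      y_mem_of_x_mem hW ((Affine.equation_neg _ _).2 h₂.1) x₂.2
    have hres : residue A (⟨_, hmem⟩ : A)
        = (redCurve hW).toAffine.negY (residue A x₂) (residue A y₂) := by
      rw [redCurve, Affine.map_negY]; rfl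
    obtain ⟨x, y, h, he', -⟩ := exists_add_of_residue hW h₃
      (x₂ := x₂) (y₂ := ⟨_, hmem⟩) ((Affine.nonsingular_neg _ _).2 h₂) (by
        rintro ⟨-, hopp⟩
        apply hne
        rw [hopp, hres, Affine.negY_negY])
    have h' : Affine.Point.some x₁ y₁ h₁ = .some _ _ h := by
      rw [← he', ← he]
      exact (add_neg_cancel_right _ _).symm
    obtain ⟨rfl, -⟩ := Affine.Point.some.inj h'
    exact hx₁ x.2
  have hns₃ : (redCurve hW).toAffine.Nonsingular (residue A x₃) (residue A y₃) := by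
    rw [hx, hy']; exact hns
  refine ⟨he ▸ Or.inr ⟨x₃.2, y₃.2, hns₃⟩, ?_⟩
  rw [he, redPt_coe hW h₃ hns₃, redPt_of_inOne hW (P := .some _ _ h₁) hx₁, redPt_coe hW h₂ hns,
    zero_add]
  simp only [Affine.Point.some.injEq]
  exact ⟨hx, hy'⟩

theorem inZero_add_and_redPt_add [DecidableEq (ResidueField A)] {P Q : W.toAffine.Point}
    (hP : InZero hW P) (hQ : InZero hW Q) :
    InZero hW (P + Q) ∧ redPt hW (P + Q) = redPt hW P + redPt hW Q := by
  rcases hP.cases with hP1 | ⟨x₁, y₁, h₁, rfl, hn₁⟩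
  · rcases hQ.cases with hQ1 | ⟨x₂, y₂, h₂, rfl, hn₂⟩
    · have h := inOne_add hW hP1 hQ1
      exact ⟨inZero_of_inOne hW h, by simp [redPt_of_inOne hW h, redPt_of_inOne hW hP1,
        redPt_of_inOne hW hQ1]⟩
    · cases P with
      | zero => exact ⟨(zero_add (Affine.Point.some _ _ h₂)).symm ▸ hQ,
          by simp [← Affine.Point.zero_def]⟩
      | some x y h => exact redPt_add_one_int hW h hP1 h₂ hn₂
  · rcases hQ.cases with hQ1 | ⟨x₂, y₂, h₂, rfl, hn₂⟩
    · cases Q with
      | zero => exact ⟨(add_zero (Affine.Point.some _ _ h₁)).symm ▸ hP,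
          by simp [← Affine.Point.zero_def]⟩
      | some x y h =>
        rw [add_comm, add_comm (redPt hW _)]
        exact redPt_add_one_int hW h hQ1 h₁ hn₁
    · rw [redPt_coe hW h₁ hn₁, redPt_coe hW h₂ hn₂]
      by_cases hr : residue A x₁ = residue A x₂ ∧
          residue A y₁ = (redCurve hW).toAffine.negY (residue A x₂) (residue A y₂)
      · rw [Affine.Point.add_of_Y_eq hr.1 hr.2]
        by_cases hxy : (x₁ : L) = x₂ ∧ (y₁ : L) = W.toAffine.negY (x₂ : L) y₂
        · rw [Affine.Point.add_of_Y_eq hxy.1 hxy.2]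
          exact ⟨inZero_zero hW, rfl⟩
        · rw [Affine.Point.add_some hxy]
          have hx3 := addX_not_mem_of_residue_opposite hW h₁.1 h₂.1 hn₁ hr.1 hr.2 hxy
          exact ⟨Or.inl hx3, redPt_of_inOne hW (P := .some _ _ _) hx3⟩
      · obtain ⟨x₃, y₃, h₃, he, hx, hy⟩ := exists_add_of_residue hW h₁ h₂ hr
        rw [he, Affine.Point.add_some hr]
        have hn₃ : (redCurve hW).toAffine.Nonsingular (residue A x₃) (residue A y₃) := by
          rw [hx, hy]; exact Affine.nonsingular_add hn₁ hn₂ hr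
        refine ⟨Or.inr ⟨x₃.2, y₃.2, hn₃⟩, ?_⟩
        rw [redPt_coe hW h₃ hn₃]
        simp only [Affine.Point.some.injEq]
        exact ⟨hx, hy⟩

/-- `E₀`. -/
def zeroSubgroup : AddSubgroup W.toAffine.Point where
  carrier := {P | InZero hW P}
  zero_mem' := trivial
  add_mem' hP hQ := by
    classical exact (inZero_add_and_redPt_add hW hP hQ).1
  neg_mem' hP := inZero_neg hW hP

/-- `E₁`. -/
def oneSubgroup : AddSubgroup W.toAffine.Point where
  carrier := {P | InOne A P}
  zero_mem' := trivial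
  add_mem' hP hQ := inOne_add hW hP hQ
  neg_mem' hP := inOne_neg hP

@[simp] lemma mem_zeroSubgroup {P : W.toAffine.Point} : P ∈ zeroSubgroup hW ↔ InZero hW P :=
  Iff.rfl

@[simp] lemma mem_oneSubgroup {P : W.toAffine.Point} : P ∈ oneSubgroup hW ↔ InOne A P :=
  Iff.rfl

lemma mem_zeroSubgroup_some {x y : L} (h : W.toAffine.Nonsingular x y) :
    Affine.Point.some _ _ h ∈ zeroSubgroup hW ↔ x ∉ A ∨ ∃ (hx : x ∈ A) (hy : y ∈ A),
      (redCurve hW).toAffine.Nonsingular (residue A ⟨x, hx⟩) (residue A ⟨y, hy⟩) := Iff.rfl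

lemma mem_oneSubgroup_some {x y : L} (h : W.toAffine.Nonsingular x y) :
    Affine.Point.some _ _ h ∈ oneSubgroup hW ↔ x ∉ A := Iff.rfl

lemma oneSubgroup_le : oneSubgroup hW ≤ zeroSubgroup hW := fun _ h => inZero_of_inOne hW h

/-- Reduction on `E₀`. -/
noncomputable def redHom [DecidableEq (ResidueField A)] :
    zeroSubgroup hW →+ (redCurve hW).toAffine.Point where
  toFun P := redPt hW P.1
  map_zero' := rfl
  map_add' P Q := (inZero_add_and_redPt_add hW P.2 Q.2).2

lemma redHom_apply [DecidableEq (ResidueField A)] (P : zeroSubgroup hW) :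
    redHom hW P = redPt hW P.1 := rfl

omit [DecidableEq L] in
lemma redPt_eq_zero_iff {P : W.toAffine.Point} (h : InZero hW P) :
    redPt hW P = 0 ↔ InOne A P := by
  refine ⟨fun h0 => ?_, redPt_of_inOne hW⟩
  rcases h.cases with h1 | ⟨x, y, hxy, rfl, hns⟩
  · exact h1
  · rw [redPt_coe hW hxy hns] at h0
    exact absurd h0 (Affine.Point.some_ne_zero hns)

lemma redHom_eq_zero_iff [DecidableEq (ResidueField A)] (P : zeroSubgroup hW) :
    redHom hW P = 0 ↔ (P : W.toAffine.Point) ∈ oneSubgroup hW :=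
  redPt_eq_zero_iff hW P.2

/-- Two points of `E₀` with the same reduction differ by a point of `E₁`. -/
theorem sub_mem_oneSubgroup {P Q : W.toAffine.Point} (hP : InZero hW P) (hQ : InZero hW Q)
    (h : redPt hW P = redPt hW Q) : P - Q ∈ oneSubgroup hW := by
  classical
  refine (redHom_eq_zero_iff hW (⟨P, hP⟩ - ⟨Q, hQ⟩ : zeroSubgroup hW)).1 ?_
  rw [map_sub, sub_eq_zero]
  exact h

theorem zeroSubgroup_eq_top (hΔ : A.valuation W.Δ = 1) : zeroSubgroup hW = ⊤ := by
  refine eq_top_iff.2 fun P _ => ?_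
  cases P with
  | zero => trivial
  | some x y h =>
    by_cases hx : x ∈ A
    · refine Or.inr ⟨hx, y_mem_of_x_mem hW h.1 hx, ?_⟩
      refine (Affine.equation_iff_nonsingular_of_Δ_ne_zero ?_).1
        (equation_red hW (x := ⟨x, hx⟩) (y := ⟨y, y_mem_of_x_mem hW h.1 hx⟩) h.1)
      rw [ne_eq, redCurve_Δ_eq_zero_iff, hΔ]
      exact lt_irrefl _
    · exact Or.inl hx

end FLTAgent.Reduction
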