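import Fermat.Agent.Reduction.Nodal
import Fermat.Agent.Reduction.Hom
import Mathlib.GroupTheory.QuotientGroup.Defs
import Mathlib.Algebra.Group.Subgroup.ZPowers.Basic

/-!
# The component homomorphism of a nodal normal form

`comp : E(L) → (value group)/⟨|a₆|⟩` with kernel `E₀`.
-/

set_option autoImplicit false

namespace FLTAgent.Reduction

open WeierstrassCurve IsLocalRing

variable {L : Type*} [Field L] {A : ValuationSubring L} {V : WeierstrassCurve L} {α r : L}
  (h : IsNodalForm A V α r)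

include h in
lemma IsNodalForm.rUnit_ne_zero : A.valuation r ≠ 0 := h.r_pos.ne'

/-- `|a₆|` as a unit of the value group. -/
noncomputable def IsNodalForm.period : (A.ValueGroup)ˣ := (Units.mk0 _ h.rUnit_ne_zero) ^ 2

/-- The group of components. -/
abbrev IsNodalForm.CompGroup : Type _ := (A.ValueGroup)ˣ ⧸ Subgroup.zpowers h.period

open scoped Classical in
/-- The class of an element of the value group. -/
noncomputable def IsNodalForm.cls (g : A.ValueGroup) : h.CompGroup :=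
  if hg : g = 0 then 1 else QuotientGroup.mk (Units.mk0 g hg)

lemma IsNodalForm.cls_mk0 {g : A.ValueGroup} (hg : g ≠ 0) :
    h.cls g = QuotientGroup.mk (Units.mk0 g hg) := by
  rw [IsNodalForm.cls, dif_neg hg]

lemma IsNodalForm.cls_mul {a b : A.ValueGroup} (ha : a ≠ 0) (hb : b ≠ 0) :
    h.cls (a * b) = h.cls a * h.cls b := by
  rw [h.cls_mk0 ha, h.cls_mk0 hb, h.cls_mk0 (mul_ne_zero ha hb), Units.mk0_mul,
    QuotientGroup.mk_mul]

lemma IsNodalForm.cls_sq_r : h.cls (A.valuation r ^ 2) = 1 := by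
  rw [h.cls_mk0 (pow_ne_zero 2 h.rUnit_ne_zero), QuotientGroup.eq_one_iff]
  refine ⟨1, ?_⟩
  change h.period ^ (1 : ℤ) = _
  rw [zpow_one]
  exact Units.ext (by simp [IsNodalForm.period])

lemma IsNodalForm.cls_r_inv : (h.cls (A.valuation r))⁻¹ = h.cls (A.valuation r) := by
  rw [inv_eq_iff_mul_eq_one, ← h.cls_mul h.rUnit_ne_zero h.rUnit_ne_zero, ← pow_two, h.cls_sq_r]

open scoped Classical in
/-- The component of an affine point. -/
noncomputable def IsNodalForm.compCoord (x y : L) : h.CompGroup :=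
  if A.valuation x < 1 then
    if A.valuation x ≤ A.valuation r then h.cls (A.valuation r)
    else if A.valuation (fCoord α x y) < A.valuation x then h.cls (A.valuation x)
    else (h.cls (A.valuation x))⁻¹
  else 1

/-- The component of a point. -/
noncomputable def IsNodalForm.comp : V.toAffine.Point → h.CompGroup
  | .zero => 1
  | .some x y _ => h.compCoord x y

@[simp] lemma IsNodalForm.comp_zero : h.comp 0 = 1 := rfl

lemma IsNodalForm.comp_some {x y : L} (hxy : V.toAffine.Nonsingular x y) :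
    h.comp (.some _ _ hxy) = h.compCoord x y := rfl

lemma IsNodalForm.compCoord_out {x : L} (y : L) (hx : 1 ≤ A.valuation x) :
    h.compCoord x y = 1 := by
  rw [IsNodalForm.compCoord, if_neg (not_lt.2 hx)]

lemma IsNodalForm.compCoord_middle {x : L} (y : L) (hx : A.valuation x ≤ A.valuation r) :
    h.compCoord x y = h.cls (A.valuation r) := by
  rw [IsNodalForm.compCoord, if_pos (lt_of_le_of_lt hx h.r_small), if_pos hx]

lemma IsNodalForm.compCoord_first {x y : L} (hS : A.valuation r < A.valuation x)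
    (hx : A.valuation x < 1) (hf : A.valuation (fCoord α x y) < A.valuation x) :
    h.compCoord x y = h.cls (A.valuation x) := by
  rw [IsNodalForm.compCoord, if_pos hx, if_neg (not_le.2 hS), if_pos hf]

lemma IsNodalForm.compCoord_second {x y : L} (he : V.toAffine.Equation x y)
    (hS : A.valuation r < A.valuation x)
    (hx : A.valuation x < 1) (hg : A.valuation (gCoord V α x y) < A.valuation x) :
    h.compCoord x y = (h.cls (A.valuation x))⁻¹ := by
  rw [IsNodalForm.compCoord, if_pos hx, if_neg (not_le.2 hS), if_neg]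
  rcases h.branch he hS hx with hb | hb
  · exact absurd hb.2 hg.ne
  · rw [hb.2]; exact lt_irrefl _

include h in
lemma IsNodalForm.gCoord_negY (x y : L) :
    gCoord V α x (V.toAffine.negY x y) = -fCoord α x y := by
  simp only [gCoord, fCoord, Affine.negY, h.a₃]; ring

include h in
lemma IsNodalForm.fCoord_negY (x y : L) :
    fCoord α x (V.toAffine.negY x y) = -gCoord V α x y := by
  simp only [gCoord, fCoord, Affine.negY, h.a₃]; ring

lemma IsNodalForm.comp_neg (P : V.toAffine.Point) : h.comp (-P) = (h.comp P)⁻¹ := by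
  rcases P with _ | ⟨x, y, hxy⟩
  · exact inv_one.symm
  rw [Affine.Point.neg_some, h.comp_some, h.comp_some]
  rcases le_or_gt 1 (A.valuation x) with hx | hx
  · rw [h.compCoord_out _ hx, h.compCoord_out _ hx, inv_one]
  rcases le_or_gt (A.valuation x) (A.valuation r) with hM | hS
  · rw [h.compCoord_middle _ hM, h.compCoord_middle _ hM, h.cls_r_inv]
  have he' := (Affine.equation_neg x y).2 hxy.1
  rcases h.branch hxy.1 hS hx with hb | hb
  · rw [h.compCoord_first hS hx hb.1, h.compCoord_second he' hS hx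
      (by rw [h.gCoord_negY, A.valuation.map_neg]; exact hb.1)]
  · rw [h.compCoord_second hxy.1 hS hx hb.1, h.compCoord_first hS hx
      (by rw [h.fCoord_negY, A.valuation.map_neg]; exact hb.1), inv_inv]

include h in
/-- The singular point of the reduction is the origin. -/
lemma IsNodalForm.inZero_iff {x y : L} (hxy : V.toAffine.Nonsingular x y) :
    InZero h.integral (Affine.Point.some _ _ hxy) ↔ 1 ≤ A.valuation x := by
  simp only [InZero]
  have hi := h.integral
  have ha3 : (redCurve h.integral).a₃ = 0 := by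
    rw [redCurve, map_a₃, residue_eq_zero_iff_v_lt_one]
    simp [intCurve, h.a₃]
  have ha4 : (redCurve h.integral).a₄ = 0 := by
    rw [redCurve, map_a₄, residue_eq_zero_iff_v_lt_one]
    simp [intCurve, h.a₄]
  have ha6 : (redCurve h.integral).a₆ = 0 := by
    rw [redCurve, map_a₆, residue_eq_zero_iff_v_lt_one]
    simp only [intCurve]
    rw [h.v_a₆]; exact pow_lt_one₀ zero_le h.r_small two_ne_zero
  constructor
  · rintro (hx | ⟨hx, hy, hns⟩)
    · exact (one_lt_v_iff.2 hx).le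
    · by_contra hlt
      rw [not_le] at hlt
      have hx0 : residue A ⟨x, hx⟩ = 0 := residue_eq_zero_iff_v_lt_one.2 hlt
      obtain ⟨he, hp⟩ := (Affine.nonsingular_iff' _ _).1 hns
      rw [Affine.equation_iff] at he
      simp only [hx0, ha3, ha4, ha6, zero_mul, mul_zero, add_zero, ne_eq, OfNat.ofNat_ne_zero,
        not_false_eq_true, zero_pow] at he hp
      have hy0 : residue A ⟨y, hy⟩ = 0 := by simpa using he
      simp [hy0] at hp
  · intro hX
    by_cases hx : x ∈ A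
    · have hy := y_mem_of_x_mem hi hxy.1 hx
      refine Or.inr ⟨hx, hy, ?_⟩
      have he := equation_red hi (x := ⟨x, hx⟩) (y := ⟨y, hy⟩) hxy.1
      have hx0 : residue A ⟨x, hx⟩ ≠ 0 :=
        residue_ne_zero_iff_v_eq_one.2 (le_antisymm (v_le_one hx) hX)
      refine (Affine.nonsingular_iff' _ _).2 ⟨he, ?_⟩
      rw [Affine.equation_iff, ha3, ha4, ha6] at he
      rw [ha3, ha4]
      by_contra hc
      rw [not_or, not_not, not_not] at hc
      apply pow_ne_zero 3 hx0
      linear_combination (-residue A ⟨x, hx⟩) * hc.1 + (-residue A ⟨y, hy⟩) * hc.2 + 2 * he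
    · exact Or.inl hx

lemma IsNodalForm.cls_ne_one {g : A.ValueGroup} (hr : A.valuation r ≤ g) (hg : g < 1) :
    h.cls g ≠ 1 := by
  have hg0 : g ≠ 0 := (lt_of_lt_of_le h.r_pos hr).ne'
  rw [h.cls_mk0 hg0, ne_eq, QuotientGroup.eq_one_iff]
  rintro ⟨k, hk⟩
  have hk' : ((A.valuation r) ^ 2) ^ k = g := by
    simpa [IsNodalForm.period] using congrArg Units.val hk
  rcases le_or_gt k 0 with hk0 | hk0
  · have : (1 : A.ValueGroup) ≤ ((A.valuation r) ^ 2) ^ k :=
      one_le_zpow_of_nonpos₀ (pow_pos h.r_pos 2)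
        (pow_le_one₀ zero_le h.r_small.le) hk0
    exact absurd (hk' ▸ this) (not_le.2 hg)
  · obtain ⟨m, rfl⟩ : ∃ m : ℕ, k = (m + 1 : ℕ) := ⟨k.toNat - 1, by omega⟩
    rw [zpow_natCast, ← pow_mul] at hk'
    exact absurd (hk'.symm ▸ hr) (not_le.2 (pow_lt_self_of_lt_one₀ h.r_pos h.r_small (by omega)))

variable [DecidableEq L]

/-- The kernel of the component map is `E₀`. -/
theorem IsNodalForm.comp_eq_one_iff {P : V.toAffine.Point} :
    h.comp P = 1 ↔ P ∈ zeroSubgroup h.integral := by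
  rcases P with _ | ⟨x, y, hxy⟩
  · exact iff_of_true rfl trivial
  rw [mem_zeroSubgroup, h.inZero_iff, h.comp_some]
  rcases le_or_gt 1 (A.valuation x) with hx | hx
  · exact iff_of_true (h.compCoord_out _ hx) hx
  refine iff_of_false ?_ (not_le.2 hx)
  rcases le_or_gt (A.valuation x) (A.valuation r) with hM | hS
  · rw [h.compCoord_middle _ hM]; exact h.cls_ne_one le_rfl h.r_small
  rcases h.branch hxy.1 hS hx with hb | hb
  · rw [h.compCoord_first hS hx hb.1]; exact h.cls_ne_one hS.le hx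
  · rw [h.compCoord_second hxy.1 hS hx hb.1, inv_eq_one]; exact h.cls_ne_one hS.le hx

include h in
private lemma chordData_add {x₁ y₁ x₂ y₂ : L} (h₁ : V.toAffine.Nonsingular x₁ y₁)
    (h₂ : V.toAffine.Nonsingular x₂ y₂) (hne : Affine.Point.some _ _ h₁ + .some _ _ h₂ ≠ 0) :
    ∃ (x₃ y₃ μ ν : L) (h₃ : V.toAffine.Nonsingular x₃ y₃),
      Affine.Point.some _ _ h₁ + .some _ _ h₂ = .some _ _ h₃ ∧
        ChordData V α x₁ y₁ x₂ y₂ x₃ y₃ μ ν := by
  by_cases hxy : x₁ = x₂ ∧ y₁ = V.toAffine.negY x₂ y₂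
  · exact absurd (Affine.Point.add_of_Y_eq hxy.1 hxy.2) hne
  · obtain ⟨μ, ν, c⟩ := h.chordData h₁.1 h₂.1 hxy
    exact ⟨_, _, μ, ν, _, Affine.Point.add_some hxy, c⟩

private lemma comp_add_of_add_eq_zero {P Q : V.toAffine.Point} (hPQ : P + Q = 0) :
    h.comp (P + Q) = h.comp P * h.comp Q := by
  rw [hPQ, h.comp_zero, add_eq_zero_iff_eq_neg.1 hPQ, h.comp_neg, inv_mul_cancel]

private lemma comp_same {x₁ y₁ x₂ y₂ : L} (h₁ : V.toAffine.Nonsingular x₁ y₁)
    (h₂ : V.toAffine.Nonsingular x₂ y₂)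
    (hx₁ : A.valuation x₁ < 1) (hS₂ : A.valuation r < A.valuation x₂)
    (hf₁ : A.valuation (fCoord α x₁ y₁) < A.valuation x₁)
    (hf₂ : A.valuation (fCoord α x₂ y₂) < A.valuation x₂)
    (hle : A.valuation x₂ ≤ A.valuation x₁) :
    h.comp (Affine.Point.some _ _ h₁ + .some _ _ h₂)
      = h.comp (.some _ _ h₁) * h.comp (.some _ _ h₂) := by
  by_cases hne : Affine.Point.some _ _ h₁ + .some _ _ h₂ = 0
  · exact comp_add_of_add_eq_zero h hne
  obtain ⟨x₃, y₃, μ, ν, h₃, he, c⟩ := chordData_add h h₁ h₂ hne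
  have hS₁ := lt_of_lt_of_le hS₂ hle
  have hX₁ := (lt_trans h.r_pos hS₁).ne'
  have hX₂ := (lt_trans h.r_pos hS₂).ne'
  rw [he, h.comp_some, h.comp_some, h.comp_some, h.compCoord_first hS₁ hx₁ hf₁,
    h.compCoord_first hS₂ (lt_of_le_of_lt hle hx₁) hf₂, ← h.cls_mul hX₁ hX₂]
  obtain ⟨hx₃, ⟨hP, hX, hf⟩ | ⟨hP, hX⟩ | ⟨hS₃, hX, hg⟩⟩ :=
    c.same_branch h hx₁ hS₂ hf₁ hf₂ hle
  · rw [h.compCoord_first (hX ▸ hP) hx₃ hf, hX]
  · rw [h.compCoord_middle _ hX, hP]
  · rw [h.compCoord_second h₃.1 hS₃ hx₃ hg, inv_eq_iff_mul_eq_one,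
      ← h.cls_mul (lt_trans h.r_pos hS₃).ne' (mul_ne_zero hX₁ hX₂), hX, h.cls_sq_r]

private lemma comp_opposite {x₁ y₁ x₂ y₂ : L} (h₁ : V.toAffine.Nonsingular x₁ y₁)
    (h₂ : V.toAffine.Nonsingular x₂ y₂)
    (hx₁ : A.valuation x₁ < 1) (hS₂ : A.valuation r < A.valuation x₂)
    (hf₁ : A.valuation (fCoord α x₁ y₁) < A.valuation x₁)
    (hg₂ : A.valuation (gCoord V α x₂ y₂) < A.valuation x₂)
    (hle : A.valuation x₂ ≤ A.valuation x₁) :
    h.comp (Affine.Point.some _ _ h₁ + .some _ _ h₂)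
      = h.comp (.some _ _ h₁) * h.comp (.some _ _ h₂) := by
  by_cases hne : Affine.Point.some _ _ h₁ + .some _ _ h₂ = 0
  · exact comp_add_of_add_eq_zero h hne
  obtain ⟨x₃, y₃, μ, ν, h₃, he, c⟩ := chordData_add h h₁ h₂ hne
  have hS₁ := lt_of_lt_of_le hS₂ hle
  have hx₂ := lt_of_le_of_lt hle hx₁
  have hX₁ := (lt_trans h.r_pos hS₁).ne'
  have hf₂ : A.valuation (fCoord α x₂ y₂) = A.valuation x₂ := by
    rcases h.branch h₂.1 hS₂ hx₂ with hb | hb
    · exact absurd hb.2 hg₂.ne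
    · exact hb.2
  rw [he, h.comp_some, h.comp_some, h.comp_some, h.compCoord_first hS₁ hx₁ hf₁,
    h.compCoord_second h₂.1 hS₂ hx₂ hg₂]
  rcases lt_or_eq_of_le hle with hlt | heq
  · obtain ⟨hS₃, hx₃, hX, hg⟩ := c.opposite_branch_lt h hx₁ hS₂ hf₁ hf₂ hlt
    rw [h.compCoord_second h₃.1 hS₃ hx₃ hg, ← hX, h.cls_mul (lt_trans h.r_pos hS₃).ne' hX₁,
      mul_inv_rev, mul_inv_cancel_left]
  · have hne' : x₁ ≠ x₂ := by
      rintro rfl
      rcases Affine.Y_eq_of_X_eq h₁.1 h₂.1 rfl with hy | hy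
      · rw [hy] at hf₁; exact absurd hf₂ hf₁.ne
      · exact hne (Affine.Point.add_of_Y_eq rfl hy)
    obtain ⟨hx₃, -⟩ := c.opposite_branch_eq h hne' hS₂ hf₁ hf₂ heq.symm
    rw [h.compCoord_out _ hx₃, heq, mul_inv_cancel]

private lemma comp_first_middle {x₁ y₁ x₂ y₂ : L} (h₁ : V.toAffine.Nonsingular x₁ y₁)
    (h₂ : V.toAffine.Nonsingular x₂ y₂)
    (hS₁ : A.valuation r < A.valuation x₁) (hx₁ : A.valuation x₁ < 1)
    (hf₁ : A.valuation (fCoord α x₁ y₁) < A.valuation x₁)
    (hM : A.valuation x₂ ≤ A.valuation r) :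
    h.comp (Affine.Point.some _ _ h₁ + .some _ _ h₂)
      = h.comp (.some _ _ h₁) * h.comp (.some _ _ h₂) := by
  by_cases hne : Affine.Point.some _ _ h₁ + .some _ _ h₂ = 0
  · exact comp_add_of_add_eq_zero h hne
  obtain ⟨x₃, y₃, μ, ν, h₃, he, c⟩ := chordData_add h h₁ h₂ hne
  rw [he, h.comp_some, h.comp_some, h.comp_some, h.compCoord_first hS₁ hx₁ hf₁,
    h.compCoord_middle _ hM]
  obtain ⟨hS₃, hx₃, hX, hg⟩ := c.branch_middle h h₂.1 hS₁ hx₁ hf₁ hM
  rw [h.compCoord_second h₃.1 hS₃ hx₃ hg, ← h.cls_r_inv, ← hX,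
    h.cls_mul (lt_trans h.r_pos hS₃).ne' (lt_trans h.r_pos hS₁).ne', mul_inv_rev,
    mul_inv_cancel_left]

private lemma comp_middle_middle {x₁ y₁ x₂ y₂ : L} (h₁ : V.toAffine.Nonsingular x₁ y₁)
    (h₂ : V.toAffine.Nonsingular x₂ y₂)
    (hM₁ : A.valuation x₁ ≤ A.valuation r) (hM₂ : A.valuation x₂ ≤ A.valuation r) :
    h.comp (Affine.Point.some _ _ h₁ + .some _ _ h₂)
      = h.comp (.some _ _ h₁) * h.comp (.some _ _ h₂) := by
  by_cases hne : Affine.Point.some _ _ h₁ + .some _ _ h₂ = 0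
  · exact comp_add_of_add_eq_zero h hne
  obtain ⟨x₃, y₃, μ, ν, h₃, he, c⟩ := chordData_add h h₁ h₂ hne
  rw [he, h.comp_some, h.comp_some, h.comp_some, h.compCoord_middle _ hM₁,
    h.compCoord_middle _ hM₂, h.compCoord_out _ (c.middle_middle h h₁.1 h₂.1 hM₁ hM₂),
    ← h.cls_mul h.rUnit_ne_zero h.rUnit_ne_zero, ← pow_two, h.cls_sq_r]

private lemma comp_add_of_neg {P Q : V.toAffine.Point}
    (hneg : h.comp (-P + -Q) = h.comp (-P) * h.comp (-Q)) :
    h.comp (P + Q) = h.comp P * h.comp Q := by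
  rw [← neg_add, h.comp_neg, h.comp_neg, h.comp_neg, ← mul_inv, inv_inj] at hneg
  exact hneg

private lemma comp_first_any {x₁ y₁ x₂ y₂ : L} (h₁ : V.toAffine.Nonsingular x₁ y₁)
    (h₂ : V.toAffine.Nonsingular x₂ y₂)
    (hS₁ : A.valuation r < A.valuation x₁) (hx₁ : A.valuation x₁ < 1)
    (hx₂ : A.valuation x₂ < 1)
    (hf₁ : A.valuation (fCoord α x₁ y₁) < A.valuation x₁) :
    h.comp (Affine.Point.some _ _ h₁ + .some _ _ h₂)
      = h.comp (.some _ _ h₁) * h.comp (.some _ _ h₂) := by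
  rcases le_or_gt (A.valuation x₂) (A.valuation r) with hM | hS₂
  · exact comp_first_middle h h₁ h₂ hS₁ hx₁ hf₁ hM
  rcases h.branch h₂.1 hS₂ hx₂ with hb | hb <;>
    rcases le_total (A.valuation x₂) (A.valuation x₁) with hle | hle
  · exact comp_same h h₁ h₂ hx₁ hS₂ hf₁ hb.1 hle
  · rw [add_comm, mul_comm]
    exact comp_same h h₂ h₁ hx₂ hS₁ hb.1 hf₁ hle
  · exact comp_opposite h h₁ h₂ hx₁ hS₂ hf₁ hb.1 hle
  · apply comp_add_of_neg h
    rw [Affine.Point.neg_some, Affine.Point.neg_some, add_comm, mul_comm]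
    exact comp_opposite h _ _ hx₂ hS₁ (by rw [h.fCoord_negY, A.valuation.map_neg]; exact hb.1)
      (by rw [h.gCoord_negY, A.valuation.map_neg]; exact hf₁) hle

private lemma comp_add_of_outside {P Q : V.toAffine.Point}
    (hP : P ∉ zeroSubgroup h.integral) (hQ : Q ∉ zeroSubgroup h.integral) :
    h.comp (P + Q) = h.comp P * h.comp Q := by
  rcases P with _ | ⟨x₁, y₁, h₁⟩
  · exact absurd trivial hP
  rcases Q with _ | ⟨x₂, y₂, h₂⟩
  · exact absurd trivial hQ
  rw [mem_zeroSubgroup, h.inZero_iff, not_le] at hP hQ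
  rcases le_or_gt (A.valuation x₁) (A.valuation r) with hM₁ | hS₁
  · rcases le_or_gt (A.valuation x₂) (A.valuation r) with hM₂ | hS₂
    · exact comp_middle_middle h h₁ h₂ hM₁ hM₂
    rw [add_comm, mul_comm]
    rcases h.branch h₂.1 hS₂ hQ with hb | hb
    · exact comp_first_middle h h₂ h₁ hS₂ hQ hb.1 hM₁
    · apply comp_add_of_neg h
      rw [Affine.Point.neg_some, Affine.Point.neg_some]
      exact comp_first_middle h _ _ hS₂ hQ
        (by rw [h.fCoord_negY, A.valuation.map_neg]; exact hb.1) hM₁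
  rcases h.branch h₁.1 hS₁ hP with hb | hb
  · exact comp_first_any h h₁ h₂ hS₁ hP hQ hb.1
  · apply comp_add_of_neg h
    rw [Affine.Point.neg_some, Affine.Point.neg_some]
    exact comp_first_any h _ _ hS₁ hP hQ (by rw [h.fCoord_negY, A.valuation.map_neg]; exact hb.1)

theorem IsNodalForm.comp_add (P Q : V.toAffine.Point) :
    h.comp (P + Q) = h.comp P * h.comp Q := by
  have key : ∀ {P Q : V.toAffine.Point}, P ∈ zeroSubgroup h.integral →
      Q ∉ zeroSubgroup h.integral → h.comp (P + Q) = h.comp P * h.comp Q := by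
    intro P Q hP hQ
    have hR : P + Q ∉ zeroSubgroup h.integral := fun hR =>
      hQ ((AddSubgroup.add_mem_cancel_left _ hP).1 hR)
    have hQ' : -Q ∉ zeroSubgroup h.integral := fun hn =>
      hQ (neg_neg Q ▸ (zeroSubgroup h.integral).neg_mem hn)
    have hP1 : h.comp P = 1 := h.comp_eq_one_iff.2 hP
    have hsub := comp_add_of_outside h hR hQ'
    rw [add_neg_cancel_right, h.comp_neg, hP1] at hsub
    rw [hP1, one_mul]
    exact mul_inv_eq_one.1 hsub.symm
  by_cases hP : P ∈ zeroSubgroup h.integral <;> by_cases hQ : Q ∈ zeroSubgroup h.integral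
  · rw [(h.comp_eq_one_iff).2 hP, (h.comp_eq_one_iff).2 hQ,
      (h.comp_eq_one_iff).2 (add_mem hP hQ), one_mul]
  · exact key hP hQ
  · rw [add_comm, mul_comm]; exact key hQ hP
  · exact comp_add_of_outside h hP hQ

/-- The component homomorphism. -/
noncomputable def IsNodalForm.compHom : V.toAffine.Point →+ Additive h.CompGroup where
  toFun P := Additive.ofMul (h.comp P)
  map_zero' := rfl
  map_add' P Q := congrArg Additive.ofMul (h.comp_add P Q)

end FLTAgent.Reduction
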