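import Fermat.Agent.Reduction.Nodal
import Fermat.Agent.Reduction.Hom
import Fermat.Agent.Reduction.VariableChange
import Mathlib.FieldTheory.IsAlgClosed.Basic

/-!
# Existence of the nodal normal form
-/

set_option autoImplicit false

namespace FLTAgent.Reduction

open WeierstrassCurve IsLocalRing

/-- A Weierstrass curve with `Δ = 0` and `c₄ ≠ 0` has a singular rational point. -/
theorem exists_singular_point {k : Type*} [Field k] (W : WeierstrassCurve k) (hΔ : W.Δ = 0)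
    (hc₄ : W.c₄ ≠ 0) : ∃ x y : k, W.toAffine.Equation x y ∧
      2 * y + W.a₁ * x + W.a₃ = 0 ∧ 3 * x ^ 2 + 2 * W.a₂ * x + W.a₄ - W.a₁ * y = 0 := by
  by_cases h2 : (2 : k) = 0
  · have ha₁ : W.a₁ ≠ 0 := by
      intro ha
      apply hc₄
      simp only [WeierstrassCurve.c₄, WeierstrassCurve.b₂, WeierstrassCurve.b₄, ha]
      linear_combination (8 * W.a₂ ^ 2 - 24 * W.a₄) * h2
    set x := W.a₃ / W.a₁ with hx
    have hxe : W.a₁ * x = W.a₃ := by rw [hx]; field_simp
    set y := (x ^ 2 + W.a₄) / W.a₁ with hy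
    have hye : W.a₁ * y = x ^ 2 + W.a₄ := by rw [hy]; field_simp
    refine ⟨x, y, ?_, ?_, ?_⟩
    · rw [Affine.equation_iff]
      have hy6 : y * W.a₁ ^ 3 = W.a₃ ^ 2 + W.a₁ ^ 2 * W.a₄ := by
        linear_combination W.a₁ ^ 2 * hye + (W.a₁ * x + W.a₃) * hxe
      refine mul_left_cancel₀ (pow_ne_zero 6 ha₁) ?_
      have key : (W.a₃ ^ 2 + W.a₁ ^ 2 * W.a₄) ^ 2 - W.a₁ ^ 3 * W.a₃ ^ 3
          - W.a₂ * W.a₃ ^ 2 * W.a₁ ^ 4 - W.a₄ * W.a₃ * W.a₁ ^ 5 - W.a₆ * W.a₁ ^ 6 = 0 := by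
        simp only [WeierstrassCurve.Δ, WeierstrassCurve.b₂, WeierstrassCurve.b₄,
          WeierstrassCurve.b₆, WeierstrassCurve.b₈] at hΔ
        linear_combination hΔ + (
          (-1) * W.a₁ ^ 5 * W.a₃ * W.a₄ + (6) * W.a₁ ^ 4 * W.a₂ * W.a₆ + (-4) * 
          W.a₁ ^ 3 * W.a₂ * W.a₃ * W.a₄ + (-1) * W.a₁ ^ 3 * W.a₃ ^ 3 + (-18) * W.a₁ 
          ^ 3 * W.a₃ * W.a₆ + (4) * W.a₁ ^ 2 * W.a₂ ^ 2 * W.a₃ ^ 2 + (24) * W.a₁ ^ 2 
          * W.a₂ ^ 2 * W.a₆ + (-4) * W.a₁ ^ 2 * W.a₂ * W.a₄ ^ 2 + (16) * W.a₁ ^ 2 * 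
          W.a₃ ^ 2 * W.a₄ + (-36) * W.a₁ ^ 2 * W.a₄ * W.a₆ + (-8) * W.a₁ * W.a₂ ^ 2 
          * W.a₃ * W.a₄ + (-18) * W.a₁ * W.a₂ * W.a₃ ^ 3 + (-72) * W.a₁ * W.a₂ * 
          W.a₃ * W.a₆ + (48) * W.a₁ * W.a₃ * W.a₄ ^ 2 + (8) * W.a₂ ^ 3 * W.a₃ ^ 2 + 
          (32) * W.a₂ ^ 3 * W.a₆ + (-8) * W.a₂ ^ 2 * W.a₄ ^ 2 + (-36) * W.a₂ * W.a₃ ^ 
          2 * W.a₄ + (-144) * W.a₂ * W.a₄ * W.a₆ + (14) * W.a₃ ^ 4 + (108) * W.a₃ ^ 2 
          * W.a₆ + (32) * W.a₄ ^ 3 + (216) * W.a₆ ^ 2) * h2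
      linear_combination key + (y * W.a₁ ^ 3 + W.a₃ ^ 2 + W.a₁ ^ 2 * W.a₄) * hy6
        + W.a₁ ^ 6 * y * (hxe + W.a₃ * h2)
        - (W.a₁ ^ 3 * ((W.a₁ * x) ^ 2 + W.a₁ * x * W.a₃ + W.a₃ ^ 2)
            + W.a₂ * W.a₁ ^ 4 * (W.a₁ * x + W.a₃) + W.a₄ * W.a₁ ^ 5) * hxe
    · linear_combination hxe + (y + W.a₃) * h2
    · linear_combination -hye + (x ^ 2 + W.a₂ * x) * h2
  · have hid1 : 4 * (18 * W.b₆ - W.b₂ * W.b₄) ^ 3
        + W.b₂ * (18 * W.b₆ - W.b₂ * W.b₄) ^ 2 * W.c₄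
        + 2 * W.b₄ * (18 * W.b₆ - W.b₂ * W.b₄) * W.c₄ ^ 2 + W.b₆ * W.c₄ ^ 3
        = 4 * (-W.b₂ ^ 3 + 36 * W.b₂ * W.b₄ - 216 * W.b₆) * W.Δ := by
      simp only [WeierstrassCurve.c₄, WeierstrassCurve.Δ]
      linear_combination (-W.b₂ ^ 3 + 36 * W.b₂ * W.b₄ - 216 * W.b₆) * W.b₂ ^ 2 * W.b_relation
    have hid2 : 6 * (18 * W.b₆ - W.b₂ * W.b₄) ^ 2
        + W.b₂ * (18 * W.b₆ - W.b₂ * W.b₄) * W.c₄ + W.b₄ * W.c₄ ^ 2 = -72 * W.Δ := by
      simp only [WeierstrassCurve.c₄, WeierstrassCurve.Δ]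
      linear_combination (-18) * W.b₂ ^ 2 * W.b_relation
    rw [hΔ, mul_zero] at hid1 hid2
    set x := (18 * W.b₆ - W.b₂ * W.b₄) / W.c₄ with hx
    have hxe : x * W.c₄ = 18 * W.b₆ - W.b₂ * W.b₄ := by rw [hx]; field_simp
    rw [← hxe] at hid1 hid2
    have hp : 4 * x ^ 3 + W.b₂ * x ^ 2 + 2 * W.b₄ * x + W.b₆ = 0 := by
      refine mul_left_cancel₀ (pow_ne_zero 3 hc₄) ?_
      linear_combination hid1
    have hp' : 6 * x ^ 2 + W.b₂ * x + W.b₄ = 0 := by
      refine mul_left_cancel₀ (pow_ne_zero 2 hc₄) ?_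
      linear_combination hid2
    set y := -(W.a₁ * x + W.a₃) / 2 with hy
    have hye : 2 * y + W.a₁ * x + W.a₃ = 0 := by rw [hy]; field_simp; ring
    simp only [WeierstrassCurve.b₂, WeierstrassCurve.b₄, WeierstrassCurve.b₆] at hp hp'
    refine ⟨x, y, ?_, hye, ?_⟩
    · rw [Affine.equation_iff]
      refine mul_left_cancel₀ (mul_ne_zero h2 h2) ?_
      linear_combination (2 * y + W.a₁ * x + W.a₃) * hye - hp
    · refine mul_left_cancel₀ h2 ?_
      linear_combination hp' - W.a₁ * hye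

variable {L : Type*} [Field L] {A : ValuationSubring L}

/-- A simple root of a quadratic polynomial modulo the maximal ideal lifts. -/
theorem exists_root_quadratic [IsAlgClosed L] {a b c : A} {x₀ : A}
    (h0 : residue A (a * x₀ ^ 2 + b * x₀ + c) = 0) (h1 : residue A (2 * a * x₀ + b) ≠ 0) :
    ∃ x : A, a * x ^ 2 + b * x + c = 0 ∧ residue A x = residue A x₀ := by
  set B := 2 * a * x₀ + b
  set C := a * x₀ ^ 2 + b * x₀ + c
  have hB : A.valuation (B : L) = 1 := residue_ne_zero_iff_v_eq_one.1 h1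
  have hB0 : (B : L) ≠ 0 := fun h => zero_ne_one (α := A.ValueGroup) (by rw [← hB, h, map_zero])
  have hC : A.valuation (C : L) < 1 := residue_eq_zero_iff_v_lt_one.1 h0
  obtain ⟨e, he, hes⟩ : ∃ e : L, (a : L) * e ^ 2 + B * e + C = 0 ∧ A.valuation e < 1 := by
    by_cases ha : (a : L) = 0
    · refine ⟨-C / B, by rw [ha]; field_simp; ring, ?_⟩
      rw [map_div₀, A.valuation.map_neg, hB, div_one]; exact hC
    · obtain ⟨e₁, he₁⟩ := IsAlgClosed.exists_root
        (Polynomial.C (a : L) * Polynomial.X ^ 2 + Polynomial.C (B : L) * Polynomial.X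
          + Polynomial.C (C : L)) (by rw [Polynomial.degree_quadratic ha]; decide)
      simp only [Polynomial.IsRoot.def, Polynomial.eval_add, Polynomial.eval_mul,
        Polynomial.eval_C, Polynomial.eval_pow, Polynomial.eval_X] at he₁
      set e₂ := -(B : L) / a - e₁ with he₂
      have hsum : (a : L) * e₁ + a * e₂ = -(B : L) := by rw [he₂]; field_simp; ring
      have hprod : (a : L) * e₁ * e₂ = C := by
        linear_combination e₁ * hsum - he₁
      have he₂root : (a : L) * e₂ ^ 2 + B * e₂ + C = 0 := by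
        linear_combination e₂ * hsum - hprod
      by_cases h1 : A.valuation e₁ < 1
      · exact ⟨e₁, he₁, h1⟩
      refine ⟨e₂, he₂root, ?_⟩
      by_contra h2
      rw [not_lt] at h1 h2
      have hlt : A.valuation ((a : L) * e₁ * e₂) < 1 := hprod ▸ hC
      rw [map_mul, map_mul] at hlt
      have hl1 : A.valuation ((a : L) * e₁) < 1 :=
        lt_of_le_of_lt (by rw [map_mul]; exact le_mul_of_one_le_right zero_le h2) hlt
      have hl2 : A.valuation ((a : L) * e₂) < 1 := by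
        refine lt_of_le_of_lt ?_ hlt
        rw [map_mul]
        exact mul_le_mul' (le_mul_of_one_le_right zero_le h1) le_rfl
      have := A.valuation.map_add_lt hl1 hl2
      rw [hsum, A.valuation.map_neg, hB] at this
      exact lt_irrefl _ this
  refine ⟨x₀ + ⟨e, mem_of_v_le_one hes.le⟩, Subtype.ext ?_, ?_⟩
  · push_cast
    simp only [B, C] at he
    push_cast at he
    rw [show ((2 : A) : L) = 2 from rfl] at he
    linear_combination he
  · rw [map_add, add_eq_left]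
    exact residue_eq_zero_iff_v_lt_one.2 hes

/-- A singular critical point of a curve, and a slope of one of the two tangents there. -/
structure IsNode (A : ValuationSubring L) (W : WeierstrassCurve L) (x₀ y₀ α : L) : Prop where
  x_mem : x₀ ∈ A
  y_mem : y₀ ∈ A
  α_mem : α ∈ A
  dy : 2 * y₀ + W.a₁ * x₀ + W.a₃ = 0
  dx : 3 * x₀ ^ 2 + 2 * W.a₂ * x₀ + W.a₄ - W.a₁ * y₀ = 0
  small : A.valuation (y₀ ^ 2 + W.a₁ * x₀ * y₀ + W.a₃ * y₀
    - (x₀ ^ 3 + W.a₂ * x₀ ^ 2 + W.a₄ * x₀ + W.a₆)) < 1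
  root : α ^ 2 + W.a₁ * α = W.a₂ + 3 * x₀
  unit : A.valuation (2 * α + W.a₁) = 1
  disc : A.valuation (W.a₁ ^ 2 + 4 * W.a₂ + 12 * x₀) = 1

variable {W : WeierstrassCurve L}

theorem exists_isNode [IsAlgClosed L] (hW : IntegralAt A W) (hΔ : A.valuation W.Δ < 1)
    (hc₄ : A.valuation W.c₄ = 1) : ∃ x₀ y₀ α, IsNode A W x₀ y₀ α := by
  set V := intCurve hW with hV
  have hc : (redCurve hW).c₄ ≠ 0 := by
    rw [ne_eq, redCurve_c₄_eq_zero_iff, hc₄]; exact lt_irrefl _
  obtain ⟨xb, yb, he, hFy, hFx⟩ :=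
    exists_singular_point (redCurve hW) ((redCurve_Δ_eq_zero_iff hW).2 hΔ) hc
  obtain ⟨x1, rfl⟩ := IsLocalRing.residue_surjective xb
  obtain ⟨y1, rfl⟩ := IsLocalRing.residue_surjective yb
  rw [Affine.equation_iff] at he
  simp only [redCurve, map_a₁, map_a₂, map_a₃, map_a₄, map_a₆, ← hV] at he hFy hFx
  -- the discriminant of the tangent cone is a unit
  have hD : residue A (V.a₁ ^ 2 + 4 * V.a₂ + 12 * x1) ≠ 0 := by
    intro hD0
    apply hc
    simp only [map_add, map_mul, map_pow, map_ofNat] at hD0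
    rw [redCurve, map_c₄]
    simp only [WeierstrassCurve.c₄, WeierstrassCurve.b₂, WeierstrassCurve.b₄, ← hV, map_sub,
      map_add, map_mul, map_pow, map_ofNat]
    linear_combination (residue A V.a₁ ^ 2 + 4 * residue A V.a₂ + 12 * residue A x1) * hD0
      - 48 * hFx + (-24 * residue A V.a₁) * hFy
  -- a critical point
  obtain ⟨x₀, y₀, hdy, hdx, hxr, hyr⟩ : ∃ x₀ y₀ : A,
      2 * y₀ + V.a₁ * x₀ + V.a₃ = 0 ∧ 3 * x₀ ^ 2 + 2 * V.a₂ * x₀ + V.a₄ - V.a₁ * y₀ = 0 ∧
      residue A x₀ = residue A x1 ∧ residue A y₀ = residue A y1 := by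
    by_cases h2 : residue A (2 : A) = 0
    · have ha₁ : residue A V.a₁ ≠ 0 := by
        intro ha; apply hD
        simp only [map_add, map_mul, map_pow, map_ofNat, ha]
        rw [map_ofNat] at h2
        linear_combination (2 * residue A V.a₂ + 6 * residue A x1) * h2
      obtain ⟨i, hi⟩ : IsUnit V.a₁ := (residue_ne_zero_iff_isUnit _).1 ha₁
      have hia : (↑i⁻¹ : A) * V.a₁ = 1 := by rw [← hi, Units.inv_mul]
      set w := (↑i⁻¹ : A) with hw
      obtain ⟨y, hy, hyr⟩ := exists_root_quadratic (a := 12 * w ^ 2)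
        (b := 12 * w ^ 2 * V.a₃ - 4 * V.a₂ * w - V.a₁)
        (c := 3 * w ^ 2 * V.a₃ ^ 2 - 2 * V.a₂ * w * V.a₃ + V.a₄) (x₀ := y1) (by
          simp only [map_add, map_mul, map_pow, map_sub, map_ofNat]
          have hw' : residue A w * residue A V.a₁ = 1 := by rw [← map_mul, hia, map_one]
          have hxy : residue A x1 = -residue A w * (2 * residue A y1 + residue A V.a₃) := by
            linear_combination residue A w * hFy - residue A x1 * hw'
          rw [hxy] at hFx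
          linear_combination hFx) (by
          simp only [map_add, map_mul, map_pow, map_sub, map_ofNat]
          rw [map_ofNat] at h2
          intro h0
          apply ha₁
          linear_combination -h0 + (12 * residue A w ^ 2 * residue A y1
            + 6 * residue A w ^ 2 * residue A V.a₃ - 2 * residue A V.a₂ * residue A w) * h2)
      refine ⟨-w * (2 * y + V.a₃), y, ?_, ?_, ?_, hyr⟩
      · linear_combination (-(2 * y + V.a₃)) * hia
      · linear_combination hy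
      · simp only [map_neg, map_add, map_mul, map_ofNat, hyr]
        have hw' : residue A w * residue A V.a₁ = 1 := by rw [← map_mul, hia, map_one]
        linear_combination -residue A w * hFy + residue A x1 * hw'
    · obtain ⟨i, hi⟩ : IsUnit (2 : A) := (residue_ne_zero_iff_isUnit _).1 h2
      have hia : (↑i⁻¹ : A) * 2 = 1 := by rw [← hi, Units.inv_mul]
      set w := (↑i⁻¹ : A) with hw
      obtain ⟨x, hx, hxr⟩ := exists_root_quadratic (a := 6)
        (b := V.a₁ ^ 2 + 4 * V.a₂) (c := 2 * V.a₄ + V.a₁ * V.a₃) (x₀ := x1) (by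
          simp only [map_add, map_mul, map_pow, map_ofNat]
          linear_combination 2 * hFx + residue A V.a₁ * hFy) (by
          convert hD using 2
          rw [show (2 : A) * 6 * x1 = 12 * x1 by ring]; ring)
      refine ⟨x, -w * (V.a₁ * x + V.a₃), ?_, ?_, hxr, ?_⟩
      · linear_combination (-(V.a₁ * x + V.a₃)) * hia
      · have h2ne : (2 : A) ≠ 0 := fun h => by rw [h, map_zero] at h2; exact h2 rfl
        refine mul_left_cancel₀ h2ne ?_
        linear_combination hx + V.a₁ * (V.a₁ * x + V.a₃) * hia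
      · simp only [map_neg, map_add, map_mul, hxr]
        have hw' : residue A w * (2 : ResidueField A) = 1 := by
          rw [← map_ofNat (residue A) 2, ← map_mul, hia, map_one]
        linear_combination -residue A w * hFy + residue A y1 * hw'
  -- a tangent direction
  obtain ⟨α₀, hα₀⟩ : ∃ α : L, α ^ 2 + W.a₁ * α = W.a₂ + 3 * (x₀ : L) := by
    obtain ⟨α, hα⟩ := IsAlgClosed.exists_root
      (Polynomial.C (1 : L) * Polynomial.X ^ 2 + Polynomial.C W.a₁ * Polynomial.X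
        + Polynomial.C (-(W.a₂ + 3 * (x₀ : L)))) (by
          rw [Polynomial.degree_quadratic one_ne_zero]; decide)
    simp only [Polynomial.IsRoot.def, Polynomial.eval_add, Polynomial.eval_mul,
      Polynomial.eval_C, Polynomial.eval_pow, Polynomial.eval_X] at hα
    exact ⟨α, by linear_combination hα⟩
  have hdisc : A.valuation (W.a₁ ^ 2 + 4 * W.a₂ + 12 * (x₀ : L)) = 1 := by
    have h : residue A (V.a₁ ^ 2 + 4 * V.a₂ + 12 * x₀) ≠ 0 := by
      convert hD using 1; simp only [map_add, map_mul, map_pow, hxr]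
    exact residue_ne_zero_iff_v_eq_one.1 h
  have hα : α₀ ∈ A := by
    by_contra hn
    have hX : 1 < A.valuation α₀ := one_lt_v_iff.2 hn
    have h1 : A.valuation (α₀ ^ 2) ≤ A.valuation α₀ := by
      rw [show α₀ ^ 2 = (W.a₂ + 3 * (x₀ : L)) - W.a₁ * α₀ by linear_combination hα₀]
      refine A.valuation.map_sub_le ((v_le_one (add_mem hW.a₂
        (mul_mem (natCast_mem A 3) x₀.2))).trans hX.le) ?_
      rw [map_mul]; exact mul_le_of_le_one_left' (v_le_one hW.a₁)
    rw [map_pow] at h1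
    exact absurd h1 (not_le.2 (lt_self_pow₀ hX one_lt_two))
  refine ⟨x₀, y₀, α₀, x₀.2, y₀.2, hα, congrArg Subtype.val hdy, congrArg Subtype.val hdx, ?_,
    hα₀, ?_, hdisc⟩
  · have h : residue A (y₀ ^ 2 + V.a₁ * x₀ * y₀ + V.a₃ * y₀
        - (x₀ ^ 3 + V.a₂ * x₀ ^ 2 + V.a₄ * x₀ + V.a₆)) = 0 := by
      simp only [map_add, map_mul, map_pow, map_sub, hxr, hyr]
      linear_combination he
    exact residue_eq_zero_iff_v_lt_one.1 h
  · have h1 : (2 * α₀ + W.a₁) ^ 2 = W.a₁ ^ 2 + 4 * W.a₂ + 12 * (x₀ : L) := by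
      linear_combination 4 * hα₀
    rw [← h1, map_pow] at hdisc
    exact (pow_eq_one_iff_of_nonneg zero_le two_ne_zero).1 hdisc

/-- The change of variables attached to a node. -/
noncomputable def nodeChange (x₀ y₀ : L) : VariableChange L := ⟨1, x₀, 0, y₀⟩

theorem IsNode.isNodalForm (hW : IntegralAt A W) {x₀ y₀ α : L} (h : IsNode A W x₀ y₀ α) {r : L}
    (hΔ : W.Δ ≠ 0) (hr : r ^ 2 = (nodeChange x₀ y₀ • W).a₆) :
    IsNodalForm A (nodeChange x₀ y₀ • W) α r := by
  set C := nodeChange x₀ y₀ with hC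
  have e1 : (C • W).a₁ = W.a₁ := by simp [hC, nodeChange, variableChange_a₁]
  have e2 : (C • W).a₂ = W.a₂ + 3 * x₀ := by simp [hC, nodeChange, variableChange_a₂]
  have e3 : (C • W).a₃ = 0 := by
    simp only [hC, nodeChange, variableChange_a₃, inv_one, Units.val_one]
    linear_combination h.dy
  have e4 : (C • W).a₄ = 0 := by
    simp only [hC, nodeChange, variableChange_a₄, inv_one, Units.val_one]
    linear_combination h.dx
  have e6 : A.valuation (C • W).a₆ < 1 := by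
    rw [← A.valuation.map_neg]
    convert h.small using 2
    simp only [hC, nodeChange, variableChange_a₆, inv_one, Units.val_one]
    ring
  refine ⟨⟨e1 ▸ hW.a₁, e2 ▸ add_mem hW.a₂ (mul_mem (natCast_mem A 3) h.x_mem), e3 ▸ zero_mem A,
    e4 ▸ zero_mem A, mem_of_v_le_one e6.le⟩, e3, e4, h.α_mem, by rw [e1, e2]; exact h.root,
    by rw [e1]; exact h.unit, hr, ?_, ?_⟩
  · rintro rfl
    have h6 : (C • W).a₆ = 0 := by rw [← hr]; ring
    apply hΔ
    have hd : (C • W).Δ = 0 := by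
      simp only [WeierstrassCurve.Δ, WeierstrassCurve.b₂, WeierstrassCurve.b₄,
        WeierstrassCurve.b₆, WeierstrassCurve.b₈, e3, e4, h6]
      ring
    rwa [variableChange_Δ, hC, nodeChange, inv_one, Units.val_one, one_pow, one_mul] at hd
  · have h2 : A.valuation r ^ 2 < 1 := by rw [← map_pow, hr]; exact e6
    by_contra hle
    exact absurd h2 (not_lt.2 (one_le_pow_of_one_le' (not_lt.1 hle) 2))

/-- The valuation of the discriminant in a nodal normal form. -/
theorem IsNodalForm.v_Δ {V : WeierstrassCurve L} {α r : L} (h : IsNodalForm A V α r) :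
    A.valuation V.Δ = A.valuation r ^ 2 := by
  have hD : A.valuation (V.a₁ ^ 2 + 4 * V.a₂) = 1 := by
    rw [show V.a₁ ^ 2 + 4 * V.a₂ = (2 * α + V.a₁) ^ 2 by linear_combination (-4) * h.root,
      map_pow, h.unit, one_pow]
  have e : V.Δ = -(V.a₁ ^ 2 + 4 * V.a₂) ^ 3 * V.a₆ - 432 * V.a₆ * V.a₆ := by
    simp only [WeierstrassCurve.Δ, WeierstrassCurve.b₂, WeierstrassCurve.b₄,
      WeierstrassCurve.b₆, WeierstrassCurve.b₈, h.a₃, h.a₄]
    ring
  have h1 : A.valuation (-(V.a₁ ^ 2 + 4 * V.a₂) ^ 3 * V.a₆) = A.valuation r ^ 2 := by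
    rw [map_mul, A.valuation.map_neg, map_pow, hD, one_pow, one_mul, h.v_a₆]
  rw [e, A.valuation.map_sub_eq_of_lt_left, h1]
  rw [h1, map_mul, h.v_a₆]
  refine mul_lt_of_lt_one_left (pow_pos h.r_pos 2) ?_
  rw [mul_comm]
  refine v_mul_lt_one_left ?_ (natCast_mem A 432)
  rw [h.v_a₆]
  exact pow_lt_one₀ zero_le h.r_small two_ne_zero

/-- Automorphisms moving elements of `A` only slightly fix the node data. -/
theorem IsNode.map_eq {x₀ y₀ α : L} (h : IsNode A W x₀ y₀ α) (σ : L →+* L)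
    (ha₁ : σ W.a₁ = W.a₁) (ha₂ : σ W.a₂ = W.a₂) (ha₃ : σ W.a₃ = W.a₃) (ha₄ : σ W.a₄ = W.a₄)
    (hclose : ∀ a ∈ A, A.valuation (σ a - a) < 1) :
    σ x₀ = x₀ ∧ σ y₀ = y₀ ∧ σ α = α := by
  have two : σ 2 = 2 := map_ofNat σ 2
  have three : σ 3 = 3 := map_ofNat σ 3
  have hy' := congrArg σ h.dy
  have hx' := congrArg σ h.dx
  simp only [map_add, map_mul, map_sub, map_pow, map_zero, ha₁, ha₂, ha₃, ha₄, two, three] at hy' hx'
  set D := W.a₁ ^ 2 + 4 * W.a₂ + 12 * x₀ with hD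
  set dx := σ x₀ - x₀ with hdx
  set dy := σ y₀ - y₀ with hdy
  have hdisc := h.disc
  have e1 : 2 * dy + W.a₁ * dx = 0 := by rw [hdx, hdy]; linear_combination hy' - h.dy
  have e2 : 3 * dx ^ 2 + (6 * x₀ + 2 * W.a₂) * dx - W.a₁ * dy = 0 := by
    rw [hdx, hdy]; linear_combination hx' - h.dx
  have e3 : dx * (6 * dx + D) = 0 := by rw [hD]; linear_combination 2 * e2 + W.a₁ * e1
  have hne : 6 * dx + D ≠ 0 := by
    intro h0
    have hv : A.valuation (6 * dx + D) = 1 := by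
      rw [A.valuation.map_add_eq_of_lt_right, hdisc]
      rw [hdisc, mul_comm]
      exact v_mul_lt_one_left (hclose x₀ h.x_mem) (natCast_mem A 6)
    rw [h0, map_zero] at hv
    exact zero_ne_one hv
  have hx0 : dx = 0 := (mul_eq_zero.1 e3).resolve_right hne
  have hy0 : dy = 0 := by
    rw [hx0] at e1 e2
    have hD0 : D ≠ 0 := fun h0 => by rw [← hD, h0, map_zero] at hdisc; exact zero_ne_one hdisc
    have : D * dy = 0 := by
      rw [hD]; linear_combination (2 * W.a₂ + 6 * x₀) * e1 - W.a₁ * e2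
    exact (mul_eq_zero.1 this).resolve_left hD0
  have hxx : σ x₀ = x₀ := sub_eq_zero.1 hx0
  refine ⟨hxx, sub_eq_zero.1 hy0, ?_⟩
  have hα' := congrArg σ h.root
  simp only [map_add, map_mul, map_pow, ha₁, ha₂, three, hxx] at hα'
  have e4 : (σ α - α) * (σ α - α + (2 * α + W.a₁)) = 0 := by linear_combination hα' - h.root
  refine sub_eq_zero.1 ((mul_eq_zero.1 e4).resolve_right fun h0 => ?_)
  have hv : A.valuation (σ α - α + (2 * α + W.a₁)) = 1 := by
    rw [A.valuation.map_add_eq_of_lt_right, h.unit]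
    rw [h.unit]; exact hclose α h.α_mem
  rw [h0, map_zero] at hv
  exact zero_ne_one hv

/-- The change of variables at a node preserves `E₀`. -/
theorem IsNode.inZero_vc_iff [DecidableEq L] (hW : IntegralAt A W) {x₀ y₀ α : L}
    (h : IsNode A W x₀ y₀ α) (hW' : IntegralAt A (nodeChange x₀ y₀ • W))
    (P : W.toAffine.Point) :
    InZero hW' (vcEquiv (nodeChange x₀ y₀) W P) ↔ InZero hW P := by
  rcases P with _ | ⟨x, y, hxy⟩
  · exact Iff.rfl
  rw [vcEquiv_some]
  have ex : vcX (nodeChange x₀ y₀) x = x - x₀ := by simp [vcX, nodeChange]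
  have ey : vcY (nodeChange x₀ y₀) x y = y - y₀ := by simp [vcY, nodeChange]
  simp only [InZero, ex, ey]
  have hm : x - x₀ ∈ A ↔ x ∈ A :=
    ⟨fun h' => sub_add_cancel x x₀ ▸ add_mem h' h.x_mem, fun h' => sub_mem h' h.x_mem⟩
  have hm' : y - y₀ ∈ A ↔ y ∈ A :=
    ⟨fun h' => sub_add_cancel y y₀ ▸ add_mem h' h.y_mem, fun h' => sub_mem h' h.y_mem⟩
  refine or_congr (not_congr hm) ?_
  have key : ∀ (hx : x ∈ A) (hy : y ∈ A),
      (redCurve hW').toAffine.Nonsingular (residue A ⟨x - x₀, hm.2 hx⟩)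
          (residue A ⟨y - y₀, hm'.2 hy⟩) ↔
        (redCurve hW).toAffine.Nonsingular (residue A ⟨x, hx⟩) (residue A ⟨y, hy⟩) := by
    intro hx hy
    set a : A := ⟨x₀, h.x_mem⟩
    set b : A := ⟨y₀, h.y_mem⟩
    have hi : intCurve hW' = (⟨1, a, 0, b⟩ : VariableChange A) • intCurve hW := by
      ext <;> simp [intCurve, nodeChange, variableChange_a₁, variableChange_a₂, variableChange_a₃,
        variableChange_a₄, variableChange_a₆, a, b, show ((2 : A) : L) = 2 from rfl,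
        show ((3 : A) : L) = 3 from rfl]
    have hc : redCurve hW'
        = (⟨1, residue A a, 0, residue A b⟩ : VariableChange (ResidueField A)) • redCurve hW := by
      rw [redCurve, redCurve, hi]
      have h2 : residue A (2 : A) = 2 := map_ofNat _ 2
      have h3 : residue A (3 : A) = 3 := map_ofNat _ 3
      ext <;> simp [variableChange_a₁, variableChange_a₂, variableChange_a₃, variableChange_a₄,
        variableChange_a₆, h2, h3]
    rw [hc, ← nonsingular_vc (⟨1, residue A a, 0, residue A b⟩ : VariableChange (ResidueField A))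
      (redCurve hW) (residue A ⟨x, hx⟩) (residue A ⟨y, hy⟩)]
    have e1 : vcX (⟨1, residue A a, 0, residue A b⟩ : VariableChange (ResidueField A))
        (residue A ⟨x, hx⟩) = residue A ⟨x - x₀, hm.2 hx⟩ := by
      simp only [vcX, inv_one, Units.val_one, one_pow, one_mul]
      rw [← map_sub]; rfl
    have e2 : vcY (⟨1, residue A a, 0, residue A b⟩ : VariableChange (ResidueField A))
        (residue A ⟨x, hx⟩) (residue A ⟨y, hy⟩) = residue A ⟨y - y₀, hm'.2 hy⟩ := by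
      simp only [vcY, inv_one, Units.val_one, one_pow, one_mul, zero_mul, sub_zero]
      rw [← map_sub]; rfl
    rw [e1, e2]
  exact ⟨fun ⟨hx, hy, hns⟩ => ⟨hm.1 hx, hm'.1 hy, (key _ _).1 hns⟩,
    fun ⟨hx, hy, hns⟩ => ⟨hm.2 hx, hm'.2 hy, (key hx hy).2 hns⟩⟩

end FLTAgent.Reduction
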