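import Fermat.Agent.Reduction.GoodPrime
import Fermat.Agent.Reduction.Component
import Fermat.Agent.Reduction.NodeExists
import Mathlib.FieldTheory.IsAlgClosed.Basic
import Mathlib.RingTheory.Int.Basic

/-!
# Inertia at a prime of multiplicative reduction
-/

set_option autoImplicit false

namespace FLTAgent.Reduction

open WeierstrassCurve IsLocalRing

variable {A : ValuationSubring Qbar} {q : ℕ} {W : WeierstrassCurve ℤ} {σ : Qbar ≃ₐ[ℚ] Qbar}

/-- A nodal normal form of `W` at `A`. -/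
theorem exists_nodal (hA : A.LiesOverPrime q) (hq : q.Prime) (hΔ0 : W.Δ ≠ 0)
    (hbad : (q : ℤ) ∣ W.Δ) (hc₄ : ¬(q : ℤ) ∣ W.c₄) :
    ∃ x₀ y₀ α r : Qbar, IsNode A (WQbar W) x₀ y₀ α ∧
      IsNodalForm A (nodeChange x₀ y₀ • WQbar W) α r := by
  have hΔ : A.valuation (WQbar W).Δ < 1 := by
    rw [WQbar_Δ]; exact (v_intCast_lt_one_iff hA hq _).2 hbad
  have hc : A.valuation (WQbar W).c₄ = 1 := by
    rw [WQbar_c₄]; exact v_intCast_eq_one hA hq hc₄
  obtain ⟨x₀, y₀, α, h⟩ := exists_isNode (integralAt W A) hΔ hc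
  obtain ⟨r, hr⟩ :=
    IsAlgClosed.exists_pow_nat_eq (nodeChange x₀ y₀ • WQbar W).a₆ (n := 2) two_pos
  exact ⟨x₀, y₀, α, r, h, h.isNodalForm (integralAt W A)
    (by rw [WQbar_Δ]; exact Int.cast_ne_zero.2 hΔ0) hr⟩

variable {x₀ y₀ α r : Qbar}

lemma isAlgebraic_Qbar : Algebra.IsAlgebraic ℚ Qbar := AlgebraicClosure.isAlgebraic ℚ

lemma v_map_eq_qbar (hσ : σ ∈ A.decompositionSubgroup ℚ) (x : Qbar) :
    A.valuation (σ x) = A.valuation x :=
  haveI := isAlgebraic_Qbar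
  v_map_eq hσ x

lemma vcX_node (x : Qbar) : vcX (nodeChange x₀ y₀) x = x - x₀ := by simp [vcX, nodeChange]

lemma vcY_node (x y : Qbar) : vcY (nodeChange x₀ y₀) x y = y - y₀ := by simp [vcY, nodeChange]

lemma node_fixed (hn : IsNode A (WQbar W) x₀ y₀ α) (hσ : σ ∈ A.inertiaSubgroupIn ℚ) :
    σ x₀ = x₀ ∧ σ y₀ = y₀ ∧ σ α = α := by
  have h := hn.map_eq (σ := (σ : Qbar →+* Qbar)) (by simp [WQbar_eq]) (by simp [WQbar_eq])
    (by simp [WQbar_eq]) (by simp [WQbar_eq]) (fun a ha => v_map_sub_lt_one hσ ha)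
  exact h

lemma node_a₁_fixed (σ : Qbar ≃ₐ[ℚ] Qbar) :
    σ (nodeChange x₀ y₀ • WQbar W).a₁ = (nodeChange x₀ y₀ • WQbar W).a₁ := by
  simp [nodeChange, variableChange_a₁, WQbar_eq]

lemma fCoord_map (hn : IsNode A (WQbar W) x₀ y₀ α) (hσ : σ ∈ A.inertiaSubgroupIn ℚ) (x y : Qbar) :
    fCoord α (σ x - x₀) (σ y - y₀) = σ (fCoord α (x - x₀) (y - y₀)) := by
  obtain ⟨hx, hy, hα⟩ := node_fixed hn hσ
  simp only [fCoord, map_sub, map_mul, hx, hy, hα]

/-- Inertia preserves the component of a point. -/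
theorem comp_smul (hn : IsNode A (WQbar W) x₀ y₀ α)
    (h : IsNodalForm A (nodeChange x₀ y₀ • WQbar W) α r) (hσ : σ ∈ A.inertiaSubgroupIn ℚ)
    (P : (WQbar W).toAffine.Point) :
    h.comp (vcEquiv (nodeChange x₀ y₀) (WQbar W) (σ • P))
      = h.comp (vcEquiv (nodeChange x₀ y₀) (WQbar W) P) := by
  rcases P with _ | ⟨x, y, hxy⟩
  · rfl
  rw [smul_some, vcEquiv_some, vcEquiv_some, h.comp_some, h.comp_some]
  simp only [vcX_node, vcY_node, IsNodalForm.compCoord]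
  have hd := inertia_le_decomposition hσ
  obtain ⟨hx, hy, hα⟩ := node_fixed hn hσ
  have h1 : A.valuation (σ x - x₀) = A.valuation (x - x₀) := by
    rw [← v_map_eq_qbar hd (x - x₀), map_sub σ, hx]
  have h2 : A.valuation (fCoord α (σ x - x₀) (σ y - y₀))
      = A.valuation (fCoord α (x - x₀) (y - y₀)) := by
    rw [fCoord_map hn hσ, v_map_eq_qbar hd]
  rw [h1, h2]

/-- At a prime of multiplicative reduction inertia moves points only inside `E₀`. -/
theorem smul_sub_mem_zeroSubgroup (hA : A.LiesOverPrime q) (hq : q.Prime) (hΔ0 : W.Δ ≠ 0)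
    (hbad : (q : ℤ) ∣ W.Δ) (hc₄ : ¬(q : ℤ) ∣ W.c₄) (hσ : σ ∈ A.inertiaSubgroupIn ℚ)
    (P : (WQbar W).toAffine.Point) : σ • P - P ∈ zeroSubgroup (integralAt W A) := by
  obtain ⟨x₀, y₀, α, r, hn, h⟩ := exists_nodal hA hq hΔ0 hbad hc₄
  refine (hn.inZero_vc_iff (integralAt W A) h.integral _).1 (h.comp_eq_one_iff.1 ?_)
  rw [map_sub, sub_eq_add_neg, h.comp_add, h.comp_neg, comp_smul hn h hσ, mul_inv_cancel]

/-- Inertia acts unipotently on torsion of order prime to `q`. -/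
theorem inertia_unipotent (hA : A.LiesOverPrime q) (hq : q.Prime) (hΔ0 : W.Δ ≠ 0)
    (hbad : (q : ℤ) ∣ W.Δ) (hc₄ : ¬(q : ℤ) ∣ W.c₄) {n : ℕ} (hqn : ¬ q ∣ n)
    (hσ : σ ∈ A.inertiaSubgroupIn ℚ) {P : (WQbar W).toAffine.Point} (hP : n • P = 0) :
    σ • (σ • P - P) = σ • P - P := by
  refine smul_eq_of_mem_zeroSubgroup hA hq hqn hσ
    (smul_sub_mem_zeroSubgroup hA hq hΔ0 hbad hc₄ hσ P) ?_
  have h3 : n • (σ • P) = σ • (n • P) :=
    ((DistribSMul.toAddMonoidHom (WQbar W).toAffine.Point σ).map_nsmul n P).symm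
  rw [nsmul_sub, h3, hP, smul_zero', sub_zero]

lemma comp_nsmul {V : WeierstrassCurve Qbar} (h : IsNodalForm A V α r) (n : ℕ)
    (P : V.toAffine.Point) : h.comp (n • P) = h.comp P ^ n :=
  congrArg Additive.toMul (map_nsmul h.compHom n P)

lemma comp_pow_eq_one {V : WeierstrassCurve Qbar} (h : IsNodalForm A V α r) {n : ℕ}
    {P : V.toAffine.Point} (hP : n • P = 0) : h.comp P ^ n = 1 := by
  rw [← comp_nsmul h, hP, h.comp_zero]

lemma eq_zpow_of_pow_eq_zpow {V : WeierstrassCurve Qbar} (h : IsNodalForm A V α r) {p : ℕ}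
    (hp : p ≠ 0) {u : (A.ValueGroup)ˣ} {k : ℤ} (hu : u ^ p = h.period ^ (↑p * k)) :
    u = h.period ^ k := by
  rw [zpow_mul', zpow_natCast] at hu
  refine Units.ext ?_
  have h' := congrArg Units.val hu
  rw [Units.val_pow_eq_pow_val, Units.val_pow_eq_pow_val] at h'
  exact (pow_left_inj₀ zero_le zero_le hp).1 h'

/-- Elements of order dividing a prime form a cyclic group in the component group. -/
lemma exists_zpow_eq {V : WeierstrassCurve Qbar} (h : IsNodalForm A V α r) {p : ℕ} (hp : p.Prime)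
    {g g' : h.CompGroup} (hg : g ^ p = 1) (hg1 : g ≠ 1) (hg' : g' ^ p = 1) :
    ∃ j : ℤ, g' = g ^ j := by
  induction g using QuotientGroup.induction_on with | H u =>
  induction g' using QuotientGroup.induction_on with | H u' =>
  rw [← QuotientGroup.mk_pow, QuotientGroup.eq_one_iff] at hg hg'
  obtain ⟨k, hk⟩ := Subgroup.mem_zpowers_iff.1 hg
  obtain ⟨k', hk'⟩ := Subgroup.mem_zpowers_iff.1 hg'
  have hndvd : ¬(p : ℤ) ∣ k := by
    rintro ⟨t, rfl⟩
    exact hg1 ((QuotientGroup.eq_one_iff _).2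
      (Subgroup.mem_zpowers_iff.2 ⟨t, (eq_zpow_of_pow_eq_zpow h hp.ne_zero hk.symm).symm⟩))
  obtain ⟨a, b, hab⟩ := (Nat.prime_iff_prime_int.1 hp).coprime_iff_not_dvd.2 hndvd
  refine ⟨b * k', ?_⟩
  rw [← QuotientGroup.mk_zpow, QuotientGroup.eq, Subgroup.mem_zpowers_iff]
  refine ⟨-(a * k'), (eq_zpow_of_pow_eq_zpow h hp.ne_zero ?_).symm⟩
  rw [mul_pow, inv_pow, ← hk', ← zpow_natCast (u ^ (b * k')), ← zpow_mul, mul_comm (b * k'),
    zpow_mul, zpow_natCast, ← hk, ← zpow_mul, ← zpow_neg, ← zpow_add]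
  congr 1
  linear_combination k' * hab

/-- The torsion points of prime order outside `E₀` generate the quotient by `E₀`. -/
theorem exists_sub_zsmul_mem_zeroSubgroup (hA : A.LiesOverPrime q) (hq : q.Prime) (hΔ0 : W.Δ ≠ 0)
    (hbad : (q : ℤ) ∣ W.Δ) (hc₄ : ¬(q : ℤ) ∣ W.c₄) {p : ℕ} (hp : p.Prime)
    {P Q : (WQbar W).toAffine.Point} (hP : p • P = 0) (hQ : p • Q = 0)
    (hP0 : P ∉ zeroSubgroup (integralAt W A)) :
    ∃ j : ℤ, Q - j • P ∈ zeroSubgroup (integralAt W A) := by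
  obtain ⟨x₀, y₀, α, r, hn, h⟩ := exists_nodal hA hq hΔ0 hbad hc₄
  set e := vcEquiv (nodeChange x₀ y₀) (WQbar W) with he
  have hPe : p • e P = 0 := by rw [← map_nsmul, hP, map_zero]
  have hQe : p • e Q = 0 := by rw [← map_nsmul, hQ, map_zero]
  have h1 : h.comp (e P) ≠ 1 := fun h1 => hP0
    ((hn.inZero_vc_iff (integralAt W A) h.integral _).1 (h.comp_eq_one_iff.1 h1))
  obtain ⟨j, hj⟩ := exists_zpow_eq h hp (comp_pow_eq_one h hPe) h1 (comp_pow_eq_one h hQe)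
  refine ⟨j, (hn.inZero_vc_iff (integralAt W A) h.integral _).1 (h.comp_eq_one_iff.1 ?_)⟩
  have hz : h.comp (e (j • P)) = h.comp (e P) ^ j := by
    rw [map_zsmul]
    exact congrArg Additive.toMul (map_zsmul h.compHom j (e P))
  change h.comp (e (Q - j • P)) = 1
  rw [map_sub, sub_eq_add_neg, h.comp_add, h.comp_neg, hz, hj, mul_inv_cancel]

end FLTAgent.Reduction
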