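import Fermat.Agent.Reduction.Inertia
import Mathlib.Algebra.Field.ZMod
import Mathlib.FieldTheory.Galois.Infinite

/-!
# Rational points and components

The node is `q`-adically approximable by integers, so rational points have components in
`ℤ/v_q(Δ)`; in particular a rational point killed modulo `E₀` by a number prime to `v_q(Δ)` lies
in `E₀`.
-/

set_option autoImplicit false

namespace FLTAgent.Reduction

open WeierstrassCurve IsLocalRing

variable {A : ValuationSubring Qbar} {q : ℕ} {W : WeierstrassCurve ℤ} {x₀ y₀ α r : Qbar}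

/-- The value of a nonzero rational number is a power of the value of `q`. -/
theorem exists_v_rat_eq_zpow (hA : A.LiesOverPrime q) (hq : q.Prime) {z : ℚ} (hz : z ≠ 0) :
    ∃ j : ℤ, A.valuation (z : Qbar) = A.valuation (q : Qbar) ^ j := by
  refine ⟨(padicValInt q z.num : ℤ) - (padicValInt q (z.den : ℤ) : ℤ), ?_⟩
  have hden : (z.den : ℤ) ≠ 0 := Int.natCast_ne_zero.2 z.den_ne_zero
  have hq0 : A.valuation (q : Qbar) ≠ 0 :=
    (map_ne_zero A.valuation).2 (Nat.cast_ne_zero.2 hq.ne_zero)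
  rw [zpow_sub₀ hq0, zpow_natCast, zpow_natCast, ← v_intCast_eq_pow hA hq (Rat.num_ne_zero.2 hz),
    ← v_intCast_eq_pow hA hq hden, ← map_div₀, Int.cast_natCast, Rat.cast_def]

lemma v_q_lt_one (hA : A.LiesOverPrime q) : A.valuation (q : Qbar) < 1 :=
  A.mem_nonunits_iff.1 hA

lemma v_intCast_le_of_dvd (A : ValuationSubring Qbar) {q : ℕ} {m : ℤ} (h : (q : ℤ) ∣ m) :
    A.valuation (m : Qbar) ≤ A.valuation (q : Qbar) := by
  obtain ⟨c, rfl⟩ := h
  rw [Int.cast_mul, Int.cast_natCast, map_mul]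
  exact mul_le_of_le_one_right' (v_le_one (intCast_mem A c))

/-- The node is approximable by integers to any precision. -/
theorem node_approx (hA : A.LiesOverPrime q) (hq : q.Prime) (hbad : (q : ℤ) ∣ W.Δ)
    (hc₄ : ¬(q : ℤ) ∣ W.c₄) (hn : IsNode A (WQbar W) x₀ y₀ α) (k : ℕ) :
    ∃ s t : ℤ, A.valuation ((s : Qbar) - x₀) ≤ A.valuation (q : Qbar) ^ (k + 1) ∧
      A.valuation ((t : Qbar) - y₀) ≤ A.valuation (q : Qbar) ^ (k + 1) := by
  have := Fact.mk hq
  have e₁ : (WQbar W).a₁ = (W.a₁ : Qbar) := by rw [WQbar_eq, map_a₁, eq_intCast]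
  have e₂ : (WQbar W).a₂ = (W.a₂ : Qbar) := by rw [WQbar_eq, map_a₂, eq_intCast]
  have e₃ : (WQbar W).a₃ = (W.a₃ : Qbar) := by rw [WQbar_eq, map_a₃, eq_intCast]
  have e₄ : (WQbar W).a₄ = (W.a₄ : Qbar) := by rw [WQbar_eq, map_a₄, eq_intCast]
  have e₆ : (WQbar W).a₆ = (W.a₆ : Qbar) := by rw [WQbar_eq, map_a₆, eq_intCast]
  have hdy := hn.dy
  have hdx := hn.dx
  have hdisc := hn.disc
  have hsmall := hn.small
  rw [e₁, e₃] at hdy
  rw [e₁, e₂, e₄] at hdx
  rw [e₁, e₂] at hdisc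
  rw [e₁, e₂, e₃, e₄, e₆] at hsmall
  set Q := A.valuation (q : Qbar) with hQ
  have hQ1 : Q < 1 := v_q_lt_one hA
  set D := (W.a₁ : Qbar) ^ 2 + 4 * (W.a₂ : Qbar) + 12 * x₀ with hD
  have hF₁ : ∀ s t : ℤ, ((2 * t + W.a₁ * s + W.a₃ : ℤ) : Qbar)
      = 2 * ((t : Qbar) - y₀) + (W.a₁ : Qbar) * ((s : Qbar) - x₀) := by
    intro s t; push_cast; linear_combination hdy
  have hF₂ : ∀ s t : ℤ, ((3 * s ^ 2 + 2 * W.a₂ * s + W.a₄ - W.a₁ * t : ℤ) : Qbar)
      = 3 * ((s : Qbar) - x₀) ^ 2 + (6 * x₀ + 2 * (W.a₂ : Qbar)) * ((s : Qbar) - x₀)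
        - (W.a₁ : Qbar) * ((t : Qbar) - y₀) := by
    intro s t; push_cast; linear_combination hdx
  induction k with
  | zero =>
    have hc : (W.map (Int.castRingHom (ZMod q))).c₄ ≠ 0 := by
      rwa [map_c₄, eq_intCast, ne_eq, ZMod.intCast_zmod_eq_zero_iff_dvd]
    obtain ⟨xb, yb, he, hy, hx⟩ := exists_singular_point (W.map (Int.castRingHom (ZMod q)))
      (by rwa [map_Δ, eq_intCast, ZMod.intCast_zmod_eq_zero_iff_dvd]) hc
    obtain ⟨s, rfl⟩ := ZMod.intCast_surjective xb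
    obtain ⟨t, rfl⟩ := ZMod.intCast_surjective yb
    rw [Affine.equation_iff] at he
    simp only [map_a₁, map_a₂, map_a₃, map_a₄, map_a₆, eq_intCast] at he hy hx
    have d₀ : (q : ℤ) ∣ t ^ 2 + W.a₁ * s * t + W.a₃ * t
        - (s ^ 3 + W.a₂ * s ^ 2 + W.a₄ * s + W.a₆) := by
      rw [← ZMod.intCast_zmod_eq_zero_iff_dvd]; push_cast; linear_combination he
    have d₁ : (q : ℤ) ∣ 2 * t + W.a₁ * s + W.a₃ := by
      rw [← ZMod.intCast_zmod_eq_zero_iff_dvd]; push_cast; linear_combination hy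
    have d₂ : (q : ℤ) ∣ 3 * s ^ 2 + 2 * W.a₂ * s + W.a₄ - W.a₁ * t := by
      rw [← ZMod.intCast_zmod_eq_zero_iff_dvd]; push_cast; linear_combination hx
    have v₀ := v_intCast_le_of_dvd A d₀
    have v₁ := v_intCast_le_of_dvd A d₁
    have v₂ := v_intCast_le_of_dvd A d₂
    set F := ((t ^ 2 + W.a₁ * s * t + W.a₃ * t
      - (s ^ 3 + W.a₂ * s ^ 2 + W.a₄ * s + W.a₆) : ℤ) : Qbar) with hF
    set G₁ := ((2 * t + W.a₁ * s + W.a₃ : ℤ) : Qbar) with hG₁
    set G₂ := ((3 * s ^ 2 + 2 * W.a₂ * s + W.a₄ - W.a₁ * t : ℤ) : Qbar) with hG₂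
    set dx := (s : Qbar) - x₀ with hdx'
    set dy := (t : Qbar) - y₀ with hdy'
    set F₀ := y₀ ^ 2 + (W.a₁ : Qbar) * x₀ * y₀ + (W.a₃ : Qbar) * y₀
      - (x₀ ^ 3 + (W.a₂ : Qbar) * x₀ ^ 2 + (W.a₄ : Qbar) * x₀ + (W.a₆ : Qbar)) with hF₀
    have hcube : dx ^ 3 = 2 * (F - F₀) - dy * G₁ + dx * G₂ := by
      simp only [hF, hG₁, hG₂, hF₀, hdx', hdy']
      push_cast
      linear_combination (-((t : Qbar) - y₀)) * hdy + ((s : Qbar) - x₀) * hdx
    have hdxA : dx ∈ A := sub_mem (intCast_mem A s) hn.x_mem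
    have hdyA : dy ∈ A := sub_mem (intCast_mem A t) hn.y_mem
    have hdx1 : A.valuation dx < 1 := by
      by_contra hle
      have h3 : A.valuation (dx ^ 3) < 1 := by
        rw [hcube]
        refine A.valuation.map_add_lt (A.valuation.map_sub_lt ?_ ?_) ?_
        · rw [mul_comm]
          exact v_mul_lt_one_left (A.valuation.map_sub_lt (lt_of_le_of_lt v₀ hQ1) hsmall)
            (natCast_mem A 2)
        · rw [mul_comm]; exact v_mul_lt_one_left (lt_of_le_of_lt v₁ hQ1) hdyA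
        · rw [mul_comm]; exact v_mul_lt_one_left (lt_of_le_of_lt v₂ hQ1) hdxA
      rw [map_pow] at h3
      exact absurd h3 (not_lt.2 (one_le_pow_of_one_le' (not_lt.1 hle) 3))
    have hfac : dx * (6 * dx + D) = 2 * G₂ + (W.a₁ : Qbar) * G₁ := by
      rw [hG₁, hG₂, hF₁, hF₂, hD]; ring
    have hu : A.valuation (6 * dx + D) = 1 := by
      rw [A.valuation.map_add_eq_of_lt_right, hdisc]
      rw [hdisc, mul_comm]; exact v_mul_lt_one_left hdx1 (natCast_mem A 6)
    have two : (2 : Qbar) ∈ A := natCast_mem A 2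
    have hdxQ : A.valuation dx ≤ Q := by
      rw [← mul_one (A.valuation dx), ← hu, ← map_mul, hfac]
      refine A.valuation.map_add_le ?_ ?_
      · rw [map_mul]; exact (mul_le_of_le_one_left' (v_le_one two)).trans v₂
      · rw [map_mul]; exact (mul_le_of_le_one_left' (v_le_one (intCast_mem A _))).trans v₁
    have hdyQ : A.valuation dy ≤ Q := by
      rw [← mul_one (A.valuation dy), ← hdisc, ← map_mul,
        show dy * D = (2 * (W.a₂ : Qbar) + 6 * x₀) * G₁
          - (W.a₁ : Qbar) * (G₂ - 3 * dx * dx) by rw [hG₁, hG₂, hF₁, hF₂, hD]; ring]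
      refine A.valuation.map_sub_le ?_ ?_
      · rw [map_mul]
        exact (mul_le_of_le_one_left' (v_le_one (add_mem (mul_mem two (intCast_mem A _))
          (mul_mem (natCast_mem A 6) hn.x_mem)))).trans v₁
      · rw [map_mul]
        refine (mul_le_of_le_one_left' (v_le_one (intCast_mem A _))).trans ?_
        refine A.valuation.map_sub_le v₂ ?_
        rw [map_mul]
        exact (mul_le_of_le_one_left' (v_le_one (mul_mem (natCast_mem A 3) hdxA))).trans hdxQ
    exact ⟨s, t, by rw [zero_add, pow_one]; exact hdxQ, by rw [zero_add, pow_one]; exact hdyQ⟩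
  | succ k ih =>
    obtain ⟨s, t, hs, ht⟩ := ih
    have hQk : Q ^ (k + 1) ≤ 1 := pow_le_one₀ zero_le hQ1.le
    set E := W.a₁ ^ 2 + 4 * W.a₂ + 12 * s with hE
    set dx := (s : Qbar) - x₀ with hdx'
    set dy := (t : Qbar) - y₀ with hdy'
    have hs1 : A.valuation dx < 1 :=
      lt_of_le_of_lt hs (pow_lt_one₀ zero_le hQ1 k.succ_ne_zero)
    have hEv : A.valuation (E : Qbar) = 1 := by
      have e : (E : Qbar) = 12 * dx + D := by rw [hE, hD, hdx']; push_cast; ring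
      rw [e, A.valuation.map_add_eq_of_lt_right, hdisc]
      rw [hdisc, mul_comm]; exact v_mul_lt_one_left hs1 (natCast_mem A 12)
    have hEq : ¬(q : ℤ) ∣ E := fun h => by
      have := (v_intCast_lt_one_iff hA hq E).2 h
      rw [hEv] at this; exact lt_irrefl _ this
    obtain ⟨b, c, hbc⟩ := (Nat.prime_iff_prime_int.1 hq).coprime_iff_not_dvd.2 hEq
    have hone : A.valuation (1 - (c : Qbar) * (E : Qbar)) ≤ Q := by
      have e : (1 : Qbar) - (c : Qbar) * (E : Qbar) = ((b * q : ℤ) : Qbar) := by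
        rw [eq_comm, eq_sub_iff_add_eq]; exact_mod_cast hbc
      rw [e]; exact v_intCast_le_of_dvd A (dvd_mul_left _ _)
    set g₁ := 2 * t + W.a₁ * s + W.a₃ with hg₁
    set g₂ := 3 * s ^ 2 + 2 * W.a₂ * s + W.a₄ - W.a₁ * t with hg₂
    have hstep : ∀ z : Qbar, z ∈ A → A.valuation (z * dx * dx) ≤ Q ^ (k + 1) * Q ^ (k + 1) :=
      fun z hz => by
        rw [map_mul, map_mul]
        exact mul_le_mul' ((mul_le_of_le_one_left' (v_le_one hz)).trans hs) hs
    have hQQ : Q ^ (k + 1) * Q ^ (k + 1) ≤ Q ^ (k + 1 + 1) := by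
      rw [pow_succ Q (k + 1)]
      exact mul_le_mul' le_rfl (pow_le_of_le_one zero_le hQ1.le k.succ_ne_zero)
    refine ⟨s - c * (2 * g₂ + W.a₁ * g₁), t - c * ((2 * W.a₂ + 6 * s) * g₁ - W.a₁ * g₂), ?_, ?_⟩
    · have e : ((s - c * (2 * g₂ + W.a₁ * g₁) : ℤ) : Qbar) - x₀
          = dx * (1 - (c : Qbar) * (E : Qbar)) + 6 * (c : Qbar) * dx * dx := by
        push_cast
        rw [hg₁, hg₂, hF₁, hF₂, hE, hdx']
        push_cast
        ring
      rw [e]
      refine A.valuation.map_add_le ?_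
        ((hstep _ (mul_mem (natCast_mem A 6) (intCast_mem A c))).trans hQQ)
      rw [map_mul, pow_succ Q (k + 1)]
      exact mul_le_mul' hs hone
    · have e : ((t - c * ((2 * W.a₂ + 6 * s) * g₁ - W.a₁ * g₂) : ℤ) : Qbar) - y₀
          = dy * (1 - (c : Qbar) * (E : Qbar)) + (-3 * (c : Qbar) * (W.a₁ : Qbar)) * dx * dx := by
        push_cast
        rw [hg₁, hg₂, hF₁, hF₂, hE, hdx', hdy']
        push_cast
        ring
      rw [e]
      refine A.valuation.map_add_le ?_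
        ((hstep _ (mul_mem (mul_mem (neg_mem (natCast_mem A 3)) (intCast_mem A c))
          (intCast_mem A _))).trans hQQ)
      rw [map_mul, pow_succ Q (k + 1)]
      exact mul_le_mul' ht hone

/-- The value of `z - w` for rational `z` and well approximated `w`. -/
lemma exists_v_sub_eq_zpow (hA : A.LiesOverPrime q) (hq : q.Prime) {z : ℚ} {w : Qbar} {s : ℤ}
    (hs : A.valuation ((s : Qbar) - w) < A.valuation ((z : Qbar) - w)) :
    ∃ j : ℤ, A.valuation ((z : Qbar) - w) = A.valuation (q : Qbar) ^ j := by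
  have e : A.valuation ((z : Qbar) - w) = A.valuation ((z - s : ℚ) : Qbar) := by
    push_cast
    rw [show (z : Qbar) - s = ((z : Qbar) - w) - ((s : Qbar) - w) by ring,
      A.valuation.map_sub_eq_of_lt_left hs]
  rw [e]
  refine exists_v_rat_eq_zpow hA hq fun h0 => ?_
  rw [sub_eq_zero.1 h0] at hs
  push_cast at hs
  exact lt_irrefl _ hs

/-- A rational point, killed modulo `E₀` by a number prime to `v_q(Δ)`, lies in `E₀`. -/
theorem mem_zeroSubgroup_of_coprime (hA : A.LiesOverPrime q) (hq : q.Prime) (hΔ0 : W.Δ ≠ 0)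
    (hbad : (q : ℤ) ∣ W.Δ) (hc₄ : ¬(q : ℤ) ∣ W.c₄) {m : ℕ}
    (hm : Nat.Coprime m (padicValInt q W.Δ)) {x y : ℚ}
    (hxy : (WQbar W).toAffine.Nonsingular (x : Qbar) (y : Qbar))
    (hR : m • Affine.Point.some _ _ hxy ∈ zeroSubgroup (integralAt W A)) :
    Affine.Point.some _ _ hxy ∈ zeroSubgroup (integralAt W A) := by
  obtain ⟨x₀, y₀, α, r, hn, h⟩ := exists_nodal hA hq hΔ0 hbad hc₄
  set n := padicValInt q W.Δ with hn'
  set Q := A.valuation (q : Qbar) with hQ
  have hQ0 : 0 < Q := zero_lt_iff.2 ((map_ne_zero A.valuation).2 (Nat.cast_ne_zero.2 hq.ne_zero))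
  have hQ1 : Q < 1 := v_q_lt_one hA
  have hN : A.valuation r ^ 2 = Q ^ n := by
    rw [← h.v_Δ, variableChange_Δ, WQbar_Δ, nodeChange, inv_one, Units.val_one, one_pow, one_mul,
      v_intCast_eq_pow hA hq hΔ0]
  have hnr : Q ^ (n + 1) < A.valuation r := by
    refine lt_of_le_of_lt (pow_le_pow_right_of_le_one' hQ1.le n.le_succ) ?_
    rw [← hN, pow_two]
    exact mul_lt_of_lt_one_left h.r_pos h.r_small
  obtain ⟨s, t, hs, ht⟩ := node_approx hA hq hbad hc₄ hn n
  replace hs := lt_of_le_of_lt hs hnr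
  replace ht := lt_of_le_of_lt ht hnr
  rw [mem_zeroSubgroup]
  refine (hn.inZero_vc_iff (integralAt W A) h.integral _).1
    ((h.comp_eq_one_iff (P := vcEquiv (nodeChange x₀ y₀) (WQbar W) (.some _ _ hxy))).1 ?_)
  rw [vcEquiv_some, h.comp_some]
  simp only [vcX_node, vcY_node]
  have hn₁ : (nodeChange x₀ y₀ • WQbar W).toAffine.Nonsingular ((x : Qbar) - x₀)
      ((y : Qbar) - y₀) := by
    simpa only [vcX_node, vcY_node] using
      (nonsingular_vc (nodeChange x₀ y₀) (WQbar W) (x : Qbar) (y : Qbar)).2 hxy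
  have hpow : h.compCoord ((x : Qbar) - x₀) ((y : Qbar) - y₀) ^ m = 1 := by
    have h1 : h.comp (vcEquiv (nodeChange x₀ y₀) (WQbar W) (m • Affine.Point.some _ _ hxy)) = 1 :=
      h.comp_eq_one_iff.2 ((hn.inZero_vc_iff (integralAt W A) h.integral _).2 hR)
    rw [map_nsmul, comp_nsmul h, vcEquiv_some, h.comp_some] at h1
    simpa only [vcX_node, vcY_node] using h1
  by_contra hne
  rcases le_or_gt 1 (A.valuation ((x : Qbar) - x₀)) with h1 | hx1
  · exact hne (h.compCoord_out _ h1)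
  rcases le_or_gt (A.valuation ((x : Qbar) - x₀)) (A.valuation r) with hM | hS
  · -- the middle: `r` has the size of a power of `q`, so `n` is even and `m` odd
    obtain ⟨j, hj⟩ : ∃ j : ℤ, A.valuation r = Q ^ j := by
      rcases lt_or_eq_of_le hM with hlt | heq
      · have hy : A.valuation ((y : Qbar) - y₀) = A.valuation r := by
          rw [show (y : Qbar) - y₀ = fCoord α ((x : Qbar) - x₀) ((y : Qbar) - y₀)
            + α * ((x : Qbar) - x₀) by simp only [fCoord]; ring,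
            A.valuation.map_add_eq_of_lt_left]
          · exact (h.middle hn₁.1 hM).1
          · rw [(h.middle hn₁.1 hM).1, map_mul]
            exact lt_of_le_of_lt (mul_le_of_le_one_left' (v_le_one h.α_mem)) hlt
        obtain ⟨j, hj⟩ := exists_v_sub_eq_zpow hA hq (s := t) (hy.symm ▸ ht)
        exact ⟨j, hy ▸ hj⟩
      · obtain ⟨j, hj⟩ := exists_v_sub_eq_zpow hA hq (s := s) (heq.symm ▸ hs)
        exact ⟨j, heq ▸ hj⟩
    have hjn : j * 2 = (n : ℤ) := by
      refine zpow_right_injective₀ hQ0 hQ1.ne ?_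
      change Q ^ (j * 2) = Q ^ (n : ℤ)
      rw [zpow_natCast, ← hN, hj, zpow_mul]
      norm_cast
    have hodd : Odd m := by
      rw [← Nat.not_even_iff_odd]
      intro hev
      have h2n : 2 ∣ n := Int.natCast_dvd_natCast.1 ⟨j, by rw [← hjn]; push_cast; ring⟩
      exact absurd (hm ▸ Nat.dvd_gcd hev.two_dvd h2n) (by norm_num)
    obtain ⟨i, rfl⟩ := hodd
    rw [h.compCoord_middle _ hM] at hne hpow
    rw [pow_succ, pow_mul, pow_two, ← h.cls_mul h.rUnit_ne_zero h.rUnit_ne_zero, ← pow_two,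
      h.cls_sq_r, one_pow, one_mul] at hpow
    exact hne hpow
  have hv0 : A.valuation ((x : Qbar) - x₀) ≠ 0 := (lt_trans h.r_pos hS).ne'
  have hclsp : h.cls (A.valuation ((x : Qbar) - x₀)) ^ m = 1 := by
    rcases h.branch hn₁.1 hS hx1 with hb | hb
    · rwa [h.compCoord_first hS hx1 hb.1] at hpow
    · rwa [h.compCoord_second hn₁.1 hS hx1 hb.1, inv_pow, inv_eq_one] at hpow
  obtain ⟨j, hj⟩ := exists_v_sub_eq_zpow hA hq (s := s) (lt_trans hs hS)
  apply h.cls_ne_one hS.le hx1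
  rw [h.cls_mk0 hv0, ← QuotientGroup.mk_pow, QuotientGroup.eq_one_iff] at hclsp
  obtain ⟨k, hk⟩ := Subgroup.mem_zpowers_iff.1 hclsp
  have hk' : (A.valuation r ^ 2) ^ k = A.valuation ((x : Qbar) - x₀) ^ m := by
    have := congrArg Units.val hk
    simpa [IsNodalForm.period] using this
  have hkj : (n : ℤ) * k = j * m := by
    refine zpow_right_injective₀ hQ0 hQ1.ne ?_
    change Q ^ ((n : ℤ) * k) = Q ^ (j * (m : ℤ))
    rw [zpow_mul, zpow_natCast, ← hN, hk', hj, zpow_mul, zpow_natCast]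
  obtain ⟨l, hl⟩ : (n : ℤ) ∣ j :=
    (Nat.Coprime.isCoprime hm.symm).dvd_of_dvd_mul_right ⟨k, hkj.symm⟩
  rw [h.cls_mk0 hv0, QuotientGroup.eq_one_iff, Subgroup.mem_zpowers_iff]
  refine ⟨l, Units.ext ?_⟩
  simp only [IsNodalForm.period, Units.val_zpow_eq_zpow_val, Units.val_pow_eq_pow_val,
    Units.val_mk0]
  rw [hN, hj, hl, zpow_mul, zpow_natCast]

/-- A Galois fixed point, killed modulo `E₀` by a number prime to `v_q(Δ)`, lies in `E₀`. -/
theorem mem_zeroSubgroup_of_fixed (hA : A.LiesOverPrime q) (hq : q.Prime) (hΔ0 : W.Δ ≠ 0)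
    (hbad : (q : ℤ) ∣ W.Δ) (hc₄ : ¬(q : ℤ) ∣ W.c₄) {m : ℕ}
    (hm : Nat.Coprime m (padicValInt q W.Δ)) {P : (WQbar W).toAffine.Point}
    (hfix : ∀ σ : Qbar ≃ₐ[ℚ] Qbar, σ • P = P)
    (hP : m • P ∈ zeroSubgroup (integralAt W A)) : P ∈ zeroSubgroup (integralAt W A) := by
  rcases P with _ | ⟨x, y, hxy⟩
  · exact zero_mem (zeroSubgroup (integralAt W A))
  have : IsAlgClosure ℚ Qbar := ⟨inferInstance, isAlgebraic_Qbar⟩
  have : Normal ℚ Qbar := IsAlgClosure.normal ℚ Qbar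
  have : IsGalois ℚ Qbar := ⟨⟩
  have hcoord : ∀ σ : Qbar ≃ₐ[ℚ] Qbar, σ x = x ∧ σ y = y := fun σ =>
    Affine.Point.some.inj ((smul_some hxy).symm.trans (hfix σ))
  obtain ⟨a, rfl⟩ := (InfiniteGalois.mem_range_algebraMap_iff_fixed x).2 fun σ => (hcoord σ).1
  obtain ⟨b, rfl⟩ := (InfiniteGalois.mem_range_algebraMap_iff_fixed y).2 fun σ => (hcoord σ).2
  exact mem_zeroSubgroup_of_coprime hA hq hΔ0 hbad hc₄ hm (x := a) (y := b) hxy hP

end FLTAgent.Reduction
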