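import Fermat.Agent.Reduction.Defs
import Mathlib.FieldTheory.IsAlgClosed.Basic
import Mathlib.RingTheory.Polynomial.Basic
import Mathlib.Algebra.Polynomial.Lifts
import Mathlib.Algebra.Polynomial.Splits
import Mathlib.RingTheory.Valuation.LocalSubring

/-!
# Lifting roots of polynomials at a valuation subring of an algebraically closed field
-/

set_option autoImplicit false

namespace FLTAgent.Reduction

open Polynomial IsLocalRing

variable {L : Type*} [Field L] {A : ValuationSubring L}

/-- Every coefficient of a product of linear factors is bounded by the product of bounds for the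
factors. -/
lemma v_coeff_prod_le (b : L → A.ValueGroup) (s : Multiset L) (h1 : ∀ r ∈ s, 1 ≤ b r)
    (hr : ∀ r ∈ s, A.valuation r ≤ b r) (i : ℕ) :
    A.valuation ((s.map fun r => X - C r).prod.coeff i) ≤ (s.map b).prod := by
  induction s using Multiset.induction_on generalizing i with
  | empty =>
    rw [Multiset.map_zero, Multiset.prod_zero, Multiset.map_zero, Multiset.prod_zero, coeff_one]
    split <;> simp
  | cons a s ih =>
    have ih' := ih (fun r hr' => h1 r (Multiset.mem_cons_of_mem hr'))
      (fun r hr' => hr r (Multiset.mem_cons_of_mem hr'))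
    rw [Multiset.map_cons, Multiset.prod_cons, Multiset.map_cons, Multiset.prod_cons, sub_mul,
      coeff_sub, coeff_C_mul]
    refine A.valuation.map_sub_le ?_ ?_
    · cases i with
      | zero => rw [coeff_X_mul_zero, map_zero]; exact zero_le
      | succ i =>
        rw [coeff_X_mul]
        exact le_mul_of_one_le_of_le (h1 a (Multiset.mem_cons_self a s)) (ih' i)
    · rw [map_mul]
      exact mul_le_mul' (hr a (Multiset.mem_cons_self a s)) (ih' i)

variable [IsAlgClosed L]

/-- A root of the reduction of a polynomial with nonzero reduction lifts to an integral root. -/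
theorem exists_root_lift {f : A[X]} (hf : f.map (residue A) ≠ 0) {xb : ResidueField A}
    (hx : (f.map (residue A)).IsRoot xb) :
    ∃ x : A, f.eval x = 0 ∧ residue A x = xb := by
  obtain ⟨x₁, rfl⟩ := residue_surjective xb
  rw [IsRoot.def, eval_map_apply, residue_eq_zero_iff_v_lt_one] at hx
  set F := f.map A.subtype with hF
  obtain ⟨i, hi⟩ : ∃ i, residue A (f.coeff i) ≠ 0 := by
    by_contra! h
    exact hf (Polynomial.ext fun i => by rw [coeff_map, h i, coeff_zero])
  rw [residue_ne_zero_iff_v_eq_one] at hi
  have hf0 : f ≠ 0 := fun h => hf (by rw [h, Polynomial.map_zero])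
  have hF0 : F ≠ 0 := fun h => hf0 (map_injective _ A.subtype_injective (by
    rw [← hF, h, Polynomial.map_zero]))
  have hfac := (IsAlgClosed.splits F).eq_prod_roots
  obtain ⟨r, hr, hlt⟩ : ∃ r ∈ F.roots, A.valuation ((x₁ : L) - r) < 1 := by
    by_contra! hall
    have hb : ∀ r ∈ F.roots, A.valuation r ≤ A.valuation ((x₁ : L) - r) := by
      intro r hr
      have h := A.valuation.map_sub (x₁ : L) ((x₁ : L) - r)
      rw [sub_sub_cancel] at h
      exact h.trans (max_le ((A.valuation_le_one x₁).trans (hall r hr)) le_rfl)
    have h2 := v_coeff_prod_le _ F.roots hall hb i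
    have he : A.valuation ((f.eval x₁ : A) : L)
        = A.valuation F.leadingCoeff
          * (F.roots.map fun r => A.valuation ((x₁ : L) - r)).prod := by
      have h : ((f.eval x₁ : A) : L) = F.eval (x₁ : L) := (eval_map_apply A.subtype x₁).symm
      rw [h]
      conv_lhs => rw [hfac]
      rw [eval_mul, eval_C, eval_multiset_prod, map_mul, map_multiset_prod, Multiset.map_map,
        Multiset.map_map]
      simp
    have hcoe : A.valuation (F.coeff i) = 1 := by rw [hF, coeff_map]; exact hi
    rw [hfac, coeff_C_mul, map_mul] at hcoe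
    have := hcoe.symm.le.trans (mul_le_mul_right h2 (A.valuation F.leadingCoeff))
    rw [← he] at this
    exact not_lt.2 this hx
  have hrA : r ∈ A := by
    have := sub_mem x₁.2 (mem_of_v_le_one hlt.le)
    rwa [sub_sub_cancel] at this
  refine ⟨⟨r, hrA⟩, A.subtype_injective ?_, (residue_eq_iff_v_sub_lt_one.2 hlt).symm⟩
  rw [← eval_map_apply, map_zero]
  exact isRoot_of_mem_roots hr

/-- A polynomial with nonzero reduction and non-unit leading coefficient has a non-integral root. -/
theorem exists_root_not_mem {f : A[X]} (hf : f.map (residue A) ≠ 0)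
    (hlc : residue A f.leadingCoeff = 0) : ∃ r : L, r ∉ A ∧ (f.map A.subtype).eval r = 0 := by
  set F := f.map A.subtype with hF
  obtain ⟨i, hi⟩ : ∃ i, residue A (f.coeff i) ≠ 0 := by
    by_contra! h
    exact hf (Polynomial.ext fun i => by rw [coeff_map, h i, coeff_zero])
  rw [residue_ne_zero_iff_v_eq_one] at hi
  by_contra! hall
  have hmem : ∀ r ∈ F.roots, r ∈ A := fun r hr => by
    by_contra h
    exact hall r h (isRoot_of_mem_roots hr)
  have h2 := v_coeff_prod_le (fun _ => (1 : A.ValueGroup)) F.roots (fun _ _ => le_rfl)
    (fun r hr => v_le_one (hmem r hr)) i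
  have hcoe : A.valuation (F.coeff i) = 1 := by rw [hF, coeff_map]; exact hi
  rw [(IsAlgClosed.splits F).eq_prod_roots, coeff_C_mul, map_mul] at hcoe
  have hl : A.valuation F.leadingCoeff < 1 := by
    rw [hF, leadingCoeff_map_of_injective A.subtype_injective]
    exact residue_eq_zero_iff_v_lt_one.1 hlc
  refine absurd hcoe (ne_of_lt ?_)
  refine lt_of_le_of_lt (mul_le_mul_right h2 _) ?_
  simpa using hl

/-- The residue field of a valuation subring of an algebraically closed field is algebraically
closed. -/
theorem isAlgClosed_residueField : IsAlgClosed (ResidueField A) := by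
  refine IsAlgClosed.of_exists_root _ fun p hp hirr => ?_
  obtain ⟨f, hfp⟩ := map_surjective (residue A) residue_surjective p
  obtain ⟨P, hP, hdeg, hPm⟩ := lifts_and_degree_eq_and_monic
    (show p ∈ lifts (residue A) from ⟨f, hfp⟩) hp
  obtain ⟨x, hx⟩ := IsAlgClosed.exists_root (P.map A.subtype) (by
    rw [degree_map_eq_of_injective A.subtype_injective, hdeg]
    exact ne_of_gt (degree_pos_of_irreducible hirr))
  have hint : IsIntegral A x := ⟨P, hPm, by rw [IsRoot.def, eval_map] at hx; exact hx⟩
  obtain ⟨a, ha⟩ := IsIntegrallyClosed.isIntegral_iff.1 hint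
  refine ⟨residue A a, ?_⟩
  rw [← hP, eval_map_apply, residue_eq_zero_iff]
  have h0 : P.eval a = 0 := A.subtype_injective (by
    rw [← eval_map_apply, map_zero]
    have : A.subtype a = x := ha
    rwa [this])
  rw [h0]; exact zero_mem _

end FLTAgent.Reduction
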