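import Fermat.Agent.Reduction.Defs
import Mathlib.RingTheory.Valuation.RamificationGroup
import Mathlib.RingTheory.Algebraic.Integral
import Mathlib.FieldTheory.Minpoly.Field
import Fermat.Prelude.Def_FLTPrelim_Ramification

/-!
# Decomposition and inertia groups of a valuation subring: elementary facts
-/

set_option autoImplicit false

namespace FLTAgent.Reduction

open IsLocalRing

open scoped Pointwise

variable {K L : Type*} [Field K] [Field L] [Algebra K L] {A : ValuationSubring L}
  {σ : L ≃ₐ[K] L}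

lemma map_mem_of_mem_decomposition (hσ : σ ∈ A.decompositionSubgroup K) {x : L} (hx : x ∈ A) :
    σ x ∈ A := by
  have h : σ • A = A := hσ
  rw [← h]
  exact ValuationSubring.smul_mem_pointwise_smul σ x A hx

lemma map_mem_iff_of_mem_decomposition (hσ : σ ∈ A.decompositionSubgroup K) {x : L} :
    σ x ∈ A ↔ x ∈ A := by
  refine ⟨fun h => ?_, map_mem_of_mem_decomposition hσ⟩
  have := map_mem_of_mem_decomposition (inv_mem hσ) h
  rwa [← AlgEquiv.mul_apply, inv_mul_cancel, AlgEquiv.one_apply] at this

lemma v_map_le_iff (hσ : σ ∈ A.decompositionSubgroup K) {x y : L} :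
    A.valuation (σ x) ≤ A.valuation (σ y) ↔ A.valuation x ≤ A.valuation y := by
  rcases eq_or_ne y 0 with rfl | hy
  · simp
  have hy' : σ y ≠ 0 := (map_ne_zero σ).2 hy
  rw [← div_le_one₀ (zero_lt_iff.2 ((map_ne_zero A.valuation).2 hy)), ← map_div₀,
    ← div_le_one₀ (zero_lt_iff.2 ((map_ne_zero A.valuation).2 hy')), ← map_div₀, ← map_div₀,
    A.valuation_le_one_iff, A.valuation_le_one_iff, map_mem_iff_of_mem_decomposition hσ]

lemma v_map_lt_iff (hσ : σ ∈ A.decompositionSubgroup K) {x y : L} :
    A.valuation (σ x) < A.valuation (σ y) ↔ A.valuation x < A.valuation y := by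
  simpa [not_le] using (v_map_le_iff hσ (x := y) (y := x)).not

lemma exists_pow_apply_eq [Algebra.IsAlgebraic K L] (σ : L ≃ₐ[K] L) (x : L) :
    ∃ k : ℕ, 0 < k ∧ (σ ^ k) x = x := by
  have hne : minpoly K x ≠ 0 := minpoly.ne_zero (Algebra.IsIntegral.isIntegral x)
  have hroot : ∀ m : ℕ, (σ ^ m) x ∈ (minpoly K x).rootSet L := by
    intro m
    rw [Polynomial.mem_rootSet_of_ne hne, Polynomial.aeval_algEquiv, AlgHom.comp_apply]
    simp
  have : Finite ((minpoly K x).rootSet L) := (Polynomial.rootSet_finite _ _).to_subtype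
  obtain ⟨i, j, hne, hij⟩ := Finite.exists_ne_map_eq_of_infinite
    (fun m : ℕ => (⟨(σ ^ m) x, hroot m⟩ : (minpoly K x).rootSet L))
  wlog hlt : i < j generalizing i j
  · exact this j i hne.symm hij.symm (lt_of_le_of_ne (not_lt.1 hlt) hne.symm)
  refine ⟨j - i, Nat.sub_pos_of_lt hlt, ?_⟩
  have h := congrArg Subtype.val hij
  simp only at h
  apply (σ ^ i).injective
  rw [← AlgEquiv.mul_apply, ← pow_add, Nat.add_sub_cancel' hlt.le, ← h]

/-- Elements of the decomposition group preserve the valuation of algebraic elements. -/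
theorem v_map_eq [Algebra.IsAlgebraic K L] (hσ : σ ∈ A.decompositionSubgroup K) (x : L) :
    A.valuation (σ x) = A.valuation x := by
  obtain ⟨k, hk, hx⟩ := exists_pow_apply_eq σ x
  have hstep : ∀ m : ℕ, (σ ^ (m + 1)) x = σ ((σ ^ m) x) := fun m => by
    rw [pow_succ', AlgEquiv.mul_apply]
  rcases lt_trichotomy (A.valuation (σ x)) (A.valuation x) with h | h | h
  · have hall : ∀ m : ℕ, A.valuation ((σ ^ (m + 1)) x) < A.valuation x := by
      intro m
      induction m with
      | zero => simpa using h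
      | succ m ih =>
        rw [hstep]
        exact lt_trans ((v_map_lt_iff hσ).2 ih) h
    obtain ⟨m, rfl⟩ := Nat.exists_eq_succ_of_ne_zero hk.ne'
    have h2 := hall m
    rw [hx] at h2
    exact absurd h2 (lt_irrefl _)
  · exact h
  · have hall : ∀ m : ℕ, A.valuation x < A.valuation ((σ ^ (m + 1)) x) := by
      intro m
      induction m with
      | zero => simpa using h
      | succ m ih =>
        rw [hstep]
        exact lt_trans h ((v_map_lt_iff hσ).2 ih)
    obtain ⟨m, rfl⟩ := Nat.exists_eq_succ_of_ne_zero hk.ne'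
    have h2 := hall m
    rw [hx] at h2
    exact absurd h2 (lt_irrefl _)

lemma inertia_le_decomposition (hσ : σ ∈ A.inertiaSubgroupIn K) :
    σ ∈ A.decompositionSubgroup K := by
  obtain ⟨τ, -, rfl⟩ := hσ
  exact τ.2

/-- An element of the inertia group moves an element of `A` by an element of the maximal ideal. -/
theorem v_map_sub_lt_one (hσ : σ ∈ A.inertiaSubgroupIn K) {a : L} (ha : a ∈ A) :
    A.valuation (σ a - a) < 1 := by
  obtain ⟨τ, hτ, rfl⟩ := hσ
  have h : residue A (τ • (⟨a, ha⟩ : A)) = residue A ⟨a, ha⟩ := by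
    rw [ResidueField.residue_smul]
    exact RingEquiv.congr_fun (MonoidHom.mem_ker.1 hτ) _
  exact residue_eq_iff_v_sub_lt_one.1 h

/-- An element of inertia moves `x` by less than `x`, if `x` has the size of a fixed element. -/
theorem v_map_sub_lt (hσ : σ ∈ A.inertiaSubgroupIn K) {x c : L} (hc : σ c = c) (hc0 : c ≠ 0)
    (hx : A.valuation x ≤ A.valuation c) : A.valuation (σ x - x) < A.valuation c := by
  have hv : 0 < A.valuation c := zero_lt_iff.2 ((map_ne_zero A.valuation).2 hc0)
  have ha : x / c ∈ A := mem_of_v_le_one (by rw [map_div₀]; exact (div_le_one₀ hv).2 hx)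
  have h := v_map_sub_lt_one hσ ha
  rw [map_div₀, hc, ← sub_div, map_div₀, div_lt_one₀ hv] at h
  exact h

lemma residue_map_eq (hσ : σ ∈ A.inertiaSubgroupIn K) {a : A} (h : σ (a : L) ∈ A) :
    residue A (⟨σ a, h⟩ : A) = residue A a :=
  residue_eq_iff_v_sub_lt_one.2 (v_map_sub_lt_one hσ a.2)

/-- An element of inertia fixes `a` if it can only send it to itself or to a non-congruent `b`. -/
lemma eq_of_map_close (hσ : σ ∈ A.inertiaSubgroupIn K) {a b : L} (ha : a ∈ A)
    (hb : σ a = a ∨ σ a = b) (hab : A.valuation (a - b) = 1) : σ a = a := by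
  rcases hb with h | h
  · exact h
  · have h2 := v_map_sub_lt_one hσ ha
    rw [h, A.valuation.map_sub_swap, hab] at h2
    exact absurd h2 (lt_irrefl _)

end FLTAgent.Reduction
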