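import Fermat.Agent.Reduction.Hom
import Fermat.Agent.Reduction.Decomposition
import Mathlib.NumberTheory.Padics.PadicVal.Basic
import Mathlib.FieldTheory.IsAlgClosed.AlgebraicClosure
import Mathlib.Algebra.Algebra.Rat
import Fermat.Prelude.Def_FLTPrelim_Modularity
import Fermat.Prelude.Def_EllipticCurve_ZeroComponentAt

/-!
# Reduction of an integral Weierstrass curve at a place of `ℚ̄`
-/

set_option autoImplicit false

namespace FLTAgent.Reduction

open WeierstrassCurve IsLocalRing

/-- The algebraic closure of `ℚ`. -/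
abbrev Qbar := AlgebraicClosure ℚ

/-- `W` over `ℚ̄`, in the form used by the Galois representations. -/
noncomputable abbrev WQbar (W : WeierstrassCurve ℤ) : WeierstrassCurve Qbar :=
  (W.map (Int.castRingHom ℚ))⁄Qbar

lemma WQbar_eq (W : WeierstrassCurve ℤ) : WQbar W = W.map (Int.castRingHom Qbar) := by
  rw [WQbar, WeierstrassCurve.baseChange, WeierstrassCurve.map_map]
  congr 1

theorem integralAt (W : WeierstrassCurve ℤ) (A : ValuationSubring Qbar) :
    IntegralAt A (WQbar W) := by
  constructor <;> simp only [WQbar_eq, map_a₁, map_a₂, map_a₃, map_a₄, map_a₆, eq_intCast] <;>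
    exact intCast_mem A _

theorem redCurve_integralAt (W : WeierstrassCurve ℤ) (A : ValuationSubring Qbar) :
    redCurve (integralAt W A) = W.map (Int.castRingHom (ResidueField A)) := by
  have h : intCurve (integralAt W A) = W.map (Int.castRingHom A) := by
    ext <;> simp only [intCurve, WQbar_eq, map_a₁, map_a₂, map_a₃, map_a₄, map_a₆, eq_intCast] <;>
      push_cast <;> rfl
  rw [redCurve, h, WeierstrassCurve.map_map]
  congr 1

variable {A : ValuationSubring Qbar} {q : ℕ}

theorem v_intCast_lt_one_iff (hA : A.LiesOverPrime q) (hq : q.Prime) (m : ℤ) :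
    A.valuation (m : Qbar) < 1 ↔ (q : ℤ) ∣ m := by
  have hqv : A.valuation (q : Qbar) < 1 := A.mem_nonunits_iff.1 hA
  constructor
  · intro hm
    by_contra hdiv
    obtain ⟨a, b, hab⟩ :=
      (Nat.prime_iff_prime_int.1 hq).coprime_iff_not_dvd.2 hdiv
    have h1 : A.valuation ((a * (q : ℤ) + b * m : ℤ) : Qbar) < 1 := by
      push_cast
      refine A.valuation.map_add_lt ?_ ?_
      · rw [mul_comm]; exact v_mul_lt_one_left hqv (intCast_mem A a)
      · rw [mul_comm]; exact v_mul_lt_one_left hm (intCast_mem A b)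
    rw [hab, Int.cast_one, map_one] at h1
    exact lt_irrefl _ h1
  · rintro ⟨k, rfl⟩
    push_cast
    exact v_mul_lt_one_left hqv (intCast_mem A k)

theorem v_intCast_eq_one (hA : A.LiesOverPrime q) (hq : q.Prime) {m : ℤ} (h : ¬(q : ℤ) ∣ m) :
    A.valuation (m : Qbar) = 1 :=
  le_antisymm (v_le_one (intCast_mem A m))
    (not_lt.1 fun hlt => h ((v_intCast_lt_one_iff hA hq m).1 hlt))

theorem v_intCast_eq_pow (hA : A.LiesOverPrime q) (hq : q.Prime) {m : ℤ} (hm : m ≠ 0) :
    A.valuation (m : Qbar) = A.valuation (q : Qbar) ^ padicValInt q m := by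
  have := Fact.mk hq
  obtain ⟨k, hk⟩ := padicValInt_dvd (p := q) m
  have hndvd : ¬(q : ℤ) ∣ k := by
    intro hdvd
    have h1 : (q : ℤ) ^ (padicValInt q m + 1) ∣ m := by
      calc (q : ℤ) ^ (padicValInt q m + 1) = (q : ℤ) ^ padicValInt q m * q := pow_succ _ _
        _ ∣ (q : ℤ) ^ padicValInt q m * k := mul_dvd_mul_left _ hdvd
        _ = m := hk.symm
    rcases (padicValInt_dvd_iff _ _).1 h1 with h2 | h2
    · exact hm h2
    · omega
  generalize padicValInt q m = e at hk ⊢
  rw [hk, Int.cast_mul, Int.cast_pow, Int.cast_natCast, map_mul, map_pow,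
    v_intCast_eq_one hA hq hndvd, mul_one]

theorem residue_natCast_eq_zero_iff (hA : A.LiesOverPrime q) (hq : q.Prime) (n : ℕ) :
    (n : ResidueField A) = 0 ↔ q ∣ n := by
  rw [← map_natCast (residue A) n, residue_eq_zero_iff_v_lt_one, ← Int.natCast_dvd_natCast,
    ← v_intCast_lt_one_iff hA hq]
  rfl

theorem WQbar_Δ (W : WeierstrassCurve ℤ) : (WQbar W).Δ = (W.Δ : Qbar) := by
  rw [WQbar_eq, map_Δ, eq_intCast]

theorem WQbar_c₄ (W : WeierstrassCurve ℤ) : (WQbar W).c₄ = (W.c₄ : Qbar) := by
  rw [WQbar_eq, map_c₄, eq_intCast]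

theorem zeroSubgroup_eq_top_of_good {W : WeierstrassCurve ℤ} (hA : A.LiesOverPrime q)
    (hq : q.Prime) (hgood : W.IsGoodPrimeFor q) :
    zeroSubgroup (integralAt W A) = ⊤ := by
  refine zeroSubgroup_eq_top _ ?_
  rw [WQbar_Δ]
  exact v_intCast_eq_one hA hq hgood

theorem inZeroComponentAt_iff (W : WeierstrassCurve ℤ) (P : (WQbar W).toAffine.Point) :
    W.InZeroComponentAt A P ↔ P ∈ zeroSubgroup (integralAt W A) := by
  rw [mem_zeroSubgroup]
  cases P with
  | zero => exact iff_of_true (Or.inl rfl) trivial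
  | some x y h =>
    simp only [InZero, redCurve_integralAt]
    unfold WeierstrassCurve.InZeroComponentAt
    constructor
    · rintro (h0 | ⟨x', y', h', he, hc⟩)
      · exact absurd h0 (Affine.Point.some_ne_zero h)
      · obtain ⟨rfl, rfl⟩ := Affine.Point.some.inj he
        exact hc
    · exact fun hc => Or.inr ⟨x, y, h, rfl, hc⟩

/-! ### Galois action -/

variable {W : WeierstrassCurve ℤ} {σ : Qbar ≃ₐ[ℚ] Qbar}

theorem nonsingular_smul {x y : Qbar} (h : (WQbar W).toAffine.Nonsingular x y) :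
    (WQbar W).toAffine.Nonsingular (σ x) (σ y) :=
  ((W.map (Int.castRingHom ℚ)).toAffine.baseChange_nonsingular
    (f := σ.toAlgHom) (RingHom.injective σ.toAlgHom.toRingHom) x y).2 h

theorem smul_some {x y : Qbar} (h : (WQbar W).toAffine.Nonsingular x y) :
    σ • (Affine.Point.some _ _ h : (WQbar W).toAffine.Point) = .some (σ x) (σ y)
      (nonsingular_smul h) := rfl

theorem smul_zero' : σ • (0 : (WQbar W).toAffine.Point) = 0 := rfl

theorem smul_mem_oneSubgroup (hσ : σ ∈ A.decompositionSubgroup ℚ)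
    {P : (WQbar W).toAffine.Point} (hP : P ∈ oneSubgroup (integralAt W A)) :
    σ • P ∈ oneSubgroup (integralAt W A) := by
  cases P with
  | zero => exact hP
  | some x y h =>
    rw [smul_some, mem_oneSubgroup_some, map_mem_iff_of_mem_decomposition hσ]
    exact hP

/-- Inertia does not change the reduction of a point of `E₀`. -/
theorem redPt_smul_of_inertia (hσ : σ ∈ A.inertiaSubgroupIn ℚ)
    {P : (WQbar W).toAffine.Point} (hP : P ∈ zeroSubgroup (integralAt W A)) :
    σ • P ∈ zeroSubgroup (integralAt W A) ∧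
      redPt (integralAt W A) (σ • P) = redPt (integralAt W A) P := by
  have hd := inertia_le_decomposition hσ
  rcases InZero.cases hP with h1 | ⟨x, y, hxy, rfl, hns⟩
  · have h2 : InOne A (σ • P) := smul_mem_oneSubgroup (W := W) hd h1
    exact ⟨inZero_of_inOne _ h2, by rw [redPt_of_inOne _ h1, redPt_of_inOne _ h2]⟩
  · have hx' := map_mem_of_mem_decomposition hd x.2
    have hy' := map_mem_of_mem_decomposition hd y.2
    have hx := residue_map_eq hσ hx'
    have hy := residue_map_eq hσ hy'
    have hns' : (redCurve (integralAt W A)).toAffine.Nonsingular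
        (residue A ⟨σ x, hx'⟩) (residue A ⟨σ y, hy'⟩) := by rw [hx, hy]; exact hns
    refine ⟨Or.inr ⟨hx', hy', hns'⟩, ?_⟩
    rw [smul_some, redPt_coe (integralAt W A) hxy hns,
      redPt_coe (integralAt W A) (x := ⟨σ x, hx'⟩) (y := ⟨σ y, hy'⟩) _ hns']
    simp only [Affine.Point.some.injEq]
    exact ⟨hx, hy⟩

/-- Inertia moves points of `E₀` only inside `E₁`. -/
theorem smul_sub_mem_oneSubgroup (hσ : σ ∈ A.inertiaSubgroupIn ℚ)
    {P : (WQbar W).toAffine.Point} (hP : P ∈ zeroSubgroup (integralAt W A)) :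
    σ • P - P ∈ oneSubgroup (integralAt W A) :=
  sub_mem_oneSubgroup _ (redPt_smul_of_inertia hσ hP).1 hP (redPt_smul_of_inertia hσ hP).2

end FLTAgent.Reduction
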