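import Fermat.Agent.Reduction.DecompositionMult
import Fermat.Agent.WeilPairing.DetCyclotomic
import Fermat.Prelude.Def_GaloisRep_StrictOrdinary

/-!
# The mod `p` representation at `p`

It is strictly ordinary at a prime of multiplicative reduction, ordinary at a prime of good
ordinary reduction, and its determinant is cyclotomic.
-/

set_option autoImplicit false

namespace FLTAgent.Reduction

open WeierstrassCurve WeierstrassCurve.Affine.Point
open scoped WeierstrassCurve.Affine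

variable {W : WeierstrassCurve ℤ} {p : ℕ}

/-- The `p`-torsion as it enters the residual representation. -/
noncomputable abbrev TorsQ (W : WeierstrassCurve ℤ) (p : ℕ) :=
  Submodule.torsionBy ℤ ((W.map (Int.castRingHom ℚ))⁄Qbar).Point p

lemma isElliptic_rat (hΔ0 : W.Δ ≠ 0) : (W.map (Int.castRingHom ℚ)).IsElliptic :=
  ⟨isUnit_iff_ne_zero.2 (by rw [map_Δ, eq_intCast]; exact Int.cast_ne_zero.2 hΔ0)⟩

/-- A line in `E[p]` inside a proper subgroup is the intersection with that subgroup, and extends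
to a basis by any point outside. -/
lemma exists_basis_of_line [Fact p.Prime] (hΔ0 : W.Δ ≠ 0)
    (H : AddSubgroup (WQbar W).toAffine.Point) {P₁ P₀ : TorsQ W p}
    (h1 : P₁ ≠ 0) (h1H : (P₁ : (WQbar W).toAffine.Point) ∈ H)
    (h0H : (P₀ : (WQbar W).toAffine.Point) ∉ H) :
    (∃ b : Module.Basis (Fin 2) (ZMod p) (TorsQ W p), b 0 = P₁ ∧ b 1 = P₀) ∧
      ∀ x : TorsQ W p,
        x ∈ Submodule.span (ZMod p) {P₁} ↔ (x : (WQbar W).toAffine.Point) ∈ H := by
  have := isElliptic_rat hΔ0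
  have hmem : ∀ x : TorsQ W p,
      x ∈ Submodule.span (ZMod p) {P₁} ↔ (x : (WQbar W).toAffine.Point) ∈ H := by
    intro x
    constructor
    · rintro hx
      obtain ⟨c, rfl⟩ := Submodule.mem_span_singleton.1 hx
      rw [← ZMod.natCast_zmod_val c, Nat.cast_smul_eq_nsmul, Submodule.coe_smul_of_tower]
      exact AddSubgroup.nsmul_mem _ h1H _
    · intro hx
      obtain ⟨m, hm⟩ := exists_nsmul_eq_of_proper (p := p) Fact.out hΔ0 H (nsmul_coe_torsionBy P₁)
        (fun h => h1 (Subtype.ext h)) h1H (nsmul_coe_torsionBy P₀) h0H (nsmul_coe_torsionBy x) hx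
      refine Submodule.mem_span_singleton.2 ⟨(m : ZMod p), ?_⟩
      rw [Int.cast_smul_eq_zsmul]
      exact Subtype.ext hm
  refine ⟨?_, hmem⟩
  have hli : LinearIndependent (ZMod p) ![P₁, P₀] := by
    rw [LinearIndependent.pair_iff' h1]
    intro a ha
    exact h0H ((hmem P₀).1 (Submodule.mem_span_singleton.2 ⟨a, ha⟩))
  have hcard : Fintype.card (Fin 2) = Module.finrank (ZMod p) (TorsQ W p) := by
    rw [Fintype.card_fin, Torsion.finrank_torsionBy_qbar (W.map (Int.castRingHom ℚ)) p]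
  exact ⟨basisOfLinearIndependentOfCardEqFinrank hli hcard,
    by rw [coe_basisOfLinearIndependentOfCardEqFinrank]; rfl,
    by rw [coe_basisOfLinearIndependentOfCardEqFinrank]; rfl⟩

variable [Fact p.Prime]
  (hcard : Nat.card (TorsQ W p) = p ^ 2)
  (hker : GaloisFactorsThroughFiniteLevel
    (galoisRepModuleEnd (K := AlgebraicClosure ℚ) ℚ (W.map (Int.castRingHom ℚ)) p))

/-- The mod `p` representation of `W` as a representation over `ZMod p`. -/
noncomputable abbrev modRep : GaloisRepAdic (ZMod p) :=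
  GaloisRepAdic.ofResidualGaloisRep ((W.map (Int.castRingHom ℚ)).residualGaloisRepOf p hcard hker)

/-- The determinant is the cyclotomic character. -/
theorem detIsCyclotomic_modRep (hΔ0 : W.Δ ≠ 0) : (modRep hcard hker).DetIsCyclotomic p := by
  have := isElliptic_rat hΔ0
  refine ⟨by rw [ZMod.natCast_self]; exact zero_mem _, fun n σ a ha => ?_⟩
  rcases Nat.eq_zero_or_pos n with rfl | hn
  · rw [pow_zero, Nat.cast_one, Ideal.span_singleton_one]; exact Submodule.mem_top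
  have : ((W.map (Int.castRingHom ℚ))⁄Qbar).IsElliptic :=
    WeilPairing.isElliptic_qbar (W.map (Int.castRingHom ℚ))
  have h := WeilPairing.det_galoisRepModuleEnd_eq_of_forall_pow (W.map (Int.castRingHom ℚ)) p
    (Nat.cast_ne_zero.2 (Fact.out : p.Prime).ne_zero) σ a fun ζ hζ => ha ζ (by
      rw [← Nat.sub_add_cancel hn, pow_succ', pow_mul, hζ, one_pow])
  change LinearMap.det (galoisRepModuleEnd (K := Qbar) ℚ (W.map (Int.castRingHom ℚ)) p σ)
    - (a : ZMod p) ∈ _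
  rw [h, sub_self]
  exact zero_mem _

/-- At a good prime with a point of order `p` outside the kernel of reduction (the ordinary case)
the representation is ordinary. -/
theorem isOrdinaryAt_modRep_of_good (h2 : p ≠ 2) (hΔ0 : W.Δ ≠ 0) (hgood : W.IsGoodPrimeFor p)
    (hord : ∀ A : ValuationSubring Qbar, A.LiesOverPrime p →
      ∃ P : (WQbar W).toAffine.Point, p • P = 0 ∧ P ∉ oneSubgroup (integralAt W A)) :
    (modRep hcard hker).IsOrdinaryAt p := by
  intro A hA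
  have hp : p.Prime := Fact.out
  obtain ⟨P₁, hP₁, hP₁0, hP₁1⟩ :=
    exists_torsion_mem_oneSubgroup_qbar hA hp h2 hΔ0 (Or.inl hgood)
  obtain ⟨P₀, hP₀, hP₀1⟩ := hord A hA
  have mem : ∀ Q : (WQbar W).toAffine.Point, p • Q = 0 → Q ∈ TorsQ W p := fun Q hQ => by
    rw [Submodule.mem_torsionBy_iff, natCast_zsmul]; exact hQ
  obtain ⟨⟨b, hb0, -⟩, hmem⟩ := exists_basis_of_line hΔ0 (oneSubgroup (integralAt W A))
    (P₁ := ⟨P₁, mem P₁ hP₁⟩) (P₀ := ⟨P₀, mem P₀ hP₀⟩) (fun h => hP₁0 (congrArg Subtype.val h))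
    hP₁1 hP₀1
  refine ⟨Submodule.span (ZMod p) {⟨P₁, mem P₁ hP₁⟩}, ⟨b, congrArg (fun v : TorsQ W p => Submodule.span (ZMod p) {v}) hb0.symm⟩, fun σ hσ v hv => ?_,
    fun σ hσ v => ?_⟩
  · exact (hmem _).2 (smul_mem_oneSubgroup hσ ((hmem v).1 hv))
  · refine (hmem _).2 (smul_sub_mem_oneSubgroup hσ ?_)
    rw [zeroSubgroup_eq_top_of_good hA hp hgood]; trivial

omit [Fact p.Prime] in
/-- The line of a prime of multiplicative reduction, and the two characters on it. -/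
theorem exists_strictOrdinary_line [Fact p.Prime] (h2 : p ≠ 2) (hΔ0 : W.Δ ≠ 0) (hbad : (p : ℤ) ∣ W.Δ)
    (hc₄ : ¬(p : ℤ) ∣ W.c₄) {A : ValuationSubring Qbar} (hA : A.LiesOverPrime p) :
    ∃ L : Submodule (ZMod p) (TorsQ W p),
      (∃ b : Module.Basis (Fin 2) (ZMod p) (TorsQ W p), L = Submodule.span (ZMod p) {b 0}) ∧
      (∀ σ ∈ A.decompositionSubgroup ℚ, ∀ v ∈ L, σ • v ∈ L) ∧
      (∀ σ ∈ A.inertiaSubgroupIn ℚ, ∀ v : TorsQ W p, σ • v - v ∈ L) ∧
      (∀ σ ∈ A.decompositionSubgroup ℚ, ∃ x z : ZMod p, z * z = 1 ∧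
        (∀ w ∈ L, σ • w = x • w) ∧ (∀ v : TorsQ W p, σ • v - z • v ∈ L) ∧
        ∀ (n a : ℕ), (∀ μ : Qbar, μ ^ p ^ n = 1 → σ μ = μ ^ a) →
          x - (a : ZMod p) * z ∈ Ideal.span {((p ^ n : ℕ) : ZMod p)}) := by
  have hp : p.Prime := Fact.out
  have := isElliptic_rat hΔ0
  obtain ⟨P₁, hP₁, hP₁0, hP₁1⟩ :=
    exists_torsion_mem_oneSubgroup_qbar hA hp h2 hΔ0 (Or.inr hc₄)
  obtain ⟨P₀, hP₀, hP₀0⟩ :=
    exists_torsion_not_mem_zeroSubgroup_qbar hA hp hp h2 hΔ0 hbad hc₄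
  have mem : ∀ Q : (WQbar W).toAffine.Point, p • Q = 0 → Q ∈ TorsQ W p := fun Q hQ => by
    rw [Submodule.mem_torsionBy_iff, natCast_zsmul]; exact hQ
  obtain ⟨⟨b, hb0, hb1⟩, hmem⟩ := exists_basis_of_line hΔ0 (oneSubgroup (integralAt W A))
    (P₁ := ⟨P₁, mem P₁ hP₁⟩) (P₀ := ⟨P₀, mem P₀ hP₀⟩) (fun h => hP₁0 (congrArg Subtype.val h))
    hP₁1 (fun h => hP₀0 (oneSubgroup_le _ h))
  set L := Submodule.span (ZMod p) {(⟨P₁, mem P₁ hP₁⟩ : TorsQ W p)} with hL
  have key : ∀ σ ∈ A.decompositionSubgroup ℚ, ∃ z : ℤ, (z = 1 ∨ z = -1) ∧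
      (σ ∈ A.inertiaSubgroupIn ℚ → z = 1) ∧
      ∀ v : TorsQ W p, σ • v - (z : ZMod p) • v ∈ L := by
    intro σ hσ
    obtain ⟨z, hz, hzi, h⟩ := exists_sign_smul_sub_mem_oneSubgroup hA hp h2 hΔ0 hbad hc₄ hσ
    refine ⟨z, hz, hzi, fun v => (hmem _).2 ?_⟩
    rw [Int.cast_smul_eq_zsmul]
    exact h v (nsmul_coe_torsionBy v)
  have hstab : ∀ σ ∈ A.decompositionSubgroup ℚ, ∀ v ∈ L, σ • v ∈ L := fun σ hσ v hv =>
    (hmem _).2 (smul_mem_oneSubgroup hσ ((hmem v).1 hv))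
  refine ⟨L, ⟨b, congrArg (fun v : TorsQ W p => Submodule.span (ZMod p) {v}) hb0.symm⟩, hstab, fun σ hσ v => ?_, fun σ hσ => ?_⟩
  · obtain ⟨z, -, hzi, h⟩ := key σ (inertia_le_decomposition hσ)
    have h' := h v
    rwa [hzi hσ, Int.cast_one, one_smul] at h'
  obtain ⟨z, hz, -, hz'⟩ := key σ hσ
  obtain ⟨x, hx⟩ := Submodule.mem_span_singleton.1
    (hstab σ hσ _ (Submodule.mem_span_singleton_self _))
  refine ⟨x, (z : ZMod p), by rcases hz with rfl | rfl <;> simp, fun w hw => ?_, hz',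
    fun n a ha => ?_⟩
  · obtain ⟨c, rfl⟩ := Submodule.mem_span_singleton.1 hw
    change galoisRepModuleEnd (K := Qbar) ℚ (W.map (Int.castRingHom ℚ)) p σ (c • _) = _
    rw [map_smul, galoisRepModuleEnd_apply, ← hx, smul_comm]
  -- the determinant `x z` is cyclotomic and `z² = 1`
  rcases Nat.eq_zero_or_pos n with rfl | hn
  · rw [pow_zero, Nat.cast_one, Ideal.span_singleton_one]; exact Submodule.mem_top
  have : ((W.map (Int.castRingHom ℚ))⁄Qbar).IsElliptic :=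
    WeilPairing.isElliptic_qbar (W.map (Int.castRingHom ℚ))
  have hdet := WeilPairing.det_galoisRepModuleEnd_eq_of_forall_pow (W.map (Int.castRingHom ℚ)) p
    (Nat.cast_ne_zero.2 hp.ne_zero) σ a fun ζ hζ => ha ζ (by
      rw [← Nat.sub_add_cancel hn, pow_succ', pow_mul, hζ, one_pow])
  set g := galoisRepModuleEnd (K := Qbar) ℚ (W.map (Int.castRingHom ℚ)) p σ with hg
  obtain ⟨c, hc⟩ := Submodule.mem_span_singleton.1 (hz' ⟨P₀, mem P₀ hP₀⟩)
  have e0 : g (b 0) = x • b 0 := by rw [hb0, hx]; rfl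
  have e1 : g (b 1) = c • b 0 + (z : ZMod p) • b 1 := by
    rw [hb0, hb1, hc, sub_add_cancel]; rfl
  have hxz : x * (z : ZMod p) = (a : ZMod p) := by
    rw [← hdet, ← LinearMap.det_toMatrix b, Matrix.det_fin_two]
    simp [LinearMap.toMatrix_apply, e0, e1]
  have hzz : (z : ZMod p) * (z : ZMod p) = 1 := by rcases hz with rfl | rfl <;> simp
  have hfin : x - (a : ZMod p) * (z : ZMod p) = 0 := by
    linear_combination -x * hzz + (z : ZMod p) * hxz
  rw [hfin]
  exact zero_mem _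

include hcard hker in
/-- At a prime of multiplicative reduction the representation is strictly ordinary. -/
theorem isStrictOrdinaryAt_modRep (h2 : p ≠ 2) (hΔ0 : W.Δ ≠ 0) (hbad : (p : ℤ) ∣ W.Δ)
    (hc₄ : ¬(p : ℤ) ∣ W.c₄) : (modRep hcard hker).IsStrictOrdinaryAt p := by
  refine ⟨by rw [ZMod.natCast_self]; exact zero_mem _, fun A hA => ?_⟩
  obtain ⟨L, hb, hD, hI, hx⟩ := exists_strictOrdinary_line h2 hΔ0 hbad hc₄ hA
  refine ⟨L, hb, hD, hI, fun σ hσ => ?_⟩
  obtain ⟨x, z, -, h1, h2, h3⟩ := hx σ hσ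
  exact ⟨x, z, h1, h2, h3⟩

end FLTAgent.Reduction
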