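import Fermat.Agent.Torsion.MulFormula
import Mathlib.FieldTheory.IsAlgClosed.Basic

/-!
# Odd division polynomials at roots of `Ψ₂Sq`

At a simple root of `Ψ₂Sq` the odd division polynomials do not vanish; at a singular point they
all vanish.
-/

set_option autoImplicit false

namespace FLTAgent.Reduction

open WeierstrassCurve Polynomial

variable {k : Type*} [Field k] (V : WeierstrassCurve k)

lemma eval_preΨ'_odd_ne_zero {x : k} (h2 : V.Ψ₂Sq.eval x = 0) (h3 : V.Ψ₃.eval x ≠ 0) {n : ℕ}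
    (hn : Odd n) : (V.preΨ' n).eval x ≠ 0 := by
  induction n using Nat.strong_induction_on with
  | _ n ih =>
    obtain ⟨j, rfl⟩ := hn
    match j with
    | 0 => simp
    | 1 => simpa using h3
    | m + 2 =>
      rw [preΨ'_odd]
      rcases Nat.even_or_odd m with hm | hm
      · simp only [if_pos hm, eval_sub, eval_mul, eval_pow, mul_one, h2,
          zero_pow two_ne_zero, mul_zero, zero_sub, neg_ne_zero]
        exact mul_ne_zero (ih _ (by omega) (hm.add_odd odd_one))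
          (pow_ne_zero _ (ih _ (by omega) (hm.add_odd (by decide))))
      · simp only [if_neg (Nat.not_even_iff_odd.2 hm), eval_sub, eval_mul, eval_pow,
          mul_one, h2, zero_pow two_ne_zero, mul_zero, sub_zero]
        exact mul_ne_zero (ih _ (by omega) (hm.add_even (by decide)))
          (pow_ne_zero _ (ih _ (by omega) (hm.add_even (by decide))))

lemma eval_preΨ'_odd_eq_zero {x : k} (h2 : V.Ψ₂Sq.eval x = 0) (h3 : V.Ψ₃.eval x = 0) {n : ℕ}
    (hn : Odd n) (h3n : 3 ≤ n) : (V.preΨ' n).eval x = 0 := by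
  induction n using Nat.strong_induction_on with
  | _ n ih =>
    obtain ⟨j, rfl⟩ := hn
    match j with
    | 0 => omega
    | 1 => simpa using h3
    | m + 2 =>
      rw [preΨ'_odd]
      rcases Nat.even_or_odd m with hm | hm
      · simp [if_pos hm, h2, ih (m + 3) (by omega) (hm.add_odd (by decide)) (by omega)]
      · simp [if_neg (Nat.not_even_iff_odd.2 hm), h2,
          ih (m + 4) (by omega) (hm.add_even (by decide)) (by omega)]

variable [IsAlgClosed k]

/-- Outside characteristic two, a curve which is smooth or nodal has a simple root of `Ψ₂Sq`. -/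
lemma exists_root_Ψ₂Sq (h2 : (2 : k) ≠ 0) (h : V.Δ ≠ 0 ∨ V.c₄ ≠ 0) :
    ∃ x, V.Ψ₂Sq.eval x = 0 ∧ V.Ψ₃.eval x ≠ 0 := by
  have h4 : (4 : k) ≠ 0 := by
    rw [show (4 : k) = 2 * 2 by norm_num]; exact mul_ne_zero h2 h2
  have ev : ∀ x : k, V.Ψ₂Sq.eval x = 4 * x ^ 3 + V.b₂ * x ^ 2 + 2 * V.b₄ * x + V.b₆ := by
    intro x; simp [Ψ₂Sq]
  have ev3 : ∀ x : k,
      4 * V.Ψ₃.eval x = (12 * x + V.b₂) * V.Ψ₂Sq.eval x - (6 * x ^ 2 + V.b₂ * x + V.b₄) ^ 2 := by
    intro x
    rw [ev]
    simp only [Ψ₃, eval_add, eval_mul, eval_C, eval_pow, eval_X, eval_ofNat]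
    linear_combination V.b_relation
  obtain ⟨r, hr⟩ := IsAlgClosed.exists_root
    (C (4 : k) * X ^ 3 + C V.b₂ * X ^ 2 + C (2 * V.b₄) * X + C V.b₆)
    (by rw [degree_cubic h4]; decide)
  simp only [IsRoot.def, eval_add, eval_mul, eval_C, eval_pow, eval_X] at hr
  by_contra! hall
  have hg : ∀ x : k, V.Ψ₂Sq.eval x = 0 → 6 * x ^ 2 + V.b₂ * x + V.b₄ = 0 := by
    intro x hx
    have h' := ev3 x
    rw [hx, hall x hx] at h'
    exact (pow_eq_zero_iff two_ne_zero).1 (by linear_combination h')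
  have hgr := hg r (by rw [ev]; exact hr)
  set t := -2 * r - V.b₂ / 4 with ht
  have ht4 : 4 * t + 8 * r + V.b₂ = 0 := by rw [ht]; field_simp; ring
  have hgt := hg t (by
    rw [ev]
    linear_combination (t - r) ^ 2 * ht4 + hr + 2 * (t - r) * hgr)
  have hb2 : V.b₂ + 12 * r = 0 := by
    refine (pow_eq_zero_iff two_ne_zero).1 ?_
    linear_combination 8 * hgt - 8 * hgr + (-(12 * t) + 24 * r + V.b₂) * ht4
  rcases h with h | h
  · have hb4 : V.b₄ = 6 * r ^ 2 := by linear_combination hgr - r * hb2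
    have hb6 : V.b₆ = -4 * r ^ 3 := by linear_combination hr - r ^ 2 * hb2 - 2 * r * hb4
    have hb8 : 4 * V.b₈ = V.b₂ * V.b₆ - V.b₄ ^ 2 := V.b_relation
    have hb2' : V.b₂ = -12 * r := by linear_combination hb2
    refine h (mul_left_cancel₀ h4 ?_)
    rw [WeierstrassCurve.Δ]
    rw [hb2', hb4, hb6] at hb8 ⊢
    linear_combination (-(144 * r ^ 2)) * hb8
  · apply h
    rw [WeierstrassCurve.c₄]
    linear_combination (V.b₂ + 12 * r) * hb2 - 24 * hgr

omit [IsAlgClosed k] in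
/-- A singular point is a root of `Ψ₂Sq` and of `Ψ₃`. -/
lemma eval_Ψ₂Sq_Ψ₃_of_singular {x y : k} (he : V.toAffine.Equation x y)
    (hy : 2 * y + V.a₁ * x + V.a₃ = 0)
    (hx : 3 * x ^ 2 + 2 * V.a₂ * x + V.a₄ - V.a₁ * y = 0) :
    V.Ψ₂Sq.eval x = 0 ∧ V.Ψ₃.eval x = 0 := by
  have hb : Torsion.psiTwoVal V.toAffine x y = 0 := hy
  constructor
  · rw [← Torsion.sq_psiTwoVal he, hb, zero_pow two_ne_zero]
  · rw [Torsion.eval_Ψ₃_eq_tangent he, hb, hx]; ring

end FLTAgent.Reduction
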