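import Fermat.Agent.Reduction.RootLift
import Fermat.Agent.Reduction.DivisionPoly
import Fermat.Agent.Reduction.Inertia
import Fermat.Agent.Torsion.QBar
import Mathlib.GroupTheory.OrderOfElement
import Mathlib.GroupTheory.Coset.Card
import Mathlib.GroupTheory.SpecificGroups.Cyclic

/-!
# Where the torsion of `E` lies with respect to `E₁ ⊆ E₀ ⊆ E`
-/

set_option autoImplicit false

namespace FLTAgent.Reduction

open WeierstrassCurve IsLocalRing Polynomial

section General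

variable {L : Type*} [Field L] [IsAlgClosed L] {A : ValuationSubring L}
  {W : WeierstrassCurve L}

/-- Reduction `E₀ → Ẽ_ns` is surjective. -/
theorem exists_redPt_eq [W.IsElliptic] (hW : IntegralAt A W)
    (Q : (redCurve hW).toAffine.Point) :
    ∃ P : W.toAffine.Point, InZero hW P ∧ redPt hW P = Q := by
  rcases Q with _ | ⟨xb, yb, hQ⟩
  · exact ⟨0, inZero_zero hW, rfl⟩
  obtain ⟨x, rfl⟩ := residue_surjective xb
  set V := intCurve hW
  set f : A[X] := X ^ 2 + C (V.a₁ * x + V.a₃) * X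
    - C (x ^ 3 + V.a₂ * x ^ 2 + V.a₄ * x + V.a₆) with hf
  have hm : f.map (residue A) ≠ 0 := by
    intro h
    have h' := congrArg (fun p => Polynomial.coeff p 2) h
    simp [hf, coeff_X_pow, -map_pow] at h'
  obtain ⟨y, hy, hyr⟩ := exists_root_lift hm (xb := yb) (by
    have he := hQ.1
    rw [Affine.equation_iff] at he
    simp only [redCurve, map_a₁, map_a₂, map_a₃, map_a₄, map_a₆] at he
    simp only [hf, IsRoot.def, Polynomial.map_sub, Polynomial.map_add, Polynomial.map_pow,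
      Polynomial.map_mul, map_X, map_C, eval_sub, eval_add, eval_pow, eval_mul, eval_X, eval_C]
    simp only [map_add, map_mul, map_pow]
    linear_combination he)
  have he : W.toAffine.Equation (x : L) (y : L) := by
    rw [equation_coe_iff hW, Affine.equation_iff]
    simp only [hf, eval_sub, eval_add, eval_pow, eval_mul, eval_X, eval_C] at hy
    linear_combination hy
  have hn : W.toAffine.Nonsingular (x : L) (y : L) :=
    (Affine.equation_iff_nonsingular (W := W.toAffine)).1 he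
  have hr : (redCurve hW).toAffine.Nonsingular (residue A x) (residue A y) := by rw [hyr]; exact hQ
  refine ⟨.some _ _ hn, Or.inr ⟨x.2, y.2, hr⟩, ?_⟩
  rw [redPt_coe hW hn hr]
  simp only [Affine.Point.some.injEq, true_and]
  exact hyr

/-- The reduced odd division polynomial is nonzero if `n` is prime to the residue characteristic or
the reduction is good or multiplicative in odd residue characteristic. -/
theorem preΨ'_redCurve_ne_zero (hW : IntegralAt A W) {n : ℕ} (hn : Odd n)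
    (h : (n : ResidueField A) ≠ 0 ∨ ((2 : ResidueField A) ≠ 0 ∧
      (A.valuation W.Δ = 1 ∨ A.valuation W.c₄ = 1))) : (redCurve hW).preΨ' n ≠ 0 := by
  rcases h with h | ⟨h2, h⟩
  · intro h0
    exact (redCurve hW).coeff_preΨ'_ne_zero h (by rw [h0, coeff_zero])
  · have := isAlgClosed_residueField (A := A)
    have h' : (redCurve hW).Δ ≠ 0 ∨ (redCurve hW).c₄ ≠ 0 := by
      rw [ne_eq, ne_eq, redCurve_Δ_eq_zero_iff, redCurve_c₄_eq_zero_iff]
      rcases h with h | h <;> simp [h]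
    obtain ⟨x, hx2, hx3⟩ := exists_root_Ψ₂Sq (redCurve hW) h2 h'
    intro h0
    exact eval_preΨ'_odd_ne_zero _ hx2 hx3 hn (by rw [h0, eval_zero])

variable [DecidableEq L]

lemma nsmul_some_of_root [W.IsElliptic] {n : ℕ} (hn : Odd n) {x : L}
    (hx : (W.preΨ' n).eval x = 0) :
    ∃ (y : L) (h : W.toAffine.Nonsingular x y), n • Affine.Point.some _ _ h = 0 := by
  obtain ⟨y, hy⟩ := Torsion.exists_nonsingular (W := W.toAffine) x
  refine ⟨y, hy, ?_⟩
  rw [← natCast_zsmul, Torsion.zsmul_some_eq_zero_iff hy, ΨSq_ofNat,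
    if_neg (Nat.not_even_iff_odd.2 hn), mul_one, eval_pow]
  rw [hx, zero_pow two_ne_zero]

/-- At a place of multiplicative reduction some torsion point reduces to the node. -/
theorem exists_torsion_not_mem_zeroSubgroup [W.IsElliptic] (hW : IntegralAt A W)
    (hΔ : A.valuation W.Δ < 1) (hc₄ : A.valuation W.c₄ = 1) {n : ℕ} (hn : Odd n) (h3 : 3 ≤ n)
    (hne : (redCurve hW).preΨ' n ≠ 0) :
    ∃ P : W.toAffine.Point, n • P = 0 ∧ P ∉ zeroSubgroup hW := by
  obtain ⟨x₀, y₀, he, hy₀, hx₀⟩ := exists_singular_point (redCurve hW)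
    ((redCurve_Δ_eq_zero_iff hW).2 hΔ)
    (by rw [ne_eq, redCurve_c₄_eq_zero_iff, hc₄]; exact lt_irrefl _)
  obtain ⟨h2, h3'⟩ := eval_Ψ₂Sq_Ψ₃_of_singular _ he hy₀ hx₀
  have hroot := eval_preΨ'_odd_eq_zero _ h2 h3' hn h3
  rw [redCurve, map_preΨ'] at hne hroot
  obtain ⟨x, hx, hxr⟩ := exists_root_lift hne (xb := x₀) hroot
  have hxL : (W.preΨ' n).eval (x : L) = 0 := by
    have h : W.preΨ' n = ((intCurve hW).preΨ' n).map A.subtype := by
      rw [← map_preΨ', intCurve_map]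
    rw [h, show (x : L) = A.subtype x from rfl, eval_map_apply, hx, map_zero]
  obtain ⟨y, hP, hnP⟩ := nsmul_some_of_root hn hxL
  refine ⟨.some _ _ hP, hnP, ?_⟩
  rw [mem_zeroSubgroup_some]
  rintro (h | ⟨_, hy, hns⟩)
  · exact h x.2
  · rw [show (⟨(x : L), _⟩ : A) = x from rfl, hxr] at hns
    have hy' : residue A ⟨y, hy⟩ = y₀ := by
      rcases Affine.Y_eq_of_X_eq hns.1 he rfl with h | h
      · exact h
      · rw [h, Affine.negY]; linear_combination -hy₀
    rw [hy'] at hns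
    rcases ((Affine.nonsingular_iff _ _).1 hns).2 with h | h
    · exact h (by linear_combination -hx₀)
    · exact h (by linear_combination hy₀)

/-- When `n` is zero in the residue field some `n`-torsion point reduces to the origin. -/
theorem exists_torsion_mem_oneSubgroup [W.IsElliptic] (hW : IntegralAt A W) {n : ℕ} (hn : Odd n)
    (hn0 : (n : L) ≠ 0) (hnk : (n : ResidueField A) = 0)
    (hne : (redCurve hW).preΨ' n ≠ 0) :
    ∃ P : W.toAffine.Point, n • P = 0 ∧ P ≠ 0 ∧ P ∈ oneSubgroup hW := by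
  have hnA : (n : A) ≠ 0 := fun h => hn0 (by simpa using congrArg A.subtype h)
  rw [redCurve, map_preΨ'] at hne
  obtain ⟨x, hx, hx0⟩ := exists_root_not_mem hne (by
    rw [(intCurve hW).leadingCoeff_preΨ' hnA, if_neg (Nat.not_even_iff_odd.2 hn), map_natCast, hnk])
  rw [← map_preΨ', intCurve_map] at hx0
  obtain ⟨y, hP, hnP⟩ := nsmul_some_of_root hn hx0
  exact ⟨.some _ _ hP, hnP, Affine.Point.some_ne_zero hP, hx⟩

end General

/-! ### Over `ℚ̄` -/

section Rat

variable {A : ValuationSubring Qbar} {q p : ℕ} {W : WeierstrassCurve ℤ}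

lemma isElliptic_WQbar (hΔ0 : W.Δ ≠ 0) : (WQbar W).IsElliptic :=
  ⟨isUnit_iff_ne_zero.2 (by rw [WQbar_Δ]; exact Int.cast_ne_zero.2 hΔ0)⟩

lemma residue_two_ne_zero (hA : A.LiesOverPrime q) (hq : q.Prime) (h2 : q ≠ 2) :
    (2 : ResidueField A) ≠ 0 := by
  have h := (residue_natCast_eq_zero_iff hA hq 2).not.2
    (fun h => h2 ((Nat.prime_dvd_prime_iff_eq hq Nat.prime_two).1 h))
  simpa using h

/-- At a prime of multiplicative reduction `E₀[p] ≠ E[p]`, for every odd prime `p`. -/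
theorem exists_torsion_not_mem_zeroSubgroup_qbar (hA : A.LiesOverPrime q) (hq : q.Prime)
    (hp : p.Prime) (h2 : p ≠ 2) (hΔ0 : W.Δ ≠ 0) (hbad : (q : ℤ) ∣ W.Δ)
    (hc₄ : ¬(q : ℤ) ∣ W.c₄) :
    ∃ P : (WQbar W).toAffine.Point, p • P = 0 ∧ P ∉ zeroSubgroup (integralAt W A) := by
  have := isElliptic_WQbar hΔ0
  have hc : A.valuation (WQbar W).c₄ = 1 := by rw [WQbar_c₄]; exact v_intCast_eq_one hA hq hc₄
  have hd : A.valuation (WQbar W).Δ < 1 := by
    rw [WQbar_Δ]; exact (v_intCast_lt_one_iff hA hq _).2 hbad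
  refine exists_torsion_not_mem_zeroSubgroup _ hd hc (hp.odd_of_ne_two h2)
    (by have := hp.two_le; omega) (preΨ'_redCurve_ne_zero _ (hp.odd_of_ne_two h2) ?_)
  by_cases hqp : q = p
  · exact Or.inr ⟨residue_two_ne_zero hA hq (hqp ▸ h2), Or.inr hc⟩
  · exact Or.inl ((residue_natCast_eq_zero_iff hA hq p).not.2
      (fun h => hqp ((Nat.prime_dvd_prime_iff_eq hq hp).1 h)))

/-- At a good or multiplicative odd prime `p`, `E₁` contains a point of order `p`. -/
theorem exists_torsion_mem_oneSubgroup_qbar (hA : A.LiesOverPrime p) (hp : p.Prime) (h2 : p ≠ 2)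
    (hΔ0 : W.Δ ≠ 0) (hred : ¬(p : ℤ) ∣ W.Δ ∨ ¬(p : ℤ) ∣ W.c₄) :
    ∃ P : (WQbar W).toAffine.Point,
      p • P = 0 ∧ P ≠ 0 ∧ P ∈ oneSubgroup (integralAt W A) := by
  have := isElliptic_WQbar hΔ0
  refine exists_torsion_mem_oneSubgroup _ (hp.odd_of_ne_two h2) (Nat.cast_ne_zero.2 hp.ne_zero)
    ((residue_natCast_eq_zero_iff hA hp p).2 dvd_rfl) (preΨ'_redCurve_ne_zero _
      (hp.odd_of_ne_two h2) (Or.inr ⟨residue_two_ne_zero hA hp h2, ?_⟩))
  rw [WQbar_Δ, WQbar_c₄]
  exact hred.imp (v_intCast_eq_one hA hp) (v_intCast_eq_one hA hp)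

/-- A proper subgroup of `E[p]` containing a nonzero point is spanned by it. -/
lemma exists_nsmul_eq_of_proper (hp : p.Prime) (hΔ0 : W.Δ ≠ 0)
    (H : AddSubgroup (WQbar W).toAffine.Point) {P₁ P₀ : (WQbar W).toAffine.Point}
    (h1 : p • P₁ = 0) (h1' : P₁ ≠ 0) (h1H : P₁ ∈ H) (h0 : p • P₀ = 0) (h0H : P₀ ∉ H)
    {P : (WQbar W).toAffine.Point} (hP : p • P = 0) (hPH : P ∈ H) :
    ∃ m : ℤ, m • P₁ = P := by
  have := Fact.mk hp
  have : (W.map (Int.castRingHom ℚ)).IsElliptic := by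
    refine ⟨isUnit_iff_ne_zero.2 ?_⟩
    rw [map_Δ, eq_intCast]; exact Int.cast_ne_zero.2 hΔ0
  set T := Submodule.torsionBy ℤ (WQbar W).toAffine.Point (p : ℤ) with hT
  have hcard : Nat.card T = p ^ 2 :=
    Torsion.natCard_torsionBy_qbar (W.map (Int.castRingHom ℚ)) hp.ne_zero
  have : Finite T := Nat.finite_of_card_ne_zero (by rw [hcard]; exact pow_ne_zero 2 hp.ne_zero)
  have mem : ∀ Q : (WQbar W).toAffine.Point, p • Q = 0 → Q ∈ T := fun Q hQ => by
    rw [hT, Submodule.mem_torsionBy_iff, natCast_zsmul]; exact hQ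
  set K : AddSubgroup T := H.comap T.subtype.toAddMonoidHom with hK
  have hdvd : Nat.card K ∣ p ^ 2 := hcard ▸ K.card_addSubgroup_dvd_card
  obtain ⟨i, hi, hKi⟩ := (Nat.dvd_prime_pow hp).1 hdvd
  have hK2 : i ≠ 2 := by
    rintro rfl
    have htop : K = ⊤ := AddSubgroup.eq_top_of_card_eq K (by rw [hKi, hcard])
    exact h0H (show (⟨P₀, mem P₀ h0⟩ : T) ∈ K by rw [htop]; trivial)
  set g : K := ⟨⟨P₁, mem P₁ h1⟩, h1H⟩ with hg
  have hg0 : g ≠ 0 := fun h => h1' (congrArg (fun z : K => ((z : T) : (WQbar W).toAffine.Point)) h)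
  have hK1 : Nat.card K = p := by
    interval_cases i
    · exfalso
      rw [pow_zero, Nat.card_eq_one_iff_unique] at hKi
      exact hg0 (hKi.1.elim _ _)
    · rw [hKi, pow_one]
    · omega
  have htop : AddSubgroup.zmultiples g = ⊤ := zmultiples_eq_top_of_prime_card hK1 hg0
  have hmem : (⟨⟨P, mem P hP⟩, hPH⟩ : K) ∈ AddSubgroup.zmultiples g := htop ▸ AddSubgroup.mem_top _
  obtain ⟨m, hm⟩ := AddSubgroup.mem_zmultiples_iff.1 hmem
  refine ⟨m, ?_⟩
  have h := congrArg (fun z : K => ((z : T) : (WQbar W).toAffine.Point)) hm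
  simpa [hg] using h

/-- At a multiplicative prime `q = p`, the `p`-torsion of `E₀` is the line `E₁[p]`. -/
theorem mem_oneSubgroup_of_mem_zeroSubgroup (hA : A.LiesOverPrime p) (hp : p.Prime) (h2 : p ≠ 2)
    (hΔ0 : W.Δ ≠ 0) (hbad : (p : ℤ) ∣ W.Δ) (hc₄ : ¬(p : ℤ) ∣ W.c₄)
    {P : (WQbar W).toAffine.Point} (hP : p • P = 0)
    (h0 : P ∈ zeroSubgroup (integralAt W A)) : P ∈ oneSubgroup (integralAt W A) := by
  obtain ⟨P₁, hP₁, hP₁0, hP₁1⟩ :=
    exists_torsion_mem_oneSubgroup_qbar hA hp h2 hΔ0 (Or.inr hc₄)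
  obtain ⟨P₀, hP₀, hP₀0⟩ :=
    exists_torsion_not_mem_zeroSubgroup_qbar hA hp hp h2 hΔ0 hbad hc₄
  obtain ⟨m, rfl⟩ := exists_nsmul_eq_of_proper hp hΔ0 _ hP₁ hP₁0 (oneSubgroup_le _ hP₁1) hP₀ hP₀0
    hP h0
  exact AddSubgroup.zsmul_mem _ hP₁1 m

end Rat

end FLTAgent.Reduction
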