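import Fermat.Agent.Reduction.LocalTorsion

/-!
# The decomposition group at a prime of multiplicative reduction

It acts on the components through the two tangent directions at the node, so by a sign.
-/

set_option autoImplicit false

namespace FLTAgent.Reduction

open WeierstrassCurve IsLocalRing

section General

variable {L : Type*} [Field L] {A : ValuationSubring L} {W : WeierstrassCurve L}

/-- The node is unique, the tangent slope unique up to exchange. -/
theorem IsNode.unique {x₀ y₀ α x₁ y₁ β : L} (h : IsNode A W x₀ y₀ α)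
    (h' : IsNode A W x₁ y₁ β) :
    x₁ = x₀ ∧ y₁ = y₀ ∧ (β = α ∨ β = -α - W.a₁) := by
  set D := W.a₁ ^ 2 + 4 * W.a₂ + 12 * x₀ with hD
  have hdisc : A.valuation D = 1 := h.disc
  set dx := x₁ - x₀ with hdx
  have hdxA : dx ∈ A := sub_mem h'.x_mem h.x_mem
  have e3 : dx * (6 * dx + D) = 0 := by
    rw [hdx, hD]
    linear_combination 2 * h'.dx - 2 * h.dx + W.a₁ * h'.dy - W.a₁ * h.dy
  have hne : 6 * dx + D ≠ 0 := by
    intro h0
    have h6 : A.valuation ((6 : L) * dx) = 1 := by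
      rw [show (6 : L) * dx = -D by linear_combination h0, A.valuation.map_neg, hdisc]
    have hd1 : A.valuation dx = 1 := by
      refine le_antisymm (v_le_one hdxA) ?_
      rw [← h6, map_mul]
      exact mul_le_of_le_one_left' (v_le_one (natCast_mem A 6))
    set F₀ := y₀ ^ 2 + W.a₁ * x₀ * y₀ + W.a₃ * y₀
      - (x₀ ^ 3 + W.a₂ * x₀ ^ 2 + W.a₄ * x₀ + W.a₆)
    set F₁ := y₁ ^ 2 + W.a₁ * x₁ * y₁ + W.a₃ * y₁
      - (x₁ ^ 3 + W.a₂ * x₁ ^ 2 + W.a₄ * x₁ + W.a₆)
    have e : dx ^ 2 * (4 * dx + D) = -4 * (F₁ - F₀) := by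
      rw [hdx, hD]
      linear_combination (2 * y₁ + W.a₁ * x₁ + W.a₃) * h'.dy
        - (2 * y₀ + W.a₁ * x₀ + W.a₃) * h.dy - 4 * dx * h.dx
        - 2 * W.a₁ * dx * h.dy
    have hlt : A.valuation (dx ^ 2 * (4 * dx + D)) < 1 := by
      rw [e, mul_comm]
      exact v_mul_lt_one_left (A.valuation.map_sub_lt h'.small h.small)
        (neg_mem (natCast_mem A 4))
    rw [map_mul, map_pow, hd1, one_pow, one_mul] at hlt
    have h3 : A.valuation (3 * (4 * dx + D)) < 1 := by
      rw [mul_comm]; exact v_mul_lt_one_left hlt (natCast_mem A 3)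
    rw [show 3 * (4 * dx + D) = D by linear_combination 2 * h0, hdisc] at h3
    exact lt_irrefl _ h3
  have hx : x₁ = x₀ := sub_eq_zero.1 ((mul_eq_zero.1 e3).resolve_right hne)
  have e1 : 2 * (y₁ - y₀) = 0 := by
    have h1 := h'.dy
    rw [hx] at h1
    linear_combination h1 - h.dy
  have e2 : W.a₁ * (y₁ - y₀) = 0 := by
    have h1 := h'.dx
    rw [hx] at h1
    linear_combination h.dx - h1
  have hD0 : D ≠ 0 := fun h0 => by rw [h0, map_zero] at hdisc; exact zero_ne_one hdisc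
  have hy : y₁ = y₀ := by
    have h0 : D * (y₁ - y₀) = 0 := by
      rw [hD]; linear_combination W.a₁ * e2 + (2 * W.a₂ + 6 * x₀) * e1
    exact sub_eq_zero.1 ((mul_eq_zero.1 h0).resolve_left hD0)
  refine ⟨hx, hy, ?_⟩
  have hroot := h'.root
  rw [hx] at hroot
  have e4 : (β - α) * (β - (-α - W.a₁)) = 0 := by linear_combination hroot - h.root
  rcases mul_eq_zero.1 e4 with e | e
  · exact Or.inl (sub_eq_zero.1 e)
  · exact Or.inr (sub_eq_zero.1 e)

end General

variable {A : ValuationSubring Qbar} {q : ℕ} {W : WeierstrassCurve ℤ} {σ : Qbar ≃ₐ[ℚ] Qbar}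
  {x₀ y₀ α r : Qbar}

theorem IsNode.map_decomposition (hn : IsNode A (WQbar W) x₀ y₀ α)
    (hσ : σ ∈ A.decompositionSubgroup ℚ) : IsNode A (WQbar W) (σ x₀) (σ y₀) (σ α) := by
  have ha : σ (WQbar W).a₁ = (WQbar W).a₁ ∧ σ (WQbar W).a₂ = (WQbar W).a₂ ∧
      σ (WQbar W).a₃ = (WQbar W).a₃ ∧ σ (WQbar W).a₄ = (WQbar W).a₄ ∧
      σ (WQbar W).a₆ = (WQbar W).a₆ := by simp [WQbar_eq]
  obtain ⟨h1, h2, h3, h4, h6⟩ := ha
  refine ⟨map_mem_of_mem_decomposition hσ hn.x_mem, map_mem_of_mem_decomposition hσ hn.y_mem,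
    map_mem_of_mem_decomposition hσ hn.α_mem, ?_, ?_, ?_, ?_, ?_, ?_⟩
  · simpa [map_add, map_mul, h1, h3, map_ofNat] using congrArg σ hn.dy
  · simpa [map_add, map_sub, map_mul, map_pow, h1, h2, h4, map_ofNat] using congrArg σ hn.dx
  · have h := (v_map_eq_qbar hσ _).trans_lt hn.small
    simpa [map_add, map_sub, map_mul, map_pow, h1, h2, h3, h4, h6] using h
  · simpa [map_add, map_mul, map_pow, h1, h2, map_ofNat] using congrArg σ hn.root
  · have h := (v_map_eq_qbar hσ _).trans hn.unit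
    simpa [map_add, map_mul, h1, map_ofNat] using h
  · have h := (v_map_eq_qbar hσ _).trans hn.disc
    simpa [map_add, map_mul, map_pow, h1, h2, map_ofNat] using h

/-- The decomposition group fixes or inverts the components. -/
theorem comp_smul_decomposition (hn : IsNode A (WQbar W) x₀ y₀ α)
    (h : IsNodalForm A (nodeChange x₀ y₀ • WQbar W) α r) (hσ : σ ∈ A.decompositionSubgroup ℚ) :
    ∃ z : ℤ, (z = 1 ∨ z = -1) ∧ (σ ∈ A.inertiaSubgroupIn ℚ → z = 1) ∧
      ∀ P : (WQbar W).toAffine.Point,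
        h.comp (vcEquiv (nodeChange x₀ y₀) (WQbar W) (σ • P))
          = h.comp (vcEquiv (nodeChange x₀ y₀) (WQbar W) P) ^ z := by
  obtain ⟨hx, hy, hα⟩ := hn.unique (hn.map_decomposition hσ)
  have hvx : ∀ x, A.valuation (σ x - x₀) = A.valuation (x - x₀) := fun x => by
    rw [← v_map_eq_qbar hσ (x - x₀), map_sub σ, hx]
  by_cases he : σ α = α
  · refine ⟨1, Or.inl rfl, fun _ => rfl, fun P => ?_⟩
    rw [zpow_one]
    rcases P with _ | ⟨x, y, hxy⟩
    · rfl
    rw [smul_some, vcEquiv_some, vcEquiv_some, h.comp_some, h.comp_some]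
    simp only [vcX_node, vcY_node, IsNodalForm.compCoord]
    have h2 : A.valuation (fCoord α (σ x - x₀) (σ y - y₀))
        = A.valuation (fCoord α (x - x₀) (y - y₀)) := by
      rw [← v_map_eq_qbar hσ (fCoord α (x - x₀) (y - y₀))]
      congr 1
      simp only [fCoord, map_sub, map_mul, hx, hy, he]
    rw [hvx x, h2]
  · refine ⟨-1, Or.inr rfl, fun hi => absurd (node_fixed hn hi).2.2 he, fun P => ?_⟩
    rw [zpow_neg_one]
    have hα' : σ α = -α - (WQbar W).a₁ := hα.resolve_left he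
    rcases P with _ | ⟨x, y, hxy⟩
    · exact inv_one.symm
    have hne := nonsingular_smul (σ := σ) hxy
    have he₁ := ((nonsingular_vc (nodeChange x₀ y₀) (WQbar W) x y).2 hxy).1
    have he₂ := ((nonsingular_vc (nodeChange x₀ y₀) (WQbar W) (σ x) (σ y)).2 hne).1
    rw [smul_some, vcEquiv_some, vcEquiv_some, h.comp_some, h.comp_some]
    simp only [vcX_node, vcY_node] at he₁ he₂ ⊢
    rcases le_or_gt 1 (A.valuation (x - x₀)) with hX | hX
    · rw [h.compCoord_out _ hX, h.compCoord_out _ (by rwa [hvx]), inv_one]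
    rcases le_or_gt (A.valuation (x - x₀)) (A.valuation r) with hM | hS
    · rw [h.compCoord_middle _ hM, h.compCoord_middle _ (by rwa [hvx]), h.cls_r_inv]
    have hf : A.valuation (fCoord α (σ x - x₀) (σ y - y₀))
        = A.valuation (gCoord (nodeChange x₀ y₀ • WQbar W) α (x - x₀) (y - y₀)) := by
      rw [← v_map_eq_qbar hσ (gCoord (nodeChange x₀ y₀ • WQbar W) α (x - x₀) (y - y₀))]
      congr 1
      simp only [fCoord, gCoord, map_sub, map_mul, map_add, node_a₁_fixed, hx, hy, hα']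
      simp only [nodeChange, variableChange_a₁, inv_one, Units.val_one, mul_zero, add_zero,
        one_mul]
      ring
    have hg : A.valuation (gCoord (nodeChange x₀ y₀ • WQbar W) α (σ x - x₀) (σ y - y₀))
        = A.valuation (fCoord α (x - x₀) (y - y₀)) := by
      rw [← v_map_eq_qbar hσ (fCoord α (x - x₀) (y - y₀))]
      congr 1
      simp only [fCoord, gCoord, map_sub, map_mul, hx, hy, hα']
      simp only [nodeChange, variableChange_a₁, inv_one, Units.val_one, mul_zero, add_zero,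
        one_mul]
      ring
    rcases h.branch he₁ hS hX with hb | hb
    · rw [h.compCoord_first hS hX hb.1, h.compCoord_second he₂ (by rwa [hvx]) (by rwa [hvx])
        (by rw [hg, hvx]; exact hb.1), hvx]
    · rw [h.compCoord_second he₁ hS hX hb.1, inv_inv, h.compCoord_first (by rwa [hvx])
        (by rwa [hvx]) (by rw [hf, hvx]; exact hb.1), hvx]

/-- At a prime of multiplicative reduction the decomposition group acts on `E/E₀` by a sign,
trivial on inertia. -/
theorem exists_smul_sub_zsmul_mem_zeroSubgroup (hA : A.LiesOverPrime q) (hq : q.Prime)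
    (hΔ0 : W.Δ ≠ 0) (hbad : (q : ℤ) ∣ W.Δ) (hc₄ : ¬(q : ℤ) ∣ W.c₄)
    (hσ : σ ∈ A.decompositionSubgroup ℚ) :
    ∃ z : ℤ, (z = 1 ∨ z = -1) ∧ (σ ∈ A.inertiaSubgroupIn ℚ → z = 1) ∧
      ∀ P : (WQbar W).toAffine.Point, σ • P - z • P ∈ zeroSubgroup (integralAt W A) := by
  obtain ⟨x₀, y₀, α, r, hn, h⟩ := exists_nodal hA hq hΔ0 hbad hc₄
  obtain ⟨z, hz, hzi, hc⟩ := comp_smul_decomposition hn h hσ
  refine ⟨z, hz, hzi, fun P => (hn.inZero_vc_iff (integralAt W A) h.integral _).1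
    (h.comp_eq_one_iff.1 ?_)⟩
  have hj : h.comp (vcEquiv (nodeChange x₀ y₀) (WQbar W) (z • P))
      = h.comp (vcEquiv (nodeChange x₀ y₀) (WQbar W) P) ^ z := by
    rw [map_zsmul]
    exact congrArg Additive.toMul (map_zsmul h.compHom z _)
  rw [map_sub, sub_eq_add_neg, h.comp_add, h.comp_neg, hj, hc, mul_inv_cancel]

/-- At a multiplicative prime `p`, the `p`-torsion is an extension, by the line `E₁[p]`, of a
quadratic character, trivial on inertia. -/
theorem exists_sign_smul_sub_mem_oneSubgroup {p : ℕ} (hA : A.LiesOverPrime p) (hp : p.Prime)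
    (h2 : p ≠ 2) (hΔ0 : W.Δ ≠ 0) (hbad : (p : ℤ) ∣ W.Δ) (hc₄ : ¬(p : ℤ) ∣ W.c₄)
    (hσ : σ ∈ A.decompositionSubgroup ℚ) :
    ∃ z : ℤ, (z = 1 ∨ z = -1) ∧ (σ ∈ A.inertiaSubgroupIn ℚ → z = 1) ∧
      ∀ P : (WQbar W).toAffine.Point, p • P = 0 →
        σ • P - z • P ∈ oneSubgroup (integralAt W A) := by
  obtain ⟨z, hz, hzi, hmem⟩ := exists_smul_sub_zsmul_mem_zeroSubgroup hA hp hΔ0 hbad hc₄ hσ
  refine ⟨z, hz, hzi, fun P hP =>
    mem_oneSubgroup_of_mem_zeroSubgroup hA hp h2 hΔ0 hbad hc₄ ?_ (hmem P)⟩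
  have h3 : p • (σ • P) = σ • (p • P) :=
    ((DistribSMul.toAddMonoidHom (WQbar W).toAffine.Point σ).map_nsmul p P).symm
  rw [nsmul_sub, smul_comm p z P, h3, hP, smul_zero', smul_zero, sub_zero]

end FLTAgent.Reduction
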