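import Fermat.Agent.Reduction.Defs
import Mathlib.Tactic.FieldSimp
import Mathlib.Tactic.Linarith

/-!
# Sums of points and reduction: the chord computations
-/

set_option autoImplicit false

namespace FLTAgent.Reduction

open WeierstrassCurve IsLocalRing

variable {L : Type*} [Field L] {A : ValuationSubring L} {W : WeierstrassCurve L}

lemma y_mem_of_x_mem (hW : IntegralAt A W) {x y : L} (h : W.toAffine.Equation x y) (hx : x ∈ A) :
    y ∈ A := by
  by_contra hy
  have hY : 1 < A.valuation y := one_lt_v_iff.2 hy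
  have e : y ^ 2 = (x ^ 3 + W.a₂ * x ^ 2 + W.a₄ * x + W.a₆) - (W.a₁ * x + W.a₃) * y := by
    linear_combination (Affine.equation_iff x y).1 h
  have h1 : A.valuation (x ^ 3 + W.a₂ * x ^ 2 + W.a₄ * x + W.a₆) ≤ 1 :=
    v_le_one (add_mem (add_mem (add_mem (pow_mem hx 3) (mul_mem hW.a₂ (pow_mem hx 2)))
      (mul_mem hW.a₄ hx)) hW.a₆)
  have h2 : A.valuation ((W.a₁ * x + W.a₃) * y) ≤ A.valuation y := by
    rw [map_mul]
    exact mul_le_of_le_one_left' (v_le_one (add_mem (mul_mem hW.a₁ hx) hW.a₃))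
  have h3 : A.valuation (y ^ 2) ≤ A.valuation y := by
    rw [e]; exact A.valuation.map_sub_le (h1.trans hY.le) h2
  rw [map_pow] at h3
  have h4 : A.valuation y < A.valuation y ^ 2 := lt_self_pow₀ hY one_lt_two
  exact absurd h3 (not_le.2 h4)

lemma v_y_of_x_not_mem (hW : IntegralAt A W) {x y : L} (h : W.toAffine.Equation x y)
    (hx : x ∉ A) : A.valuation y ^ 2 = A.valuation x ^ 3 ∧ A.valuation x < A.valuation y := by
  have hX : 1 < A.valuation x := one_lt_v_iff.2 hx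
  have hXne : A.valuation x ≠ 0 := ne_of_gt (lt_trans zero_lt_one hX)
  have e := (Affine.equation_iff x y).1 h
  have hlow : A.valuation (W.a₂ * x ^ 2 + W.a₄ * x + W.a₆) < A.valuation (x ^ 3) := by
    rw [map_pow]
    have h23 : A.valuation x ^ 2 < A.valuation x ^ 3 := pow_lt_pow_right₀ hX (by norm_num)
    have h13 : A.valuation x < A.valuation x ^ 3 := lt_self_pow₀ hX (by norm_num)
    refine A.valuation.map_add_lt (A.valuation.map_add_lt ?_ ?_) ?_
    · rw [map_mul, map_pow]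
      exact lt_of_le_of_lt (mul_le_of_le_one_left' (v_le_one hW.a₂)) h23
    · rw [map_mul]
      exact lt_of_le_of_lt (mul_le_of_le_one_left' (v_le_one hW.a₄)) h13
    · exact lt_of_le_of_lt (v_le_one hW.a₆) (lt_trans hX h13)
  have hR : A.valuation (y ^ 2 + W.a₁ * x * y + W.a₃ * y) = A.valuation x ^ 3 := by
    rw [e, show x ^ 3 + W.a₂ * x ^ 2 + W.a₄ * x + W.a₆
      = x ^ 3 + (W.a₂ * x ^ 2 + W.a₄ * x + W.a₆) by ring,
      A.valuation.map_add_eq_of_lt_left hlow, map_pow]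
  have hYX : A.valuation x < A.valuation y := by
    by_contra hle
    rw [not_lt] at hle
    have : A.valuation (y ^ 2 + W.a₁ * x * y + W.a₃ * y) ≤ A.valuation x ^ 2 := by
      refine A.valuation.map_add_le (A.valuation.map_add_le ?_ ?_) ?_
      · rw [map_pow]; exact pow_le_pow_left₀ zero_le hle 2
      · rw [map_mul, map_mul, mul_assoc, pow_two]
        exact (mul_le_of_le_one_left' (v_le_one hW.a₁)).trans (mul_le_mul' le_rfl hle)
      · rw [map_mul]
        exact (mul_le_of_le_one_left' (v_le_one hW.a₃)).trans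
          (hle.trans (le_self_pow hX.le two_ne_zero))
    rw [hR] at this
    exact absurd this (not_le.2 (pow_lt_pow_right₀ hX (by norm_num)))
  have hY : 1 < A.valuation y := lt_trans hX hYX
  have hlowL : A.valuation (W.a₁ * x * y + W.a₃ * y) < A.valuation (y ^ 2) := by
    rw [map_pow, pow_two]
    refine A.valuation.map_add_lt ?_ ?_
    · rw [map_mul, map_mul, mul_assoc]
      exact lt_of_le_of_lt (mul_le_of_le_one_left' (v_le_one hW.a₁))
        (mul_lt_mul_of_pos_right hYX (lt_trans zero_lt_one hY))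
    · rw [map_mul]
      exact lt_of_le_of_lt (mul_le_of_le_one_left' (v_le_one hW.a₃))
        (lt_mul_of_one_lt_left (lt_trans zero_lt_one hY) hY)
  refine ⟨?_, hYX⟩
  rw [← hR, show y ^ 2 + W.a₁ * x * y + W.a₃ * y = y ^ 2 + (W.a₁ * x * y + W.a₃ * y) by ring,
    A.valuation.map_add_eq_of_lt_left hlowL, map_pow]

lemma x_mem_iff_y_mem (hW : IntegralAt A W) {x y : L} (h : W.toAffine.Equation x y) :
    x ∈ A ↔ y ∈ A := by
  refine ⟨y_mem_of_x_mem hW h, fun hy => ?_⟩
  by_contra hx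
  exact absurd hy (one_lt_v_iff.1 (lt_trans (one_lt_v_iff.2 hx) (v_y_of_x_not_mem hW h hx).2))

variable [DecidableEq L]

/-- The numerator of the second expression of the slope. -/
def slopeNum {R : Type*} [CommRing R] (W : WeierstrassCurve R) (x₁ x₂ y₁ : R) : R :=
  x₁ ^ 2 + x₁ * x₂ + x₂ ^ 2 + W.a₂ * (x₁ + x₂) + W.a₄ - W.a₁ * y₁

/-- The denominator of the second expression of the slope. -/
def slopeDen {R : Type*} [CommRing R] (W : WeierstrassCurve R) (x₂ y₁ y₂ : R) : R :=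
  y₁ + y₂ + W.a₁ * x₂ + W.a₃

lemma slope_mul_den {x₁ x₂ y₁ y₂ : L} (h₁ : W.toAffine.Equation x₁ y₁)
    (h₂ : W.toAffine.Equation x₂ y₂) (hxy : ¬(x₁ = x₂ ∧ y₁ = W.toAffine.negY x₂ y₂)) :
    W.toAffine.slope x₁ x₂ y₁ y₂ * slopeDen W x₂ y₁ y₂ = slopeNum W x₁ x₂ y₁ := by
  by_cases hx : x₁ = x₂
  · have hy : y₁ ≠ W.toAffine.negY x₂ y₂ := fun h => hxy ⟨hx, h⟩
    have hy' := Affine.Y_eq_of_Y_ne h₁ h₂ hx hy
    subst hx hy'
    rw [Affine.slope_of_Y_ne rfl hy]
    have hd : slopeDen W x₁ y₁ y₁ = y₁ - W.toAffine.negY x₁ y₁ := by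
      simp only [slopeDen, Affine.negY]; ring
    rw [hd, div_mul_cancel₀ _ (sub_ne_zero.2 hy)]
    simp only [slopeNum]; ring
  · rw [Affine.slope_of_X_ne hx, div_mul_eq_mul_div, div_eq_iff (sub_ne_zero.2 hx)]
    have e₁ := (Affine.equation_iff x₁ y₁).1 h₁
    have e₂ := (Affine.equation_iff x₂ y₂).1 h₂
    simp only [slopeDen, slopeNum]
    linear_combination e₁ - e₂

lemma slope_mul_sub {x₁ x₂ y₁ y₂ : L} (h₁ : W.toAffine.Equation x₁ y₁)
    (h₂ : W.toAffine.Equation x₂ y₂) (hxy : ¬(x₁ = x₂ ∧ y₁ = W.toAffine.negY x₂ y₂)) :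
    W.toAffine.slope x₁ x₂ y₁ y₂ * (x₁ - x₂) = y₁ - y₂ := by
  by_cases hx : x₁ = x₂
  · have hy' := Affine.Y_eq_of_Y_ne h₁ h₂ hx fun h => hxy ⟨hx, h⟩
    rw [hx, hy', sub_self, mul_zero, sub_self]
  · rw [Affine.slope_of_X_ne hx, div_mul_cancel₀ _ (sub_ne_zero.2 hx)]

section

variable (hW : IntegralAt A W) {x₁ x₂ y₁ y₂ : A}
include hW

omit [DecidableEq L] in
private lemma coe_slopeNum (x₁ x₂ y₁ : A) :
    ((slopeNum (intCurve hW) x₁ x₂ y₁ : A) : L) = slopeNum W (x₁ : L) x₂ y₁ := rfl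

omit [DecidableEq L] in
private lemma coe_slopeDen (x₂ y₁ y₂ : A) :
    ((slopeDen (intCurve hW) x₂ y₁ y₂ : A) : L) = slopeDen W (x₂ : L) y₁ y₂ := rfl

omit [DecidableEq L] in
private lemma residue_slopeDen_eq_zero_iff :
    residue A (slopeDen (intCurve hW) x₂ y₁ y₂) = 0 ↔
      residue A y₁ = (redCurve hW).toAffine.negY (residue A x₂) (residue A y₂) := by
  simp only [slopeDen, redCurve, Affine.negY, map_add, map_mul, map_a₁, map_a₃]
  constructor <;> intro h <;> linear_combination h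

variable (h₁ : W.toAffine.Equation (x₁ : L) (y₁ : L)) (h₂ : W.toAffine.Equation (x₂ : L) (y₂ : L))
include h₁ h₂

omit [DecidableEq L] h₁ h₂ in
lemma ne_opposite_of_residue (hr : ¬(residue A x₁ = residue A x₂ ∧
      residue A y₁ = (redCurve hW).toAffine.negY (residue A x₂) (residue A y₂))) :
    ¬((x₁ : L) = x₂ ∧ (y₁ : L) = W.toAffine.negY (x₂ : L) y₂) := by
  rintro ⟨hx, hy⟩
  apply hr
  have hx' : x₁ = x₂ := Subtype.ext hx
  have hy' : y₁ = (intCurve hW).toAffine.negY x₂ y₂ := Subtype.ext hy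
  refine ⟨by rw [hx'], ?_⟩
  rw [hy', redCurve]
  exact (Affine.map_negY (W' := (intCurve hW).toAffine) (residue A) x₂ y₂).symm

/-- If the reductions are not opposite, the slope is integral and reduces to the slope. -/
theorem slope_mem_and_residue [DecidableEq (ResidueField A)]
    (hr : ¬(residue A x₁ = residue A x₂ ∧
      residue A y₁ = (redCurve hW).toAffine.negY (residue A x₂) (residue A y₂))) :
    ∃ ℓ : A, W.toAffine.slope (x₁ : L) x₂ y₁ y₂ = (ℓ : L) ∧ residue A ℓ =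
      (redCurve hW).toAffine.slope (residue A x₁) (residue A x₂) (residue A y₁) (residue A y₂) := by
  have hxy := ne_opposite_of_residue hW hr
  have hsub := slope_mul_sub h₁ h₂ hxy
  have hden := slope_mul_den h₁ h₂ hxy
  by_cases hx : residue A x₁ = residue A x₂
  · have hy : residue A y₁ ≠ (redCurve hW).toAffine.negY (residue A x₂) (residue A y₂) :=
      fun h => hr ⟨hx, h⟩
    have hu : residue A (slopeDen (intCurve hW) x₂ y₁ y₂) ≠ 0 :=
      fun h => hy ((residue_slopeDen_eq_zero_iff hW).1 h)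
    obtain ⟨u, hu'⟩ := (residue_ne_zero_iff_isUnit _).1 hu
    refine ⟨slopeNum (intCurve hW) x₁ x₂ y₁ * (↑u⁻¹ : A), ?_, ?_⟩
    · have hne : slopeDen W (x₂ : L) y₁ y₂ ≠ 0 := by
        rw [← coe_slopeDen hW, ← hu']
        exact fun h => u.ne_zero (Subtype.ext h)
      refine mul_right_cancel₀ hne ?_
      rw [hden, ← coe_slopeNum hW, ← coe_slopeDen hW, ← hu']
      have : slopeNum (intCurve hW) x₁ x₂ y₁ * (↑u⁻¹ : A) * (u : A)
          = slopeNum (intCurve hW) x₁ x₂ y₁ := Units.inv_mul_cancel_right _ u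
      exact_mod_cast this.symm
    · have hy' := Affine.Y_eq_of_Y_ne (equation_red hW h₁) (equation_red hW h₂) hx hy
      have hd0 : residue A y₁ - (redCurve hW).toAffine.negY (residue A x₁) (residue A y₁) ≠ 0 := by
        rw [sub_ne_zero]; intro h; apply hy; rw [hy', hx] at h; rw [hy']; exact h
      rw [Affine.slope_of_Y_ne hx hy, eq_div_iff hd0]
      have hm : residue A (↑u⁻¹ : A) * residue A (slopeDen (intCurve hW) x₂ y₁ y₂) = 1 := by
        rw [← map_mul, ← hu', Units.inv_mul, map_one]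
      simp only [slopeNum, slopeDen, redCurve, Affine.negY, map_add, map_mul, map_sub, map_pow,
        map_a₁, map_a₂, map_a₃, map_a₄] at hm ⊢
      rw [hx, hy'] at *
      linear_combination (3 * residue A x₂ ^ 2 + 2 * residue A (intCurve hW).a₂ * residue A x₂
        + residue A (intCurve hW).a₄ - residue A (intCurve hW).a₁ * residue A y₂) * hm
  · have hu : residue A (x₁ - x₂) ≠ 0 := by rw [map_sub]; exact sub_ne_zero.2 hx
    obtain ⟨u, hu'⟩ := (residue_ne_zero_iff_isUnit _).1 hu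
    refine ⟨(y₁ - y₂) * (↑u⁻¹ : A), ?_, ?_⟩
    · have hne : ((x₁ : L) - x₂) ≠ 0 := by
        intro h; apply hu; rw [show x₁ - x₂ = 0 from Subtype.ext h, map_zero]
      refine mul_right_cancel₀ hne ?_
      rw [hsub]
      have : (y₁ - y₂) * (↑u⁻¹ : A) * (x₁ - x₂) = y₁ - y₂ := by
        rw [← hu', Units.inv_mul_cancel_right]
      exact_mod_cast this.symm
    · rw [Affine.slope_of_X_ne hx, eq_div_iff (sub_ne_zero.2 hx), ← map_sub, ← map_sub, ← map_mul,
        ← hu', Units.inv_mul_cancel_right]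

/-- If the reductions are opposite and nonsingular, the sum leaves the integral points. -/
theorem addX_not_mem_of_residue_opposite
    (hns : (redCurve hW).toAffine.Nonsingular (residue A x₁) (residue A y₁))
    (hx : residue A x₁ = residue A x₂)
    (hy : residue A y₁ = (redCurve hW).toAffine.negY (residue A x₂) (residue A y₂))
    (hxy : ¬((x₁ : L) = x₂ ∧ (y₁ : L) = W.toAffine.negY (x₂ : L) y₂)) :
    W.toAffine.addX (x₁ : L) x₂ (W.toAffine.slope (x₁ : L) x₂ y₁ y₂) ∉ A := by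
  have hsub := slope_mul_sub h₁ h₂ hxy
  have hden := slope_mul_den h₁ h₂ hxy
  set ℓ := W.toAffine.slope (x₁ : L) x₂ y₁ y₂ with hℓ
  have hd : A.valuation (slopeDen W (x₂ : L) y₁ y₂) < 1 := by
    rw [← coe_slopeDen hW, ← residue_eq_zero_iff_v_lt_one, residue_slopeDen_eq_zero_iff hW]
    exact hy
  have hℓv : 1 < A.valuation ℓ := by
    by_contra hle
    rw [not_lt] at hle
    by_cases hyy : residue A y₁ = residue A y₂
    · have hN : residue A (slopeNum (intCurve hW) x₁ x₂ y₁) = 0 := by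
        rw [residue_eq_zero_iff_v_lt_one, coe_slopeNum hW, ← hden, map_mul]
        exact lt_of_le_of_lt (mul_le_of_le_one_left' hle) hd
      obtain ⟨-, h | h⟩ := (Affine.nonsingular_iff _ _).1 hns
      · apply h
        simp only [slopeNum, redCurve, map_add, map_mul, map_sub, map_pow, map_a₁, map_a₂, map_a₄]
          at hN ⊢
        rw [← hx] at hN
        linear_combination -hN
      · apply h
        have h' := hy
        rw [← hx, ← hyy] at h'
        exact h'
    · have h1 : A.valuation ((y₁ : L) - y₂) = 1 := by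
        refine residue_ne_zero_iff_v_eq_one (a := y₁ - y₂).1 ?_
        rw [map_sub]; exact sub_ne_zero.2 hyy
      have h2 : A.valuation ((x₁ : L) - x₂) < 1 := residue_eq_iff_v_sub_lt_one.1 hx
      rw [← hsub, map_mul] at h1
      exact absurd h1 (ne_of_lt (lt_of_le_of_lt (mul_le_of_le_one_left' hle) h2))
  have hsq : A.valuation ℓ < A.valuation (ℓ ^ 2) := by
    rw [map_pow]; exact lt_self_pow₀ hℓv one_lt_two
  rw [← one_lt_v_iff, Affine.addX,
    show ℓ ^ 2 + W.a₁ * ℓ - W.a₂ - (x₁ : L) - x₂ = ℓ ^ 2 + (W.a₁ * ℓ - W.a₂ - x₁ - x₂) by ring,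
    A.valuation.map_add_eq_of_lt_left ?_]
  · exact lt_trans hℓv hsq
  · have hsq1 : 1 < A.valuation (ℓ ^ 2) := lt_trans hℓv hsq
    refine A.valuation.map_sub_lt (A.valuation.map_sub_lt (A.valuation.map_sub_lt ?_ ?_) ?_) ?_
    · rw [map_mul]; exact lt_of_le_of_lt (mul_le_of_le_one_left' (v_le_one hW.a₁)) hsq
    · exact lt_of_le_of_lt (v_le_one hW.a₂) hsq1
    · exact lt_of_le_of_lt (A.valuation_le_one x₁) hsq1
    · exact lt_of_le_of_lt (A.valuation_le_one x₂) hsq1

end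

/-- Adding a point outside the integral points to an integral point keeps the `X`-residue. -/
theorem addX_of_not_mem (hW : IntegralAt A W) {x₁ y₁ : L} (h₁ : W.toAffine.Equation x₁ y₁)
    (hx₁ : x₁ ∉ A) {x₂ y₂ : L} (h₂ : W.toAffine.Equation x₂ y₂) (hx₂ : x₂ ∈ A) :
    A.valuation (W.toAffine.addX x₁ x₂ (W.toAffine.slope x₁ x₂ y₁ y₂) - x₂) < 1 := by
  have hne : x₁ ≠ x₂ := fun h => hx₁ (h ▸ hx₂)
  have hy₂ : y₂ ∈ A := y_mem_of_x_mem hW h₂ hx₂
  obtain ⟨hsq, hXY⟩ := v_y_of_x_not_mem hW h₁ hx₁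
  have hX : 1 < A.valuation x₁ := one_lt_v_iff.2 hx₁
  have hYX2 : A.valuation y₁ < A.valuation x₁ ^ 2 := by
    refine lt_of_pow_lt_pow_left₀ 2 zero_le ?_
    rw [hsq, ← pow_mul]
    exact pow_lt_pow_right₀ hX (by norm_num)
  have hX2 : 1 < A.valuation x₁ ^ 2 := one_lt_pow₀ hX two_ne_zero
  have hD : A.valuation ((x₁ - x₂) ^ 2) = A.valuation x₁ ^ 2 := by
    rw [map_pow, A.valuation.map_sub_eq_of_lt_left (lt_of_le_of_lt (v_le_one hx₂) hX)]
  set E := x₁ * (3 * x₂ ^ 2 + 2 * W.a₂ * x₂ + W.a₄ - W.a₁ * y₂)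
      + y₁ * (-2 * y₂ - W.a₁ * x₂ - W.a₃) + (-x₂ ^ 3 + W.a₄ * x₂ + 2 * W.a₆ - W.a₃ * y₂) with hE
  have key : (W.toAffine.addX x₁ x₂ (W.toAffine.slope x₁ x₂ y₁ y₂) - x₂) * (x₁ - x₂) ^ 2 = E := by
    have e₁ := (Affine.equation_iff x₁ y₁).1 h₁
    have e₂ := (Affine.equation_iff x₂ y₂).1 h₂
    have hs : W.toAffine.slope x₁ x₂ y₁ y₂ * (x₁ - x₂) = y₁ - y₂ :=
      slope_mul_sub h₁ h₂ fun h => hne h.1
    generalize W.toAffine.slope x₁ x₂ y₁ y₂ = ℓ at hs ⊢
    simp only [Affine.addX, hE]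
    linear_combination e₁ + e₂
      + (ℓ * (x₁ - x₂) + (y₁ - y₂) + W.a₁ * (x₁ - x₂)) * hs
  have two : (2 : L) ∈ A := natCast_mem A 2
  have three : (3 : L) ∈ A := natCast_mem A 3
  have hEv : A.valuation E < A.valuation x₁ ^ 2 := by
    refine A.valuation.map_add_lt (A.valuation.map_add_lt ?_ ?_) ?_
    · rw [map_mul]
      exact lt_of_le_of_lt (mul_le_of_le_one_right' (v_le_one (sub_mem (add_mem (add_mem
        (mul_mem three (pow_mem hx₂ 2)) (mul_mem (mul_mem two hW.a₂) hx₂)) hW.a₄)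
        (mul_mem hW.a₁ hy₂)))) (lt_self_pow₀ hX one_lt_two)
    · rw [map_mul]
      exact lt_of_le_of_lt (mul_le_of_le_one_right' (v_le_one (sub_mem (sub_mem
        (mul_mem (neg_mem two) hy₂) (mul_mem hW.a₁ hx₂)) hW.a₃))) hYX2
    · exact lt_of_le_of_lt (v_le_one (sub_mem (add_mem (add_mem (neg_mem (pow_mem hx₂ 3))
        (mul_mem hW.a₄ hx₂)) (mul_mem two hW.a₆)) (mul_mem hW.a₃ hy₂))) hX2
  rw [← key, map_mul, hD] at hEv
  by_contra hle
  rw [not_lt] at hle
  exact absurd hEv (not_lt.2 (le_mul_of_one_le_left zero_le hle))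

end FLTAgent.Reduction
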