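import Mathlib.AlgebraicGeometry.EllipticCurve.Affine.Point
import Mathlib.RingTheory.Valuation.ValuationSubring
import Mathlib.RingTheory.LocalRing.ResidueField.Basic
import Mathlib.Tactic.LinearCombination

/-!
# Reduction of Weierstrass curves at a valuation subring

Basic valuation lemmas and the reduced curve.
-/

set_option autoImplicit false

namespace FLTAgent.Reduction

open WeierstrassCurve IsLocalRing

variable {L : Type*} [Field L] {A : ValuationSubring L}

lemma mem_of_v_le_one {x : L} (h : A.valuation x ≤ 1) : x ∈ A :=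
  A.mem_of_valuation_le_one x h

lemma v_le_one {x : L} (h : x ∈ A) : A.valuation x ≤ 1 :=
  (A.valuation_le_one_iff x).2 h

lemma one_lt_v_iff {x : L} : 1 < A.valuation x ↔ x ∉ A := by
  rw [← A.valuation_le_one_iff, not_le]

lemma residue_eq_zero_iff_v_lt_one {a : A} : residue A a = 0 ↔ A.valuation (a : L) < 1 := by
  rw [residue_eq_zero_iff, A.valuation_lt_one_iff]

lemma residue_ne_zero_iff_v_eq_one {a : A} : residue A a ≠ 0 ↔ A.valuation (a : L) = 1 := by
  rw [ne_eq, residue_eq_zero_iff_v_lt_one]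
  constructor
  · exact fun h => le_antisymm (A.valuation_le_one a) (not_lt.1 h)
  · intro h; rw [h]; exact lt_irrefl _

lemma residue_eq_iff_v_sub_lt_one {a b : A} :
    residue A a = residue A b ↔ A.valuation ((a : L) - b) < 1 := by
  rw [← sub_eq_zero, ← map_sub, residue_eq_zero_iff_v_lt_one]
  rfl

lemma v_mul_lt_one_left {x y : L} (hx : A.valuation x < 1) (hy : y ∈ A) :
    A.valuation (x * y) < 1 := by
  rw [map_mul]
  exact lt_of_le_of_lt (mul_le_of_le_one_right' (v_le_one hy)) hx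

lemma v_pow_lt_one {x : L} (hx : A.valuation x < 1) {n : ℕ} (hn : n ≠ 0) :
    A.valuation (x ^ n) < 1 := by
  rw [map_pow]
  exact pow_lt_one₀ zero_le hx hn

/-- The coefficients of `W` lie in the valuation subring `A`. -/
structure IntegralAt (A : ValuationSubring L) (W : WeierstrassCurve L) : Prop where
  a₁ : W.a₁ ∈ A
  a₂ : W.a₂ ∈ A
  a₃ : W.a₃ ∈ A
  a₄ : W.a₄ ∈ A
  a₆ : W.a₆ ∈ A

variable {W : WeierstrassCurve L}

/-- The model over `A`. -/
def intCurve (hW : IntegralAt A W) : WeierstrassCurve A :=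
  ⟨⟨W.a₁, hW.a₁⟩, ⟨W.a₂, hW.a₂⟩, ⟨W.a₃, hW.a₃⟩, ⟨W.a₄, hW.a₄⟩, ⟨W.a₆, hW.a₆⟩⟩

lemma intCurve_map (hW : IntegralAt A W) : (intCurve hW).map A.subtype = W := rfl

lemma IntegralAt.of_map (W₀ : WeierstrassCurve A) : IntegralAt A (W₀.map A.subtype) :=
  ⟨W₀.a₁.2, W₀.a₂.2, W₀.a₃.2, W₀.a₄.2, W₀.a₆.2⟩

/-- The reduced curve over the residue field. -/
noncomputable def redCurve (hW : IntegralAt A W) : WeierstrassCurve (ResidueField A) :=
  (intCurve hW).map (residue A)

lemma IntegralAt.Δ (hW : IntegralAt A W) : W.Δ ∈ A := by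
  have h : ((intCurve hW).map A.subtype).Δ ∈ A := by
    rw [map_Δ]; exact (intCurve hW).Δ.2
  rwa [intCurve_map] at h

lemma IntegralAt.c₄ (hW : IntegralAt A W) : W.c₄ ∈ A := by
  have h : ((intCurve hW).map A.subtype).c₄ ∈ A := by
    rw [map_c₄]; exact (intCurve hW).c₄.2
  rwa [intCurve_map] at h

lemma redCurve_Δ_eq_zero_iff (hW : IntegralAt A W) :
    (redCurve hW).Δ = 0 ↔ A.valuation W.Δ < 1 := by
  rw [redCurve, map_Δ, residue_eq_zero_iff_v_lt_one]
  conv_rhs => rw [← intCurve_map hW, map_Δ]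
  rfl

lemma redCurve_c₄_eq_zero_iff (hW : IntegralAt A W) :
    (redCurve hW).c₄ = 0 ↔ A.valuation W.c₄ < 1 := by
  rw [redCurve, map_c₄, residue_eq_zero_iff_v_lt_one]
  conv_rhs => rw [← intCurve_map hW, map_c₄]
  rfl

lemma equation_coe_iff (hW : IntegralAt A W) {x y : A} :
    W.toAffine.Equation (x : L) (y : L) ↔ (intCurve hW).toAffine.Equation x y :=
  Affine.map_equation (W := (intCurve hW).toAffine) A.subtype_injective x y

lemma equation_red (hW : IntegralAt A W) {x y : A}
    (h : W.toAffine.Equation (x : L) (y : L)) :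
    (redCurve hW).toAffine.Equation (residue A x) (residue A y) :=
  Affine.Equation.map (residue A) ((equation_coe_iff hW).1 h)

end FLTAgent.Reduction
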