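import Fermat.Agent.Reduction.Chord

/-!
# The nodal normal form: valuations of sums of points near the node

The curve is `y² + a₁xy = x³ + a₂x² + a₆` with `α` a root of `T² + a₁T - a₂`, such that
`κ = 2α + a₁` is a unit, and `r² = a₆` with `r` small. We use `f = y - αx` and `g = f + κx`, so
that `f g = x³ + a₆`.
-/

set_option autoImplicit false

namespace FLTAgent.Reduction

open WeierstrassCurve IsLocalRing

variable {L : Type*} [Field L] (A : ValuationSubring L)

/-- The data of a nodal normal form. -/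
structure IsNodalForm (V : WeierstrassCurve L) (α r : L) : Prop where
  integral : IntegralAt A V
  a₃ : V.a₃ = 0
  a₄ : V.a₄ = 0
  α_mem : α ∈ A
  root : α ^ 2 + V.a₁ * α = V.a₂
  unit : A.valuation (2 * α + V.a₁) = 1
  r_sq : r ^ 2 = V.a₆
  r_ne : r ≠ 0
  r_small : A.valuation r < 1

variable {A} {V : WeierstrassCurve L} {α r : L}

/-- The first branch coordinate. -/
def fCoord (α x y : L) : L := y - α * x

/-- The second branch coordinate. -/
def gCoord (V : WeierstrassCurve L) (α x y : L) : L := y + (α + V.a₁) * x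

lemma gCoord_eq (α x y : L) : gCoord V α x y = fCoord α x y + (2 * α + V.a₁) * x := by
  simp only [gCoord, fCoord]; ring

lemma IsNodalForm.equation (h : IsNodalForm A V α r) {x y : L} (he : V.toAffine.Equation x y) :
    y ^ 2 + V.a₁ * x * y = x ^ 3 + V.a₂ * x ^ 2 + V.a₆ := by
  have e := (Affine.equation_iff x y).1 he
  rw [h.a₃, h.a₄] at e
  linear_combination e

lemma IsNodalForm.fg (h : IsNodalForm A V α r) {x y : L} (he : V.toAffine.Equation x y) :
    fCoord α x y * gCoord V α x y = x ^ 3 + V.a₆ := by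
  simp only [fCoord, gCoord]
  linear_combination h.equation he - x ^ 2 * h.root

lemma IsNodalForm.v_a₆ (h : IsNodalForm A V α r) :
    A.valuation V.a₆ = A.valuation r ^ 2 := by rw [← h.r_sq, map_pow]

lemma IsNodalForm.r_pos (h : IsNodalForm A V α r) : 0 < A.valuation r :=
  zero_lt_iff.2 ((map_ne_zero A.valuation).2 h.r_ne)

lemma IsNodalForm.v_κ_mul (h : IsNodalForm A V α r) (x : L) :
    A.valuation ((2 * α + V.a₁) * x) = A.valuation x := by rw [map_mul, h.unit, one_mul]

lemma IsNodalForm.v_cube_add_lt (h : IsNodalForm A V α r) {x : L} (hS : A.valuation r < A.valuation x)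
    (hx : A.valuation x < 1) : A.valuation (x ^ 3 + V.a₆) < A.valuation x ^ 2 := by
  have hx0 : 0 < A.valuation x := lt_trans h.r_pos hS
  refine A.valuation.map_add_lt ?_ ?_
  · rw [map_pow]; exact pow_lt_pow_right_of_lt_one₀ hx0 hx (by norm_num)
  · rw [h.v_a₆]; exact pow_lt_pow_left₀ hS zero_le two_ne_zero

/-- Points near the node away from the middle lie on exactly one of the two branches. -/
lemma IsNodalForm.branch (h : IsNodalForm A V α r) {x y : L} (he : V.toAffine.Equation x y)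
    (hS : A.valuation r < A.valuation x) (hx : A.valuation x < 1) :
    (A.valuation (fCoord α x y) < A.valuation x ∧ A.valuation (gCoord V α x y) = A.valuation x) ∨
      (A.valuation (gCoord V α x y) < A.valuation x ∧
        A.valuation (fCoord α x y) = A.valuation x) := by
  have hg := gCoord_eq (V := V) α x y
  by_cases hf : A.valuation (fCoord α x y) < A.valuation x
  · exact Or.inl ⟨hf, by rw [hg, A.valuation.map_add_eq_of_lt_right (by rwa [h.v_κ_mul]),
      h.v_κ_mul]⟩
  · rw [not_lt] at hf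
    have hgl : A.valuation (gCoord V α x y) < A.valuation x := by
      by_contra hgl
      rw [not_lt] at hgl
      have h2 := h.v_cube_add_lt hS hx
      rw [← h.fg he, map_mul, pow_two] at h2
      exact absurd (mul_le_mul' hf hgl) (not_le.2 h2)
    refine Or.inr ⟨hgl, ?_⟩
    rw [show fCoord α x y = gCoord V α x y - (2 * α + V.a₁) * x by rw [hg]; ring,
      A.valuation.map_sub_eq_of_lt_right (by rwa [h.v_κ_mul]), h.v_κ_mul]

/-- In the middle both branch coordinates have the size of `r`. -/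
lemma IsNodalForm.middle (h : IsNodalForm A V α r) {x y : L} (he : V.toAffine.Equation x y)
    (hM : A.valuation x ≤ A.valuation r) :
    A.valuation (fCoord α x y) = A.valuation r ∧ A.valuation (gCoord V α x y) = A.valuation r := by
  have hx3 : A.valuation (x ^ 3) < A.valuation V.a₆ := by
    rw [map_pow, h.v_a₆]
    exact lt_of_le_of_lt (pow_le_pow_left₀ zero_le hM 3)
      (pow_lt_pow_right_of_lt_one₀ h.r_pos h.r_small (by norm_num))
  have hprod : A.valuation (fCoord α x y) * A.valuation (gCoord V α x y)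
      = A.valuation r ^ 2 := by
    rw [← map_mul, h.fg he, A.valuation.map_add_eq_of_lt_right hx3, h.v_a₆]
  have hg := gCoord_eq (V := V) α x y
  have hr2 : A.valuation r ^ 2 = A.valuation r * A.valuation r := pow_two _
  -- neither coordinate exceeds `r`
  have hf : A.valuation (fCoord α x y) ≤ A.valuation r := by
    by_contra hf
    rw [not_le] at hf
    have hge : A.valuation (gCoord V α x y) = A.valuation (fCoord α x y) := by
      rw [hg, A.valuation.map_add_eq_of_lt_left (by rw [h.v_κ_mul]; exact lt_of_le_of_lt hM hf)]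
    rw [hge, ← pow_two] at hprod
    exact absurd (pow_lt_pow_left₀ hf zero_le two_ne_zero) (not_lt.2 hprod.le)
  have hg' : A.valuation (gCoord V α x y) ≤ A.valuation r := by
    rw [hg]; exact A.valuation.map_add_le hf (by rwa [h.v_κ_mul])
  refine ⟨le_antisymm hf (le_of_not_gt fun hlt => ?_), le_antisymm hg' (le_of_not_gt fun hlt => ?_)⟩
  · exact absurd hprod (ne_of_lt (lt_of_le_of_lt (mul_le_mul' le_rfl hg')
      (by rw [hr2]; exact mul_lt_mul_of_pos_right hlt h.r_pos)))
  · exact absurd hprod (ne_of_lt (lt_of_le_of_lt (mul_le_mul' hf le_rfl)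
      (by rw [hr2]; exact mul_lt_mul_of_pos_left hlt h.r_pos)))

section

variable [DecidableEq L]

/-- The data attached to a non-vertical chord or tangent: third `X`-coordinate, reduced slope `μ`
and intercept `ν`, with the identities they satisfy. -/
structure ChordData (V : WeierstrassCurve L) (α x₁ y₁ x₂ y₂ x₃ y₃ μ ν : L) : Prop where
  line₁ : fCoord α x₁ y₁ = μ * x₁ + ν
  line₂ : fCoord α x₂ y₂ = μ * x₂ + ν
  sum_f : gCoord V α x₃ y₃ = -(μ * x₃ + ν)
  sum_g : fCoord α x₃ y₃ = -(μ * x₃ + ν + (2 * α + V.a₁) * x₃)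
  sum_x : x₃ = μ * (μ + (2 * α + V.a₁)) - x₁ - x₂
  prod_x : x₁ * x₂ * x₃ = ν ^ 2 - V.a₆
  pair_x : x₁ * x₂ + x₃ * (x₁ + x₂) = -(ν * (2 * μ + (2 * α + V.a₁)))
  key : μ * (gCoord V α x₁ y₁ + fCoord α x₂ y₂)
    = x₁ ^ 2 + x₁ * x₂ + x₂ ^ 2 - (2 * α + V.a₁) * fCoord α x₂ y₂
  key' : (μ + (2 * α + V.a₁)) * (fCoord α x₁ y₁ + gCoord V α x₂ y₂)
    = x₁ ^ 2 + x₁ * x₂ + x₂ ^ 2 + (2 * α + V.a₁) * gCoord V α x₂ y₂

theorem IsNodalForm.chordData (h : IsNodalForm A V α r) {x₁ y₁ x₂ y₂ : L}
    (h₁ : V.toAffine.Equation x₁ y₁) (h₂ : V.toAffine.Equation x₂ y₂)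
    (hxy : ¬(x₁ = x₂ ∧ y₁ = V.toAffine.negY x₂ y₂)) :
    ∃ μ ν : L, ChordData V α x₁ y₁ x₂ y₂
      (V.toAffine.addX x₁ x₂ (V.toAffine.slope x₁ x₂ y₁ y₂))
      (V.toAffine.addY x₁ x₂ y₁ (V.toAffine.slope x₁ x₂ y₁ y₂)) μ ν := by
  have hs := slope_mul_sub h₁ h₂ hxy
  have hd := slope_mul_den h₁ h₂ hxy
  simp only [slopeDen, slopeNum, h.a₃, h.a₄] at hd
  have e₁ := h.equation h₁
  have hr := h.root
  generalize V.toAffine.slope x₁ x₂ y₁ y₂ = l at hs hd
  refine ⟨l - α, y₁ - l * x₁, ?_, ?_, ?_, ?_, ?_, ?_, ?_, ?_, ?_⟩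
  · simp only [fCoord]; ring
  · simp only [fCoord]; linear_combination hs
  · simp only [gCoord, Affine.addY, Affine.negAddY, Affine.negY, Affine.addX, h.a₃]; ring
  · simp only [fCoord, Affine.addY, Affine.negAddY, Affine.negY, Affine.addX, h.a₃]; ring
  · simp only [Affine.addX]; linear_combination hr
  · simp only [Affine.addX]
    linear_combination x₁ * (hd - l * hs) - e₁
  · simp only [Affine.addX]
    linear_combination hd - l * hs
  · simp only [gCoord, fCoord]
    linear_combination hd + (α + V.a₁) * hs - (x₁ + x₂) * hr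
  · simp only [gCoord, fCoord]
    linear_combination hd - α * hs - (x₁ + x₂) * hr

end

namespace ChordData

variable {x₁ y₁ x₂ y₂ x₃ y₃ μ ν : L}

/-- The intercept identity. -/
lemma nu_mul (c : ChordData V α x₁ y₁ x₂ y₂ x₃ y₃ μ ν) :
    ν * (x₁ * fCoord α x₂ y₂ + x₂ * fCoord α x₁ y₁ + (2 * α + V.a₁) * (x₁ * x₂))
      = -(x₁ ^ 2 * x₂ ^ 2 - V.a₆ * (x₁ + x₂)) := by
  rw [c.line₁, c.line₂]
  linear_combination x₁ * x₂ * c.pair_x - (x₁ + x₂) * c.prod_x

/-- The intercept as a cross product. -/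
lemma nu_mul_sub (c : ChordData V α x₁ y₁ x₂ y₂ x₃ y₃ μ ν) :
    ν * (x₁ - x₂) = x₁ * fCoord α x₂ y₂ - x₂ * fCoord α x₁ y₁ := by
  rw [c.line₁, c.line₂]; ring

lemma mu_mul_sub (c : ChordData V α x₁ y₁ x₂ y₂ x₃ y₃ μ ν) :
    μ * (x₁ - x₂) = fCoord α x₁ y₁ - fCoord α x₂ y₂ := by
  rw [c.line₁, c.line₂]; ring

/-- Two points on the first branch. -/
theorem same_branch (h : IsNodalForm A V α r) (c : ChordData V α x₁ y₁ x₂ y₂ x₃ y₃ μ ν)
    (hx₁ : A.valuation x₁ < 1) (hS₂ : A.valuation r < A.valuation x₂)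
    (hf₁ : A.valuation (fCoord α x₁ y₁) < A.valuation x₁)
    (hf₂ : A.valuation (fCoord α x₂ y₂) < A.valuation x₂)
    (hle : A.valuation x₂ ≤ A.valuation x₁) :
    A.valuation x₃ < 1 ∧
    ((A.valuation r < A.valuation x₁ * A.valuation x₂ ∧
        A.valuation x₃ = A.valuation x₁ * A.valuation x₂ ∧
        A.valuation (fCoord α x₃ y₃) < A.valuation x₃) ∨
      (A.valuation x₁ * A.valuation x₂ = A.valuation r ∧ A.valuation x₃ ≤ A.valuation r) ∨
      (A.valuation r < A.valuation x₃ ∧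
        A.valuation x₃ * (A.valuation x₁ * A.valuation x₂) = A.valuation r ^ 2 ∧
        A.valuation (gCoord V α x₃ y₃) < A.valuation x₃)) := by
  have hX₂ : 0 < A.valuation x₂ := lt_trans h.r_pos hS₂
  have hX₁ : 0 < A.valuation x₁ := lt_of_lt_of_le hX₂ hle
  set P := A.valuation x₁ * A.valuation x₂ with hP
  have hP0 : 0 < P := mul_pos hX₁ hX₂
  have hκ : A.valuation (2 * α + V.a₁) = 1 := h.unit
  -- `μ` is small
  have hg₁ : A.valuation (gCoord V α x₁ y₁) = A.valuation x₁ := by
    rw [gCoord_eq, A.valuation.map_add_eq_of_lt_right (by rwa [h.v_κ_mul]), h.v_κ_mul]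
  have hμ : A.valuation μ < 1 := by
    have h1 : A.valuation (gCoord V α x₁ y₁ + fCoord α x₂ y₂) = A.valuation x₁ := by
      rw [A.valuation.map_add_eq_of_lt_left (by rw [hg₁]; exact lt_of_lt_of_le hf₂ hle), hg₁]
    have hsq : A.valuation x₁ * A.valuation x₁ < A.valuation x₁ :=
      mul_lt_of_lt_one_left hX₁ hx₁
    have h2 : A.valuation (μ * (gCoord V α x₁ y₁ + fCoord α x₂ y₂)) < A.valuation x₁ := by
      rw [c.key]
      refine A.valuation.map_sub_lt (A.valuation.map_add_lt (A.valuation.map_add_lt ?_ ?_) ?_) ?_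
      · rw [map_pow, pow_two]; exact hsq
      · rw [map_mul]; exact lt_of_le_of_lt (mul_le_mul' le_rfl hle) hsq
      · rw [map_pow, pow_two]; exact lt_of_le_of_lt (mul_le_mul' hle hle) hsq
      · rw [map_mul, hκ, one_mul]; exact lt_of_lt_of_le hf₂ hle
    rw [map_mul, h1] at h2
    by_contra hμ
    exact absurd h2 (not_lt.2 (le_mul_of_one_le_left zero_le (not_lt.1 hμ)))
  have hx₃ : A.valuation x₃ < 1 := by
    rw [c.sum_x]
    exact A.valuation.map_sub_lt (A.valuation.map_sub_lt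
      (v_mul_lt_one_left hμ (add_mem (mem_of_v_le_one hμ.le) (mem_of_v_le_one hκ.le))) hx₁)
      (lt_of_le_of_lt hle hx₁)
  refine ⟨hx₃, ?_⟩
  -- the intercept
  set D := x₁ * fCoord α x₂ y₂ + x₂ * fCoord α x₁ y₁ + (2 * α + V.a₁) * (x₁ * x₂) with hD
  have hcross : A.valuation (x₁ * fCoord α x₂ y₂ + x₂ * fCoord α x₁ y₁) < P := by
    refine A.valuation.map_add_lt ?_ ?_
    · rw [map_mul]; exact mul_lt_mul_of_pos_left hf₂ hX₁
    · rw [map_mul, hP, mul_comm (A.valuation x₁)]; exact mul_lt_mul_of_pos_left hf₁ hX₂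
  have hvD : A.valuation D = P := by
    rw [hD, A.valuation.map_add_eq_of_lt_right (by rw [h.v_κ_mul, map_mul]; exact hcross),
      h.v_κ_mul, map_mul]
  have hν : ν * D = -(x₁ ^ 2 * x₂ ^ 2 - V.a₆ * (x₁ + x₂)) := c.nu_mul
  have hvT1 : A.valuation (x₁ ^ 2 * x₂ ^ 2) = P ^ 2 := by
    rw [map_mul, map_pow, map_pow, hP, mul_pow]
  have hvT2 : A.valuation (V.a₆ * (x₁ + x₂)) ≤ A.valuation r ^ 2 * A.valuation x₁ := by
    rw [map_mul, h.v_a₆]; exact mul_le_mul' le_rfl (A.valuation.map_add_le le_rfl hle)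
  have hN1 : A.valuation r ^ 2 * A.valuation x₁ < A.valuation r ^ 2 :=
    mul_lt_of_lt_one_right (pow_pos h.r_pos 2) hx₁
  have hprod : A.valuation (ν ^ 2 - V.a₆) = P * A.valuation x₃ := by
    rw [← c.prod_x, map_mul, map_mul]
  rcases lt_trichotomy P (A.valuation r) with hlt | heq | hgt
  · -- below the middle
    right; right
    have hν' : A.valuation ν < A.valuation r := by
      have h1 : A.valuation (ν * D) < A.valuation r * P := by
        rw [hν, A.valuation.map_neg]
        refine A.valuation.map_sub_lt (hvT1 ▸ ?_) (lt_of_le_of_lt hvT2 ?_)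
        · rw [pow_two]; exact mul_lt_mul_of_pos_right hlt hP0
        · rw [pow_two, mul_assoc]
          refine mul_lt_mul_of_pos_left ?_ h.r_pos
          rw [hP, mul_comm]; exact mul_lt_mul_of_pos_left hS₂ hX₁
      rw [map_mul, hvD] at h1
      exact lt_of_mul_lt_mul_right h1 zero_le
    have heq : P * A.valuation x₃ = A.valuation r ^ 2 := by
      rw [← hprod, A.valuation.map_sub_eq_of_lt_right, h.v_a₆]
      rw [map_pow, h.v_a₆]; exact pow_lt_pow_left₀ hν' zero_le two_ne_zero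
    have hr3 : A.valuation r < A.valuation x₃ := by
      by_contra hle'
      rw [not_lt] at hle'
      have : P * A.valuation x₃ < A.valuation r ^ 2 := by
        rw [pow_two]
        exact lt_of_le_of_lt (mul_le_mul' le_rfl hle') (mul_lt_mul_of_pos_right hlt h.r_pos)
      exact absurd heq (ne_of_lt this)
    refine ⟨hr3, by rw [mul_comm]; exact heq, ?_⟩
    rw [c.sum_f, A.valuation.map_neg]
    refine A.valuation.map_add_lt ?_ (lt_trans hν' hr3)
    rw [map_mul]; exact mul_lt_of_lt_one_left (lt_trans h.r_pos hr3) hμ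
  · -- exactly the middle
    right; left
    refine ⟨heq, ?_⟩
    have hν' : A.valuation ν ≤ A.valuation r := by
      have h1 : A.valuation (ν * D) ≤ A.valuation r * P := by
        rw [hν, A.valuation.map_neg, heq, ← pow_two]
        exact A.valuation.map_sub_le (by rw [hvT1, heq]) (hvT2.trans hN1.le)
      rw [map_mul, hvD] at h1
      exact le_of_mul_le_mul_right h1 hP0
    have h2 : P * A.valuation x₃ ≤ A.valuation r * A.valuation r := by
      rw [← hprod, ← pow_two]
      exact A.valuation.map_sub_le (by rw [map_pow]; exact pow_le_pow_left₀ zero_le hν' 2)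
        h.v_a₆.le
    rw [heq] at h2
    exact le_of_mul_le_mul_left h2 h.r_pos
  · -- above the middle
    left
    have hN2 : A.valuation r ^ 2 < P ^ 2 := pow_lt_pow_left₀ hgt zero_le two_ne_zero
    have hT2 : A.valuation (V.a₆ * (x₁ + x₂)) < P ^ 2 :=
      lt_of_le_of_lt hvT2 (lt_trans hN1 hN2)
    have hν' : A.valuation ν = P := by
      have h1 : A.valuation (ν * D) = P * P := by
        rw [hν, A.valuation.map_neg, A.valuation.map_sub_eq_of_lt_left (by rw [hvT1]; exact hT2),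
          hvT1, pow_two]
      rw [map_mul, hvD] at h1
      exact mul_right_cancel₀ hP0.ne' h1
    have hX₃ : A.valuation x₃ = P := by
      have h2 : P * A.valuation x₃ = P * P := by
        rw [← hprod, A.valuation.map_sub_eq_of_lt_left, map_pow, hν', pow_two]
        rw [h.v_a₆, map_pow, hν']; exact hN2
      exact mul_left_cancel₀ hP0.ne' h2
    refine ⟨hgt, hX₃, ?_⟩
    -- the point lies on the first branch
    have hE : A.valuation (x₁ * x₂ + (2 * α + V.a₁) * ν) < P := by
      have h1 : A.valuation ((x₁ * x₂ + (2 * α + V.a₁) * ν) * D) < P * P := by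
        have e : (x₁ * x₂ + (2 * α + V.a₁) * ν) * D
            = x₁ * x₂ * (x₁ * fCoord α x₂ y₂ + x₂ * fCoord α x₁ y₁)
              + (2 * α + V.a₁) * (V.a₆ * (x₁ + x₂)) := by
          rw [hD]; linear_combination (2 * α + V.a₁) * hν
        rw [e]
        refine A.valuation.map_add_lt ?_ (by rw [h.v_κ_mul, ← pow_two]; exact hT2)
        rw [map_mul, map_mul, ← hP]; exact mul_lt_mul_of_pos_left hcross hP0
      rw [map_mul, hvD] at h1
      exact lt_of_mul_lt_mul_right h1 zero_le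
    have h3 : A.valuation ((ν + (2 * α + V.a₁) * x₃) * (x₁ * x₂)) < P * P := by
      rw [show (ν + (2 * α + V.a₁) * x₃) * (x₁ * x₂)
          = ν * (x₁ * x₂ + (2 * α + V.a₁) * ν) - (2 * α + V.a₁) * V.a₆ by
        linear_combination (2 * α + V.a₁) * c.prod_x]
      refine A.valuation.map_sub_lt ?_ (by rw [h.v_κ_mul, h.v_a₆, ← pow_two]; exact hN2)
      rw [map_mul, hν']; exact mul_lt_mul_of_pos_left hE hP0
    rw [map_mul, map_mul, ← hP] at h3
    rw [c.sum_g, A.valuation.map_neg, hX₃,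
      show μ * x₃ + ν + (2 * α + V.a₁) * x₃ = μ * x₃ + (ν + (2 * α + V.a₁) * x₃) by ring]
    refine A.valuation.map_add_lt ?_ (lt_of_mul_lt_mul_right h3 zero_le)
    rw [map_mul, hX₃]; exact mul_lt_of_lt_one_left hP0 hμ

/-- The intercept for two points on opposite branches. -/
lemma opposite_nu (c : ChordData V α x₁ y₁ x₂ y₂ x₃ y₃ μ ν)
    (hf₁ : A.valuation (fCoord α x₁ y₁) < A.valuation x₁)
    (hf₂ : A.valuation (fCoord α x₂ y₂) = A.valuation x₂) (hx₂ : 0 < A.valuation x₂) :
    A.valuation ν * A.valuation (x₁ - x₂) = A.valuation x₁ * A.valuation x₂ := by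
  rw [← map_mul, c.nu_mul_sub, A.valuation.map_sub_eq_of_lt_left, map_mul, hf₂]
  rw [map_mul, map_mul, hf₂, mul_comm (A.valuation x₁)]
  exact mul_lt_mul_of_pos_left hf₁ hx₂

/-- Opposite branches, different sizes. -/
theorem opposite_branch_lt (h : IsNodalForm A V α r) (c : ChordData V α x₁ y₁ x₂ y₂ x₃ y₃ μ ν)
    (hx₁ : A.valuation x₁ < 1) (hS₂ : A.valuation r < A.valuation x₂)
    (hf₁ : A.valuation (fCoord α x₁ y₁) < A.valuation x₁)
    (hf₂ : A.valuation (fCoord α x₂ y₂) = A.valuation x₂)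
    (hlt : A.valuation x₂ < A.valuation x₁) :
    A.valuation r < A.valuation x₃ ∧ A.valuation x₃ < 1 ∧
      A.valuation x₃ * A.valuation x₁ = A.valuation x₂ ∧
      A.valuation (gCoord V α x₃ y₃) < A.valuation x₃ := by
  have hX₂ : 0 < A.valuation x₂ := lt_trans h.r_pos hS₂
  have hX₁ : 0 < A.valuation x₁ := lt_trans hX₂ hlt
  have hd : A.valuation (x₁ - x₂) = A.valuation x₁ := A.valuation.map_sub_eq_of_lt_left hlt
  have hν : A.valuation ν = A.valuation x₂ := by
    have h1 := c.opposite_nu hf₁ hf₂ hX₂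
    rw [hd, mul_comm (A.valuation x₁)] at h1
    exact mul_right_cancel₀ hX₁.ne' h1
  have hμ : A.valuation μ < 1 := by
    have h1 : A.valuation (μ * (x₁ - x₂)) < A.valuation x₁ := by
      rw [c.mu_mul_sub]; exact A.valuation.map_sub_lt hf₁ (hf₂ ▸ hlt)
    rw [map_mul, hd] at h1
    by_contra hμ
    exact absurd h1 (not_lt.2 (le_mul_of_one_le_left zero_le (not_lt.1 hμ)))
  have h2 : A.valuation x₁ * A.valuation x₂ * A.valuation x₃
      = A.valuation x₂ * A.valuation x₂ := by
    rw [← map_mul, ← map_mul, c.prod_x, A.valuation.map_sub_eq_of_lt_left, map_pow, hν, pow_two]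
    rw [h.v_a₆, map_pow, hν]; exact pow_lt_pow_left₀ hS₂ zero_le two_ne_zero
  have h3 : A.valuation x₃ * A.valuation x₁ = A.valuation x₂ := by
    refine mul_right_cancel₀ hX₂.ne' ?_
    rw [← h2]; ac_rfl
  have hlt₃ : A.valuation x₂ < A.valuation x₃ := by
    by_contra hle
    rw [not_lt] at hle
    exact absurd h3 (ne_of_lt (lt_of_le_of_lt (mul_le_mul' hle le_rfl)
      (mul_lt_of_lt_one_right hX₂ hx₁)))
  refine ⟨lt_trans hS₂ hlt₃, ?_, h3, ?_⟩
  · by_contra hle
    exact absurd (h3 ▸ hlt) (not_lt.2 (le_mul_of_one_le_left zero_le (not_lt.1 hle)))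
  · rw [c.sum_f, A.valuation.map_neg]
    refine A.valuation.map_add_lt ?_ (hν ▸ hlt₃)
    rw [map_mul]; exact mul_lt_of_lt_one_left (lt_trans hX₂ hlt₃) hμ

/-- Opposite branches, same size: the sum leaves the node, further if the points are close. -/
theorem opposite_branch_eq (h : IsNodalForm A V α r) (c : ChordData V α x₁ y₁ x₂ y₂ x₃ y₃ μ ν)
    (hne : x₁ ≠ x₂) (hS₂ : A.valuation r < A.valuation x₂)
    (hf₁ : A.valuation (fCoord α x₁ y₁) < A.valuation x₁)
    (hf₂ : A.valuation (fCoord α x₂ y₂) = A.valuation x₂)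
    (heq : A.valuation x₁ = A.valuation x₂) :
    1 ≤ A.valuation x₃ ∧ (A.valuation (x₁ - x₂) < A.valuation x₁ → 1 < A.valuation x₃) := by
  have hX : 0 < A.valuation x₁ := heq ▸ lt_trans h.r_pos hS₂
  have hd0 : 0 < A.valuation (x₁ - x₂) :=
    zero_lt_iff.2 ((map_ne_zero A.valuation).2 (sub_ne_zero.2 hne))
  have hd : A.valuation (x₁ - x₂) ≤ A.valuation x₁ := A.valuation.map_sub_le le_rfl heq.ge
  have h1 : A.valuation ν * A.valuation (x₁ - x₂) = A.valuation x₁ * A.valuation x₁ := by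
    rw [c.opposite_nu hf₁ hf₂ (heq ▸ hX), heq]
  have hν : A.valuation x₁ ≤ A.valuation ν := by
    by_contra hν
    exact absurd h1 (ne_of_lt (lt_of_le_of_lt (mul_le_mul' le_rfl hd)
      (mul_lt_mul_of_pos_right (not_le.1 hν) hX)))
  have h2 : A.valuation x₁ * A.valuation x₁ * A.valuation x₃
      = A.valuation ν * A.valuation ν := by
    conv_lhs => arg 1; arg 2; rw [heq]
    rw [← map_mul, ← map_mul, c.prod_x, A.valuation.map_sub_eq_of_lt_left, map_pow, pow_two]
    rw [h.v_a₆, map_pow]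
    exact pow_lt_pow_left₀ (lt_of_lt_of_le (heq ▸ hS₂) hν) zero_le two_ne_zero
  refine ⟨?_, fun hclose => ?_⟩
  · by_contra hlt
    exact absurd h2 (ne_of_lt (lt_of_lt_of_le (mul_lt_of_lt_one_right (mul_pos hX hX) (not_le.1 hlt))
      (mul_le_mul' hν hν)))
  · have hν' : A.valuation x₁ < A.valuation ν := by
      by_contra hν'
      exact absurd h1 (ne_of_lt (lt_of_le_of_lt (mul_le_mul' (not_lt.1 hν') le_rfl)
        (mul_lt_mul_of_pos_left hclose hX)))
    by_contra hle
    exact absurd h2 (ne_of_lt (lt_of_le_of_lt (mul_le_of_le_one_right' (not_lt.1 hle))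
      (mul_lt_mul'' hν' hν' zero_le zero_le)))

/-- A point on the first branch and a middle point. -/
theorem branch_middle (h : IsNodalForm A V α r) (c : ChordData V α x₁ y₁ x₂ y₂ x₃ y₃ μ ν)
    (he₂ : V.toAffine.Equation x₂ y₂)
    (hS₁ : A.valuation r < A.valuation x₁) (hx₁ : A.valuation x₁ < 1)
    (hf₁ : A.valuation (fCoord α x₁ y₁) < A.valuation x₁)
    (hM : A.valuation x₂ ≤ A.valuation r) :
    A.valuation r < A.valuation x₃ ∧ A.valuation x₃ < 1 ∧
      A.valuation x₃ * A.valuation x₁ = A.valuation r ∧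
      A.valuation (gCoord V α x₃ y₃) < A.valuation x₃ := by
  have hX₁ : 0 < A.valuation x₁ := lt_trans h.r_pos hS₁
  have hf₂ := (h.middle he₂ hM).1
  have hd : A.valuation (x₁ - x₂) = A.valuation x₁ :=
    A.valuation.map_sub_eq_of_lt_left (lt_of_le_of_lt hM hS₁)
  have hν : A.valuation ν = A.valuation r := by
    have h1 : A.valuation (ν * (x₁ - x₂)) = A.valuation r * A.valuation x₁ := by
      rw [c.nu_mul_sub, A.valuation.map_sub_eq_of_lt_left, map_mul, hf₂, mul_comm]
      rw [map_mul, map_mul, hf₂, mul_comm (A.valuation x₁)]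
      exact lt_of_le_of_lt (mul_le_mul' hM le_rfl) (mul_lt_mul_of_pos_left hf₁ h.r_pos)
    rw [map_mul, hd] at h1
    exact mul_right_cancel₀ hX₁.ne' h1
  have hμ : A.valuation μ < 1 := by
    have h1 : A.valuation (μ * (x₁ - x₂)) < A.valuation x₁ := by
      rw [c.mu_mul_sub]; exact A.valuation.map_sub_lt hf₁ (hf₂ ▸ hS₁)
    rw [map_mul, hd] at h1
    by_contra hμ
    exact absurd h1 (not_lt.2 (le_mul_of_one_le_left zero_le (not_lt.1 hμ)))
  have hu : A.valuation (2 * μ + (2 * α + V.a₁)) = 1 := by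
    rw [A.valuation.map_add_eq_of_lt_right, h.unit]
    rw [h.unit, mul_comm]
    exact v_mul_lt_one_left hμ (natCast_mem A 2)
  have h3 : A.valuation x₃ * A.valuation x₁ = A.valuation r := by
    have e : x₃ * (x₁ + x₂) = -(ν * (2 * μ + (2 * α + V.a₁))) - x₁ * x₂ := by
      linear_combination c.pair_x
    rw [← A.valuation.map_add_eq_of_lt_left (lt_of_le_of_lt hM hS₁), ← map_mul, e,
      A.valuation.map_sub_eq_of_lt_left, A.valuation.map_neg, map_mul, hu, mul_one, hν]
    rw [A.valuation.map_neg, map_mul, map_mul, hu, mul_one, hν]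
    exact lt_of_le_of_lt (mul_le_mul' le_rfl hM) (mul_lt_of_lt_one_left h.r_pos hx₁)
  have hlt₃ : A.valuation r < A.valuation x₃ := by
    by_contra hle
    exact absurd h3 (ne_of_lt (lt_of_le_of_lt (mul_le_mul' (not_lt.1 hle) le_rfl)
      (mul_lt_of_lt_one_right h.r_pos hx₁)))
  refine ⟨hlt₃, ?_, h3, ?_⟩
  · by_contra hle
    exact absurd (h3 ▸ hS₁) (not_lt.2 (le_mul_of_one_le_left zero_le (not_lt.1 hle)))
  · rw [c.sum_f, A.valuation.map_neg]
    refine A.valuation.map_add_lt ?_ (hν ▸ hlt₃)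
    rw [map_mul]; exact mul_lt_of_lt_one_left (lt_trans h.r_pos hlt₃) hμ

/-- Two middle points: the sum leaves the node. -/
theorem middle_middle (h : IsNodalForm A V α r) (c : ChordData V α x₁ y₁ x₂ y₂ x₃ y₃ μ ν)
    (he₁ : V.toAffine.Equation x₁ y₁) (he₂ : V.toAffine.Equation x₂ y₂)
    (hM₁ : A.valuation x₁ ≤ A.valuation r) (hM₂ : A.valuation x₂ ≤ A.valuation r) :
    1 ≤ A.valuation x₃ := by
  obtain ⟨hf₁, hg₁⟩ := h.middle he₁ hM₁
  obtain ⟨hf₂, hg₂⟩ := h.middle he₂ hM₂
  have hS : A.valuation (x₁ ^ 2 + x₁ * x₂ + x₂ ^ 2) < A.valuation r := by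
    have hlt : A.valuation r * A.valuation r < A.valuation r :=
      mul_lt_of_lt_one_left h.r_pos h.r_small
    refine A.valuation.map_add_lt (A.valuation.map_add_lt ?_ ?_) ?_
    · rw [map_pow, pow_two]; exact lt_of_le_of_lt (mul_le_mul' hM₁ hM₁) hlt
    · rw [map_mul]; exact lt_of_le_of_lt (mul_le_mul' hM₁ hM₂) hlt
    · rw [map_pow, pow_two]; exact lt_of_le_of_lt (mul_le_mul' hM₂ hM₂) hlt
  have hbig : ∀ m a b : L, A.valuation (m * (a + b)) = A.valuation r → A.valuation a = A.valuation r →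
      A.valuation b = A.valuation r → 1 ≤ A.valuation m := by
    intro m a b hm ha hb
    by_contra hlt
    rw [map_mul] at hm
    exact absurd hm (ne_of_lt (lt_of_le_of_lt (mul_le_mul' le_rfl (A.valuation.map_add_le ha.le hb.le))
      (mul_lt_of_lt_one_left h.r_pos (not_le.1 hlt))))
  have hμ : 1 ≤ A.valuation μ := by
    refine hbig μ _ _ ?_ hg₁ hf₂
    rw [c.key, A.valuation.map_sub_eq_of_lt_right (by rwa [h.v_κ_mul, hf₂]), h.v_κ_mul, hf₂]
  have hμκ : 1 ≤ A.valuation (μ + (2 * α + V.a₁)) := by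
    refine hbig _ _ _ ?_ hf₁ hg₂
    rw [c.key', A.valuation.map_add_eq_of_lt_right (by rwa [h.v_κ_mul, hg₂]), h.v_κ_mul, hg₂]
  have h1 : 1 ≤ A.valuation (μ * (μ + (2 * α + V.a₁))) := by
    rw [map_mul]; exact one_le_mul hμ hμκ
  have h2 : A.valuation x₁ < A.valuation (μ * (μ + (2 * α + V.a₁))) :=
    lt_of_lt_of_le (lt_of_le_of_lt hM₁ h.r_small) h1
  have h3 : A.valuation x₂ < A.valuation (μ * (μ + (2 * α + V.a₁)) - x₁) := by
    rw [A.valuation.map_sub_eq_of_lt_left h2]
    exact lt_of_lt_of_le (lt_of_le_of_lt hM₂ h.r_small) h1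
  rwa [c.sum_x, A.valuation.map_sub_eq_of_lt_left h3, A.valuation.map_sub_eq_of_lt_left h2]

end ChordData

end FLTAgent.Reduction
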