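import Fermat.Agent.Reduction.Inertia

/-!
# `p ∣ v_q(Δ)` makes the `p`-torsion unramified at a multiplicative prime `q ≠ p`
-/

set_option autoImplicit false

namespace FLTAgent.Reduction

open WeierstrassCurve WeierstrassCurve.Affine.Point IsLocalRing

variable {A : ValuationSubring Qbar} {q : ℕ} {W : WeierstrassCurve ℤ} {σ : Qbar ≃ₐ[ℚ] Qbar}

/-- The key case: a torsion point on the first branch, of the size of a fixed element. -/
private lemma smul_eq_first (hA : A.LiesOverPrime q) (hq : q.Prime) {x₀ y₀ α r : Qbar}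
    (hn : IsNode A (WQbar W) x₀ y₀ α)
    (h : IsNodalForm A (nodeChange x₀ y₀ • WQbar W) α r) (hσ : σ ∈ A.inertiaSubgroupIn ℚ)
    {n : ℕ} (hqn : ¬ q ∣ n) {x y : Qbar} (hxy : (WQbar W).toAffine.Nonsingular x y)
    (htor : n • Affine.Point.some _ _ hxy = 0)
    {c : Qbar} (hc : σ c = c) (hvc : A.valuation (x - x₀) = A.valuation c)
    (hS : A.valuation r < A.valuation (x - x₀)) (hx1 : A.valuation (x - x₀) < 1)
    (hf : A.valuation (fCoord α (x - x₀) (y - y₀)) < A.valuation (x - x₀)) :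
    σ • Affine.Point.some _ _ hxy = Affine.Point.some _ _ hxy := by
  obtain ⟨hσx, hσy, hσα⟩ := node_fixed hn hσ
  have hc0 : c ≠ 0 := fun h0 => by
    rw [h0, _root_.map_zero] at hvc
    exact (lt_trans h.r_pos hS).ne' hvc
  have hd := inertia_le_decomposition hσ
  set e := vcEquiv (nodeChange x₀ y₀) (WQbar W) with he
  apply e.injective
  rw [smul_some, he, vcEquiv_some, vcEquiv_some]
  have hn₁ : (nodeChange x₀ y₀ • WQbar W).toAffine.Nonsingular (x - x₀) (y - y₀) := by
    simpa only [vcX_node, vcY_node] using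
      (nonsingular_vc (nodeChange x₀ y₀) (WQbar W) x y).2 hxy
  have hn₂ : (nodeChange x₀ y₀ • WQbar W).toAffine.Nonsingular (σ x - x₀) (σ y - y₀) := by
    simpa only [vcX_node, vcY_node] using
      (nonsingular_vc (nodeChange x₀ y₀) (WQbar W) (σ x) (σ y)).2 (nonsingular_smul hxy)
  have hσ₁ : σ x - x₀ = σ (x - x₀) := by rw [map_sub, hσx]
  have hv₂ : A.valuation (σ x - x₀) = A.valuation (x - x₀) := by rw [hσ₁, v_map_eq_qbar hd]
  have hf₂ : A.valuation (fCoord α (σ x - x₀) (σ y - y₀)) < A.valuation (x - x₀) := by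
    rw [fCoord_map hn hσ, v_map_eq_qbar hd]; exact hf
  simp only [vcX_node, vcY_node]
  set P₁ := Affine.Point.some _ _ hn₁ with hP₁
  set P₂ := Affine.Point.some _ _ hn₂ with hP₂
  change P₂ = P₁
  have htor₁ : n • P₁ = 0 := by
    have h' := congrArg e htor
    rw [map_nsmul, _root_.map_zero, he, vcEquiv_some] at h'
    simpa only [vcX_node, vcY_node] using h'
  have htor₂ : n • P₂ = 0 := by
    have h3 : n • (σ • Affine.Point.some _ _ hxy) = σ • (n • Affine.Point.some _ _ hxy) :=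
      ((DistribSMul.toAddMonoidHom (WQbar W).toAffine.Point σ).map_nsmul n _).symm
    rw [htor, smul_zero', smul_some] at h3
    have h' := congrArg e h3
    rw [map_nsmul, _root_.map_zero, he, vcEquiv_some] at h'
    simpa only [vcX_node, vcY_node] using h'
  by_contra hne
  -- the chord through `P₁` and `-P₂`
  have hxy' : ¬((x - x₀) = (σ x - x₀) ∧
      (y - y₀) = (nodeChange x₀ y₀ • WQbar W).toAffine.negY (σ x - x₀)
        ((nodeChange x₀ y₀ • WQbar W).toAffine.negY (σ x - x₀) (σ y - y₀))) := by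
    rintro ⟨hx', hy'⟩
    rw [Affine.negY_negY] at hy'
    exact hne (by simp only [hP₁, hP₂, Affine.Point.some.injEq]; exact ⟨hx'.symm, hy'.symm⟩)
  have hn₃ := (Affine.nonsingular_neg (σ x - x₀) (σ y - y₀)).2 hn₂
  have hg₂ : A.valuation (gCoord (nodeChange x₀ y₀ • WQbar W) α (σ x - x₀)
      ((nodeChange x₀ y₀ • WQbar W).toAffine.negY (σ x - x₀) (σ y - y₀)))
      < A.valuation (σ x - x₀) := by
    rw [h.gCoord_negY, A.valuation.map_neg, hv₂]; exact hf₂
  have hS₂ : A.valuation r < A.valuation (σ x - x₀) := hv₂.symm ▸ hS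
  have hf₃ : A.valuation (fCoord α (σ x - x₀)
      ((nodeChange x₀ y₀ • WQbar W).toAffine.negY (σ x - x₀) (σ y - y₀)))
      = A.valuation (σ x - x₀) := by
    rcases h.branch hn₃.1 hS₂ (hv₂.symm ▸ hx1) with hb | hb
    · exact absurd hb.2 hg₂.ne
    · exact hb.2
  have hne' : x - x₀ ≠ σ x - x₀ := by
    intro hx'
    rcases Affine.Y_eq_of_X_eq hn₁.1 hn₃.1 hx' with hy' | hy'
    · rw [← hy', ← hx'] at hf₃
      exact absurd hf₃ hf.ne
    · exact hxy' ⟨hx', hy'⟩
  obtain ⟨μ, ν, cd⟩ := h.chordData hn₁.1 hn₃.1 hxy'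
  obtain ⟨-, hbig⟩ := cd.opposite_branch_eq h hne' hS₂ hf hf₃ hv₂.symm
  have hclose : A.valuation ((x - x₀) - (σ x - x₀)) < A.valuation (x - x₀) := by
    rw [A.valuation.map_sub_swap, hσ₁, hvc]
    exact v_map_sub_lt hσ hc hc0 hvc.le
  have hmem : P₁ + -P₂ ∈ oneSubgroup h.integral := by
    rw [hP₁, hP₂, Affine.Point.neg_some, Affine.Point.add_some hxy']
    exact one_lt_v_iff.1 (hbig hclose)
  have h0 := eq_zero_of_mem_oneSubgroup h.integral hmem
    (mt (residue_natCast_eq_zero_iff hA hq n).1 hqn)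
    (by rw [nsmul_add, htor₁, neg_nsmul, htor₂, _root_.neg_zero, add_zero])
  exact hne ((eq_neg_of_add_eq_zero_left h0).trans (neg_neg P₂)).symm

/-- If `p ∣ v_q(Δ)` at a multiplicative prime `q ≠ p`, then `p`-torsion is unramified at `q`. -/
theorem galoisRepUnramifiedAt_of_dvd (W : WeierstrassCurve ℤ) {q p : ℕ} (hq : q.Prime)
    (hΔ0 : W.Δ ≠ 0) (hbad : (q : ℤ) ∣ W.Δ) (hc₄ : ¬ (q : ℤ) ∣ W.c₄) (hp : p.Prime)
    (hp2 : p ≠ 2) (hpq : q ≠ p) (hdvd : p ∣ padicValInt q W.Δ) :
    GaloisRepUnramifiedAt (K := Qbar) ℚ (W.map (Int.castRingHom ℚ)) p q := by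
  intro A hA σ hσ T
  apply Subtype.ext
  have hqp : ¬ q ∣ p := fun hd => hpq ((Nat.prime_dvd_prime_iff_eq hq hp).1 hd)
  have htor := nsmul_coe_torsionBy T
  change σ • (T : (WQbar W).toAffine.Point) = T
  generalize (T : (WQbar W).toAffine.Point) = P at htor ⊢
  by_cases hP : P ∈ zeroSubgroup (integralAt W A)
  · exact smul_eq_of_mem_zeroSubgroup hA hq hqp hσ hP htor
  obtain ⟨x₀, y₀, α, r, hn, h⟩ := exists_nodal hA hq hΔ0 hbad hc₄
  rcases P with _ | ⟨x, y, hxy⟩
  · exact absurd trivial hP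
  have hinj : h.comp (vcEquiv (nodeChange x₀ y₀) (WQbar W) (.some _ _ hxy)) ≠ 1 := fun h1 =>
    hP ((hn.inZero_vc_iff (integralAt W A) h.integral _).1 (h.comp_eq_one_iff.1 h1))
  have hpow : h.comp (vcEquiv (nodeChange x₀ y₀) (WQbar W) (.some _ _ hxy)) ^ p = 1 :=
    comp_pow_eq_one h (by rw [← map_nsmul, htor, _root_.map_zero])
  rw [vcEquiv_some, h.comp_some] at hinj hpow
  simp only [vcX_node, vcY_node] at hinj hpow
  have hn₁ : (nodeChange x₀ y₀ • WQbar W).toAffine.Nonsingular (x - x₀) (y - y₀) := by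
    simpa only [vcX_node, vcY_node] using
      (nonsingular_vc (nodeChange x₀ y₀) (WQbar W) x y).2 hxy
  rcases le_or_gt 1 (A.valuation (x - x₀)) with h1 | hx1
  · exact absurd (h.compCoord_out _ h1) hinj
  rcases le_or_gt (A.valuation (x - x₀)) (A.valuation r) with hM | hS
  · -- the middle has order two
    obtain ⟨j, rfl⟩ := hp.odd_of_ne_two hp2
    rw [h.compCoord_middle _ hM] at hinj hpow
    rw [pow_succ, pow_mul, pow_two, ← h.cls_mul h.rUnit_ne_zero h.rUnit_ne_zero, ← pow_two,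
      h.cls_sq_r, one_pow, one_mul] at hpow
    exact absurd hpow hinj
  -- the size of `x - x₀` is a power of `q`
  have hv0 : A.valuation (x - x₀) ≠ 0 := (lt_trans h.r_pos hS).ne'
  have hclsp : h.cls (A.valuation (x - x₀)) ^ p = 1 := by
    rcases h.branch hn₁.1 hS hx1 with hb | hb
    · rwa [h.compCoord_first hS hx1 hb.1] at hpow
    · rwa [h.compCoord_second hn₁.1 hS hx1 hb.1, inv_pow, inv_eq_one] at hpow
  obtain ⟨c, hc, hvc⟩ : ∃ c : Qbar, σ c = c ∧ A.valuation (x - x₀) = A.valuation c := by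
    rw [h.cls_mk0 hv0, ← QuotientGroup.mk_pow, QuotientGroup.eq_one_iff] at hclsp
    obtain ⟨k, hk⟩ := Subgroup.mem_zpowers_iff.1 hclsp
    obtain ⟨m, hm⟩ := hdvd
    refine ⟨(q : Qbar) ^ ((m : ℤ) * k), by simp [map_zpow₀], ?_⟩
    have hk' : (A.valuation r ^ 2) ^ k = A.valuation (x - x₀) ^ p := by
      have := congrArg Units.val hk
      simpa [IsNodalForm.period] using this
    have hN : A.valuation r ^ 2 = A.valuation (q : Qbar) ^ (p * m) := by
      rw [← h.v_Δ, variableChange_Δ, WQbar_Δ, nodeChange, inv_one, Units.val_one, one_pow,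
        one_mul, v_intCast_eq_pow hA hq hΔ0, hm]
    refine (pow_left_inj₀ zero_le zero_le hp.ne_zero).1 ?_
    rw [← hk', hN, map_zpow₀, ← zpow_natCast, ← zpow_natCast (A.valuation (q : Qbar) ^ _),
      ← zpow_mul, ← zpow_mul]
    congr 1
    push_cast
    ring
  rcases h.branch hn₁.1 hS hx1 with hb | hb
  · exact smul_eq_first hA hq hn h hσ hqp hxy htor hc hvc hS hx1 hb.1
  · have hneg := (Affine.nonsingular_neg x y).2 hxy
    have key : σ • Affine.Point.some _ _ hneg = Affine.Point.some _ _ hneg := by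
      refine smul_eq_first hA hq hn h hσ hqp hneg ?_ hc hvc hS hx1 ?_
      · rw [← Affine.Point.neg_some hxy, neg_nsmul, htor, _root_.neg_zero]
      · have e : (WQbar W).toAffine.negY x y - y₀
            = (nodeChange x₀ y₀ • WQbar W).toAffine.negY (x - x₀) (y - y₀) := by
          have := negY_vc (nodeChange x₀ y₀) (WQbar W) x y
          rw [vcX_node, vcY_node, vcY_node] at this
          exact this.symm
        rw [e, h.fCoord_negY, A.valuation.map_neg]
        exact hb.1
    rw [← Affine.Point.neg_some hxy, smul_neg] at key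
    exact neg_inj.1 key

end FLTAgent.Reduction
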